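import Fermat.Agent.HeckeRep.Compare

/-!
# Irreducible odd representations are absolutely irreducible

Criterion for (absolute) irreducibility of odd two-dimensional representations in terms of the
trace only, stability under base change.
-/

set_option autoImplicit false
set_option linter.unusedSectionVars false
set_option linter.unusedVariables false

open Polynomial
open scoped TensorProduct

namespace Fermat.Agent.HeckeRep

open Fermat.Agent.S30aux

section Field

variable {G : Type*} [Group G] {K V : Type*} [Field K] [AddCommGroup V] [Module K V]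

/-- a nonzero `x r s` implies irreducibility -/
theorem eq_bot_or_top_of_xx (hV : Module.finrank K V = 2) (ρ : G →* Module.End K V)
    {t : G → K} {d : G →* Kˣ} (H : IsPseudo t d) (htr : ∀ g, LinearMap.trace K V (ρ g) = t g)
    {c : G} (hc : c * c = 1) (hdc : ((d c : Kˣ) : K) = -1) {κ : K} (hκ : 2 * κ = 1) {r s : G}
    (hrs : xx κ t c r s ≠ 0) (W : Submodule K V) (hW : ∀ g, ∀ x ∈ W, ρ g x ∈ W) :
    W = ⊥ ∨ W = ⊤ := by
  have : Module.Finite K V := Module.finite_of_finrank_eq_succ hV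
  have h2 : (2 : K) ≠ 0 := by
    intro h; rw [h, zero_mul] at hκ; exact zero_ne_one hκ
  have hX : xx κ t c r s = (Units.mk0 _ hrs : Kˣ) := rfl
  obtain ⟨b, hb⟩ := exists_basis_of_trace hV ρ H htr hc hdc hκ (Units.mk0 _ hrs) hX
  set M := matRep H hκ hc hdc (Units.mk0 _ hrs) hX with hM
  have htc := t_c H hκ hc hdc
  have hMc : M c = !![1, 0; 0, -1] := by
    rw [hM, matRep_apply, xx_c_left hκ hc htc H.one, zero_mul]
    have e1 : aa κ t c c = 1 := by rw [aa, hc, htc, H.one, zero_add, mul_comm, hκ]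
    have e2 : dd κ t c c = -1 := by rw [dd, hc, htc, H.one]; linear_combination -hκ
    have e3 : xx κ t c r c = 0 := by
      rw [xx, e1, aa, aa, H.comm r c, H.comm c (r * c), mul_assoc r c c, hc, mul_one]; ring
    rw [e1, e2, e3]
  have hMs : M s 1 0 = xx κ t c r s := by rw [hM, matRep_apply]; rfl
  have hMr : M r 0 1 = 1 := by
    rw [hM, matRep_apply]
    show xx κ t c r s * (((Units.mk0 _ hrs)⁻¹ : Kˣ) : K) = 1
    rw [Units.val_inv_eq_inv_val, Units.val_mk0, mul_inv_cancel₀ hrs]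
  refine eq_bot_or_top_of_basis h2 b W (ρ c) (ρ r) (ρ s) ?_ ?_ ?_ ?_
    (hb s 0) (hb r 1) (fun x hx => hW c x hx) (fun x hx => hW r x hx) (fun x hx => hW s x hx)
  · rw [hb, hMc]; simp
  · rw [hb, hMc]; simp
  · rw [hMs]; exact hrs
  · rw [hMr]; exact one_ne_zero

end Field

section Res

variable {k : Type} [Field k]

/-- the trace of a residual representation -/
noncomputable def rtr (ρ : ResidualGaloisRep k) (g : AlgebraicClosure ℚ ≃ₐ[ℚ] AlgebraicClosure ℚ) :
    k := LinearMap.trace k ρ.V (ρ.ρ g)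

lemma rtr_baseChange (ρ : ResidualGaloisRep k) (K : Type) [Field K] [Algebra k K]
    (g : AlgebraicClosure ℚ ≃ₐ[ℚ] AlgebraicClosure ℚ) :
    rtr (ρ.baseChange K) g = algebraMap k K (rtr ρ g) := by
  show LinearMap.trace K _ ((ρ.ρ g).baseChange K) = _
  rw [LinearMap.trace_baseChange]; rfl

variable {c : AlgebraicClosure ℚ ≃ₐ[ℚ] AlgebraicClosure ℚ} (hc : c * c = 1)
  {κ : k} (hκ : 2 * κ = 1)

include hc hκ

theorem exists_xx_of_isIrreducible (ρ : ResidualGaloisRep k) (hdc : LinearMap.det (ρ.ρ c) = -1)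
    (hirr : ρ.IsIrreducible) : ∃ r s, xx κ (rtr ρ) c r s ≠ 0 :=
  exists_xx_ne_zero ρ.finrank_eq ρ.ρ hirr (isPseudo_residual ρ) (fun _ => rfl) hc hdc hκ

theorem isIrreducible_of_xx (ρ : ResidualGaloisRep k) (hdc : LinearMap.det (ρ.ρ c) = -1)
    {r s : AlgebraicClosure ℚ ≃ₐ[ℚ] AlgebraicClosure ℚ} (hrs : xx κ (rtr ρ) c r s ≠ 0) :
    ρ.IsIrreducible :=
  fun W hW => eq_bot_or_top_of_xx ρ.finrank_eq ρ.ρ (isPseudo_residual ρ) (fun _ => rfl) hc hdc hκ
    hrs W hW

lemma xx_baseChange (ρ : ResidualGaloisRep k) (K : Type) [Field K] [Algebra k K]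
    (r s : AlgebraicClosure ℚ ≃ₐ[ℚ] AlgebraicClosure ℚ) :
    xx (algebraMap k K κ) (rtr (ρ.baseChange K)) c r s = algebraMap k K (xx κ (rtr ρ) c r s) := by
  have h : rtr (ρ.baseChange K) = fun g => algebraMap k K (rtr ρ g) :=
    funext fun g => rtr_baseChange ρ K g
  rw [h, map_xx]

lemma det_baseChange_c (ρ : ResidualGaloisRep k) (K : Type) [Field K] [Algebra k K]
    (hdc : LinearMap.det (ρ.ρ c) = -1) : LinearMap.det ((ρ.baseChange K).ρ c) = -1 := by
  show LinearMap.det ((ρ.ρ c).baseChange K) = -1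
  rw [LinearMap.det_baseChange, hdc, map_neg, map_one]

theorem isIrreducible_baseChange_iff (ρ : ResidualGaloisRep k) (hdc : LinearMap.det (ρ.ρ c) = -1)
    (K : Type) [Field K] [Algebra k K] :
    (ρ.baseChange K).IsIrreducible ↔ ρ.IsIrreducible := by
  have hκ' : 2 * algebraMap k K κ = 1 := by rw [← map_ofNat (algebraMap k K) 2, ← map_mul, hκ, map_one]
  constructor
  · intro h
    obtain ⟨r, s, hrs⟩ := exists_xx_of_isIrreducible hc hκ' (ρ.baseChange K)
      (det_baseChange_c hc hκ ρ K hdc) h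
    rw [xx_baseChange hc hκ, ne_eq, map_eq_zero] at hrs
    exact isIrreducible_of_xx hc hκ ρ hdc hrs
  · intro h
    obtain ⟨r, s, hrs⟩ := exists_xx_of_isIrreducible hc hκ ρ hdc h
    refine isIrreducible_of_xx hc hκ' (ρ.baseChange K) (det_baseChange_c hc hκ ρ K hdc)
      (r := r) (s := s) ?_
    rw [xx_baseChange hc hκ, ne_eq, map_eq_zero]
    exact hrs

theorem isAbsolutelyIrreducible_iff (ρ : ResidualGaloisRep k)
    (hdc : LinearMap.det (ρ.ρ c) = -1) : ρ.IsAbsolutelyIrreducible ↔ ρ.IsIrreducible :=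
  isIrreducible_baseChange_iff hc hκ ρ hdc (AlgebraicClosure k)

theorem isAbsolutelyIrreducible_baseChange_iff (ρ : ResidualGaloisRep k)
    (hdc : LinearMap.det (ρ.ρ c) = -1) (K : Type) [Field K] [Algebra k K] :
    (ρ.baseChange K).IsAbsolutelyIrreducible ↔ ρ.IsAbsolutelyIrreducible := by
  have hκ' : 2 * algebraMap k K κ = 1 := by rw [← map_ofNat (algebraMap k K) 2, ← map_mul, hκ, map_one]
  rw [isAbsolutelyIrreducible_iff hc hκ' _ (det_baseChange_c hc hκ ρ K hdc),
    isAbsolutelyIrreducible_iff hc hκ ρ hdc, isIrreducible_baseChange_iff hc hκ ρ hdc]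

theorem isAbsolutelyIrreducible_baseChangeAlong_iff (ρ : ResidualGaloisRep k)
    (hdc : LinearMap.det (ρ.ρ c) = -1) {K : Type} [Field K] (φ : k →+* K) :
    (ρ.baseChangeAlong φ).IsAbsolutelyIrreducible ↔ ρ.IsAbsolutelyIrreducible :=
  letI : Algebra k K := φ.toAlgebra
  isAbsolutelyIrreducible_baseChange_iff hc hκ ρ hdc K

end Res

section Charpoly

variable {k : Type} [Field k]

/-- charpoly of a base change -/
lemma charpoly_baseChangeAlong (ρ : ResidualGaloisRep k) {K : Type} [Field K] (φ : k →+* K)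
    (g : AlgebraicClosure ℚ ≃ₐ[ℚ] AlgebraicClosure ℚ) :
    ((ρ.baseChangeAlong φ).ρ g).charpoly = (ρ.ρ g).charpoly.map φ := by
  letI : Algebra k K := φ.toAlgebra
  show LinearMap.charpoly ((ρ.ρ g).baseChange K) = _
  rw [LinearMap.charpoly_baseChange]; rfl

/-- two residual representations with the same characteristic polynomials at Frobenius elements,
one of them odd and absolutely irreducible, are equivalent -/
theorem residual_isEquiv_of_frobenius {ρ ρ' : ResidualGaloisRep k}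
    {c : AlgebraicClosure ℚ ≃ₐ[ℚ] AlgebraicClosure ℚ} (hc : c * c = 1)
    {κ : k} (hκ : 2 * κ = 1)
    (hdc : LinearMap.det (ρ.ρ c) = -1) (hirr : ρ.IsIrreducible)
    (S : Set ℕ) (hS : S.Finite)
    (hF : ∀ ℓ : ℕ, ℓ.Prime → ℓ ∉ S → ∀ A : ValuationSubring (AlgebraicClosure ℚ),
      A.LiesOverPrime ℓ → ∀ φ : AlgebraicClosure ℚ ≃ₐ[ℚ] AlgebraicClosure ℚ, A.IsFrobeniusAt φ ℓ →
        (ρ.ρ φ).charpoly = (ρ'.ρ φ).charpoly) : ρ.IsEquiv ρ' := by
  have H := isPseudo_residual ρ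
  have H' := isPseudo_residual ρ'
  have hlev : ∀ ρ : ResidualGaloisRep k, ∃ L : IntermediateField ℚ (AlgebraicClosure ℚ),
      FiniteDimensional ℚ L ∧ ∀ σ : AlgebraicClosure ℚ ≃ₐ[ℚ] AlgebraicClosure ℚ,
        (∀ x ∈ L, σ x = x) → ∀ y, LinearMap.trace k ρ.V (ρ.ρ (y * σ)) -
          LinearMap.trace k ρ.V (ρ.ρ y) ∈ (⊥ : Ideal k) := by
    intro ρ
    obtain ⟨L, hL, h1⟩ := ρ.factorsThroughFiniteLevel
    refine ⟨L, hL, fun σ hσ y => ?_⟩
    rw [map_mul, h1 σ hσ, mul_one, sub_self]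
    exact Ideal.zero_mem _
  have htr : ∀ g, LinearMap.trace k ρ'.V (ρ'.ρ g) = LinearMap.trace k ρ.V (ρ.ρ g) := by
    intro g
    have h1 := sub_mem_of_frobenius (R := k) H' H ⊥ (hlev ρ') (hlev ρ) S hS ?_ g
    · exact sub_eq_zero.mp ((Submodule.mem_bot k).mp h1)
    · intro ℓ hℓ hℓS A hA φ hφ
      have h2 := hF ℓ hℓ hℓS A hA φ hφ
      rw [charpoly_eq_trace_det ρ.finrank_eq, charpoly_eq_trace_det ρ'.finrank_eq] at h2
      have h3 : LinearMap.trace k ρ.V (ρ.ρ φ) = LinearMap.trace k ρ'.V (ρ'.ρ φ) := by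
        have := congrArg (fun q => q.coeff 1) h2
        simpa [coeff_X, coeff_C] using this
      have h4 : LinearMap.det (ρ.ρ φ) = LinearMap.det (ρ'.ρ φ) := by
        have := congrArg (fun q => q.coeff 0) h2
        simpa [coeff_X, coeff_C] using this
      refine ⟨?_, ?_⟩
      · rw [h3, sub_self]; exact Ideal.zero_mem _
      · show LinearMap.det (ρ'.ρ φ) - LinearMap.det (ρ.ρ φ) ∈ _
        rw [h4, sub_self]; exact Ideal.zero_mem _
  obtain ⟨r, s, hrs⟩ := exists_xx_of_isIrreducible hc hκ ρ hdc hirr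
  obtain ⟨e, he⟩ := exists_equiv_of_trace ρ.finrank_eq ρ'.finrank_eq ρ.ρ ρ'.ρ H (fun _ => rfl) htr
    hc hdc hκ (isUnit_iff_ne_zero.mpr hrs)
  exact ⟨⟨e, he⟩⟩

end Charpoly

end Fermat.Agent.HeckeRep
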