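import Fermat.Agent.HeckeRep.Rep
import Fermat.Agent.Frob.Density

/-!
# Comparing two-dimensional representations with the same trace

* `exists_basis_of_trace`: a representation with trace an odd pseudo-character `t` such that some
  `x r s` is a unit has a basis in which it is given by the explicit matrices `matRep`.
* `GaloisRepAdic.isEquiv_of_trace`, `ResidualGaloisRep.isEquiv_of_trace`: uniqueness.
* `exists_isUnit_xx`: residual irreducibility produces a unit `x r s`.
* `eq_of_frobenius`: two pseudo-characters of finite level which agree at Frobenius elements agree.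
-/

set_option autoImplicit false
set_option linter.unusedSectionVars false
set_option linter.unusedVariables false

open Polynomial
open scoped TensorProduct

namespace Fermat.Agent.HeckeRep

open Fermat.Agent.S30aux

section Matrices

variable {R : Type*} [CommRing R]

lemma matrix_polar (A B : Matrix (Fin 2) (Fin 2) R) :
    A * B + B * A = A.trace • B + B.trace • A + ((A * B).trace - A.trace * B.trace) • 1 := by
  ext i j
  fin_cases i <;> fin_cases j <;>
    simp [Matrix.mul_apply, Fin.sum_univ_two, Matrix.trace_fin_two] <;> ring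

variable {V : Type*} [AddCommGroup V] [Module R V] [Module.Free R V] [Module.Finite R V]
  [Nontrivial R]

lemma end_polar (hV : Module.finrank R V = 2) (A B : Module.End R V) :
    A * B + B * A = LinearMap.trace R V A • B + LinearMap.trace R V B • A +
      (LinearMap.trace R V (A * B) - LinearMap.trace R V A * LinearMap.trace R V B) •
        (1 : Module.End R V) := by
  let b : Module.Basis (Fin 2) R V := Module.finBasisOfFinrankEq R V hV
  apply (LinearMap.toMatrix b b).injective
  rw [map_add, map_add, map_add, map_smul, map_smul, map_smul, LinearMap.toMatrix_mul,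
    LinearMap.toMatrix_mul, LinearMap.trace_eq_matrix_trace R b,
    LinearMap.trace_eq_matrix_trace R b B, LinearMap.trace_eq_matrix_trace R b (A * B),
    LinearMap.toMatrix_mul, LinearMap.toMatrix_one]
  exact matrix_polar _ _

lemma end_mul_self (hV : Module.finrank R V = 2) (A : Module.End R V) :
    A * A = LinearMap.trace R V A • A - LinearMap.det A • (1 : Module.End R V) :=
  mul_self_eq hV A

/-- the trace and the determinant of a two-dimensional representation form a pseudo-character -/
lemma isPseudo_trace {G : Type*} [Group G] (hV : Module.finrank R V = 2)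
    (ρ : G →* Module.End R V) (d : G →* Rˣ) (hd : ∀ g, LinearMap.det (ρ g) = ((d g : Rˣ) : R)) :
    IsPseudo (fun g => LinearMap.trace R V (ρ g)) d where
  one := by
    simp only [map_one]
    rw [LinearMap.trace_one, hV]; norm_num
  mul g h := by
    have h1 := end_mul_self hV (ρ h)
    rw [hd] at h1
    have h2 : ρ (g * h⁻¹) * (ρ h * ρ h) = ρ (g * h) := by
      rw [← map_mul ρ, ← map_mul ρ, mul_assoc g, ← mul_assoc h⁻¹, inv_mul_cancel, one_mul]
    have h3 : ρ (g * h⁻¹) * ρ h = ρ g := by
      rw [← map_mul ρ, mul_assoc g, inv_mul_cancel, mul_one]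
    rw [h1, mul_sub, mul_smul_comm, mul_smul_comm, mul_one, h3] at h2
    have h4 := congrArg (LinearMap.trace R V) h2
    rw [map_sub, map_smul, map_smul, smul_eq_mul, smul_eq_mul] at h4
    show LinearMap.trace R V (ρ g) * LinearMap.trace R V (ρ h) =
      LinearMap.trace R V (ρ (g * h)) + ((d h : Rˣ) : R) * LinearMap.trace R V (ρ (g * h⁻¹))
    linear_combination h4

end Matrices

section Basis

variable {G : Type*} [Group G] {T : Type*} [CommRing T] [IsLocalRing T]
  {V : Type*} [AddCommGroup V] [Module T V] [Module.Free T V] [Module.Finite T V]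

/-- the polar algebra attached to a representation -/
noncomputable def polarAlgOfRep (hV : Module.finrank T V = 2) (ρ : G →* Module.End T V) {t : G → T}
    (htr : ∀ g, LinearMap.trace T V (ρ g) = t g) : PolarAlg t (Module.End T V) where
  u := ρ
  polar g h := by
    rw [← htr, ← htr, ← htr, map_mul]
    exact end_polar hV _ _
  φ := LinearMap.trace T V
  φu := htr

/-- an idempotent of trace one in a free module of rank two has rank one. -/
lemma idem_apply (hV : Module.finrank T V = 2) {e : Module.End T V} (he : e * e = e)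
    (htr : LinearMap.trace T V e = 1) {e0 : V} (he0 : e e0 = e0) {l : V →ₗ[T] T} (hl : l e0 = 1)
    (w : V) : ∃ a : T, e w = a • e0 := by
  set A : Module.End T V := l.smulRight w with hA
  have h1 := end_polar hV A e
  rw [htr, one_smul, mul_one] at h1
  have h2 : e * A * e = LinearMap.trace T V (A * e) • e := by
    have h3 := congrArg (fun B => e * B) h1
    have h4 := congrArg (fun B => B * e) h3
    simp only [mul_add, add_mul, smul_mul_assoc, mul_smul_comm, mul_one] at h4
    have e1 : e * (A * e) * e = e * A * e := by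
      rw [mul_assoc e (A * e) e, mul_assoc A, he, ← mul_assoc]
    have e2 : e * (e * A) * e = e * A * e := by rw [← mul_assoc, he]
    rw [e1, e2, he, he] at h4
    have h5 : e * A * e + e * A * e = e * A * e + LinearMap.trace T V (A * e) • e := by
      rw [h4, sub_smul]; abel
    exact add_left_cancel h5
  refine ⟨LinearMap.trace T V (A * e), ?_⟩
  have h3 := LinearMap.congr_fun h2 e0
  simp only [Module.End.mul_apply, LinearMap.smul_apply, he0] at h3
  rw [← h3, hA, LinearMap.smulRight_apply, hl, one_smul]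

theorem exists_basis_of_trace (hV : Module.finrank T V = 2)
    (ρ : G →* Module.End T V) {t : G → T} {d : G →* Tˣ} (H : IsPseudo t d)
    (htr : ∀ g, LinearMap.trace T V (ρ g) = t g)
    {c : G} (hc : c * c = 1) (hdc : ((d c : Tˣ) : T) = -1)
    {κ : T} (hκ : 2 * κ = 1) {r s : G} (X : Tˣ) (hX : xx κ t c r s = X) :
    ∃ b : Module.Basis (Fin 2) T V, ∀ g i, ρ g (b i) =
      matRep H hκ hc hdc X hX g 0 i • b 0 + matRep H hκ hc hdc X hX g 1 i • b 1 := by
  have htc := t_c H hκ hc hdc
  have ht1 := H.one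
  set P := polarAlgOfRep hV ρ htr with hP
  have hPu : ∀ g, P.u g = ρ g := fun g => rfl
  set e : Module.End T V := P.ee κ c with he
  set f : Module.End T V := P.ff κ c with hf
  have hef : e + f = 1 := PolarAlg.ee_add_ff hκ hc htc ht1 P
  have htre : LinearMap.trace T V e = 1 := PolarAlg.φ_ee hκ hc htc ht1 P
  have htrf : LinearMap.trace T V f = 1 := PolarAlg.φ_ff hκ hc htc ht1 P
  have hee : e * e = e := by
    have := PolarAlg.ee_mul_ee hκ hc htc ht1 P 1
    rw [map_one, mul_one, aa, mul_one, ht1, htc, add_zero, mul_comm, hκ, one_smul] at this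
    exact this
  have hff : f * f = f := by
    have := PolarAlg.ff_mul_ff hκ hc htc ht1 P 1
    rw [map_one, mul_one, dd, mul_one, ht1, htc, sub_zero, mul_comm, hκ, one_smul] at this
    exact this
  have hfe : f * e = 0 := by
    have h1 : f * (e + f) = f := by rw [hef, mul_one]
    rw [mul_add, hff] at h1
    simpa using h1
  have hef0 : e * f = 0 := by
    have h1 : e * (e + f) = e := by rw [hef, mul_one]
    rw [mul_add, hee] at h1
    simpa using h1
  -- a vector with unit coordinate
  obtain ⟨e0, l, he0, hl⟩ : ∃ (e0 : V) (l : V →ₗ[T] T), e e0 = e0 ∧ l e0 = 1 := by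
    let b : Module.Basis (Fin 2) T V := Module.finBasisOfFinrankEq T V hV
    have h1 : LinearMap.trace T V e = b.coord 0 (e (b 0)) + b.coord 1 (e (b 1)) := by
      rw [LinearMap.trace_eq_matrix_trace T b, Matrix.trace_fin_two, LinearMap.toMatrix_apply,
        LinearMap.toMatrix_apply]; rfl
    rw [htre] at h1
    have h2 : IsUnit (b.coord 0 (e (b 0)) + b.coord 1 (e (b 1))) := by rw [← h1]; exact isUnit_one
    rcases IsLocalRing.isUnit_or_isUnit_of_isUnit_add h2 with h3 | h3
    · obtain ⟨u, hu⟩ := h3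
      refine ⟨e (b 0), ((u⁻¹ : Tˣ) : T) • b.coord 0, ?_, ?_⟩
      · rw [← Module.End.mul_apply, hee]
      · rw [LinearMap.smul_apply, ← hu, smul_eq_mul, Units.inv_mul]
    · obtain ⟨u, hu⟩ := h3
      refine ⟨e (b 1), ((u⁻¹ : Tˣ) : T) • b.coord 1, ?_, ?_⟩
      · rw [← Module.End.mul_apply, hee]
      · rw [LinearMap.smul_apply, ← hu, smul_eq_mul, Units.inv_mul]
  set e1 : V := ((X⁻¹ : Tˣ) : T) • (f (ρ s e0)) with he1
  have hfe1 : f e1 = e1 := by
    rw [he1, map_smul, ← Module.End.mul_apply, hff]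
  have hfe0 : f e0 = 0 := by rw [← he0, ← Module.End.mul_apply, hfe]; rfl
  have hee1 : e e1 = 0 := by rw [← hfe1, ← Module.End.mul_apply, hef0]; rfl
  -- action formulas
  have hXf : ∀ g, f (ρ g e0) = xx κ t c r g • e1 := by
    intro g
    have h1 : (X : T) • (f * ρ g * e) = xx κ t c r g • (f * ρ s * e) := by
      have h2 := PolarAlg.ee_ff_ee hκ hc htc ht1 P r s
      have h3 := PolarAlg.ff_ee_ff hκ hc htc ht1 P g r
      rw [PolarAlg.dd_sub hκ hc htc ht1 P H.comm] at h3
      rw [hX] at h2
      calc (X : T) • (f * ρ g * e) = f * ρ g * ((X : T) • e) := by rw [mul_smul_comm]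
        _ = f * ρ g * (e * ρ r * f * ρ s * e) := by rw [← h2]; rfl
        _ = (f * ρ g * e * ρ r * f) * ρ s * e := by simp only [mul_assoc]
        _ = (xx κ t c r g • f) * ρ s * e := by rw [← h3]; rfl
        _ = _ := by rw [smul_mul_assoc, smul_mul_assoc]
    have h2 := LinearMap.congr_fun h1 e0
    simp only [LinearMap.smul_apply, Module.End.mul_apply, he0] at h2
    rw [he1, smul_comm, ← h2, smul_smul, Units.inv_mul, one_smul]
  have hae : ∀ g, e (ρ g e0) = aa κ t c g • e0 := by
    intro g
    have h1 := LinearMap.congr_fun (PolarAlg.ee_mul_ee hκ hc htc ht1 P g) e0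
    have h2 : e (ρ g (e e0)) = aa κ t c g • e e0 := h1
    rwa [he0] at h2
  have hXe : ∀ g, e (ρ g e1) = (xx κ t c g s * ((X⁻¹ : Tˣ) : T)) • e0 := by
    intro g
    have h1 := LinearMap.congr_fun (PolarAlg.ee_ff_ee hκ hc htc ht1 P g s) e0
    have h2 : e (ρ g (f (ρ s (e e0)))) = xx κ t c g s • e e0 := h1
    rw [he0] at h2
    rw [he1, map_smul, map_smul, h2, smul_smul, mul_comm]
  have hdf : ∀ g, f (ρ g e1) = dd κ t c g • e1 := by
    intro g
    have h1 := LinearMap.congr_fun (PolarAlg.ff_mul_ff hκ hc htc ht1 P g) e1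
    have h2 : f (ρ g (f e1)) = dd κ t c g • f e1 := h1
    rwa [hfe1] at h2
  have hdec : ∀ w : V, w = e w + f w := by
    intro w
    rw [← LinearMap.add_apply, hef]; rfl
  -- the functional for `e1`
  have hl1 : (l ∘ₗ e ∘ₗ ρ r) e1 = 1 := by
    show l (e (ρ r e1)) = 1
    rw [hXe, hX, Units.mul_inv, one_smul, hl]
  have hsurj : ⊤ ≤ Submodule.span T (Set.range ![e0, e1]) := by
    intro w _
    obtain ⟨a, ha⟩ := idem_apply hV hee htre he0 hl w
    obtain ⟨b, hb⟩ := idem_apply hV hff htrf hfe1 hl1 w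
    rw [hdec w, ha, hb]
    exact Submodule.add_mem _ (Submodule.smul_mem _ _ (Submodule.subset_span ⟨0, rfl⟩))
      (Submodule.smul_mem _ _ (Submodule.subset_span ⟨1, rfl⟩))
  have hli : LinearIndependent T ![e0, e1] := by
    rw [LinearIndependent.pair_iff]
    intro x y hxy
    constructor
    · have h1 := congrArg e hxy
      rw [map_add, map_smul, map_smul, he0, hee1, smul_zero, add_zero, map_zero] at h1
      have h2 := congrArg l h1
      rwa [map_smul, hl, map_zero, smul_eq_mul, mul_one] at h2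
    · have h1 := congrArg f hxy
      rw [map_add, map_smul, map_smul, hfe0, hfe1, smul_zero, zero_add, map_zero] at h1
      have h2 := congrArg (l ∘ₗ e ∘ₗ ρ r) h1
      rwa [map_smul, hl1, map_zero, smul_eq_mul, mul_one] at h2
  let b := Module.Basis.mk hli hsurj
  have hb0 : b 0 = e0 := by simp [b]
  have hb1 : b 1 = e1 := by simp [b]
  refine ⟨b, fun g i => ?_⟩
  rw [hb0, hb1, matRep_apply]
  fin_cases i
  · show ρ g (b 0) = _
    rw [hb0, hdec (ρ g e0), hae, hXf]
    simp
  · show ρ g (b 1) = _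
    rw [hb1, hdec (ρ g e1), hXe, hdf]
    simp

end Basis

section Irr

variable {G : Type*} [Group G] {K V : Type*} [Field K] [AddCommGroup V] [Module K V]

/-- irreducibility produces a nonzero `x r s`. -/
theorem exists_xx_ne_zero (hV : Module.finrank K V = 2) (ρ : G →* Module.End K V)
    (hirr : ∀ W : Submodule K V, (∀ g, ∀ x ∈ W, ρ g x ∈ W) → W = ⊥ ∨ W = ⊤)
    {t : G → K} {d : G →* Kˣ} (H : IsPseudo t d) (htr : ∀ g, LinearMap.trace K V (ρ g) = t g)
    {c : G} (hc : c * c = 1) (hdc : ((d c : Kˣ) : K) = -1) {κ : K} (hκ : 2 * κ = 1) :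
    ∃ r s, xx κ t c r s ≠ 0 := by
  have : Module.Finite K V := Module.finite_of_finrank_eq_succ hV
  by_contra hcon
  push Not at hcon
  have htc := t_c H hκ hc hdc
  have ht1 := H.one
  set P := polarAlgOfRep hV ρ htr with hP
  set e : Module.End K V := P.ee κ c with he
  set f : Module.End K V := P.ff κ c with hf
  have hef : e + f = 1 := PolarAlg.ee_add_ff hκ hc htc ht1 P
  have htre : LinearMap.trace K V e = 1 := PolarAlg.φ_ee hκ hc htc ht1 P
  have hee : e * e = e := by
    have := PolarAlg.ee_mul_ee hκ hc htc ht1 P 1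
    rw [map_one, mul_one, aa, mul_one, ht1, htc, add_zero, mul_comm, hκ, one_smul] at this
    exact this
  have hff : f * f = f := by
    have := PolarAlg.ff_mul_ff hκ hc htc ht1 P 1
    rw [map_one, mul_one, dd, mul_one, ht1, htc, sub_zero, mul_comm, hκ, one_smul] at this
    exact this
  have hdec : ∀ w : V, w = e w + f w := by
    intro w
    rw [← LinearMap.add_apply, hef]; rfl
  have hline : ∀ w : V, w ≠ 0 → (∀ g, ∃ a : K, ρ g w = a • w) → False := by
    intro w hw hst
    have h1 := hirr (K ∙ w) (fun g x hx => by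
      obtain ⟨a, rfl⟩ := Submodule.mem_span_singleton.mp hx
      obtain ⟨b, hb⟩ := hst g
      rw [map_smul, hb]
      exact Submodule.smul_mem _ _ (Submodule.smul_mem _ _ (Submodule.mem_span_singleton_self w)))
    rcases h1 with h1 | h1
    · rw [Submodule.span_singleton_eq_bot] at h1
      exact hw h1
    · have h2 := finrank_span_singleton (K := K) hw
      rw [h1, finrank_top, hV] at h2
      norm_num at h2
  obtain ⟨v, hv⟩ : ∃ v, e v ≠ 0 := by
    by_contra h
    push Not at h
    have : e = 0 := LinearMap.ext h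
    rw [this, map_zero] at htre
    exact zero_ne_one htre
  set e0 := e v with he0'
  have he0 : e e0 = e0 := by rw [he0', ← Module.End.mul_apply, hee]
  have hae : ∀ g, e (ρ g e0) = aa κ t c g • e0 := by
    intro g
    have h1 := LinearMap.congr_fun (PolarAlg.ee_mul_ee hκ hc htc ht1 P g) e0
    have h2 : e (ρ g (e e0)) = aa κ t c g • e e0 := h1
    rwa [he0] at h2
  by_cases hall : ∀ h, f (ρ h e0) = 0
  · refine hline e0 hv fun g => ⟨aa κ t c g, ?_⟩
    rw [hdec (ρ g e0), hall, add_zero, hae]
  · push Not at hall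
    obtain ⟨h, hh⟩ := hall
    have hfw : f (f (ρ h e0)) = f (ρ h e0) := by rw [← Module.End.mul_apply, hff]
    refine hline (f (ρ h e0)) hh fun g => ⟨dd κ t c g, ?_⟩
    have h1 := LinearMap.congr_fun (PolarAlg.ee_ff_ee hκ hc htc ht1 P g h) e0
    have h2 : e (ρ g (f (ρ h (e e0)))) = xx κ t c g h • e e0 := h1
    rw [hcon, zero_smul, he0] at h2
    have h3 := LinearMap.congr_fun (PolarAlg.ff_mul_ff hκ hc htc ht1 P g) (f (ρ h e0))
    have h4 : f (ρ g (f (f (ρ h e0)))) = dd κ t c g • f (f (ρ h e0)) := h3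
    rw [hfw] at h4
    rw [hdec (ρ g (f (ρ h e0))), h2, zero_add, h4]

end Irr

section Equiv

variable {G : Type*} [Group G] {T : Type*} [CommRing T] [IsLocalRing T]
  {V : Type*} [AddCommGroup V] [Module T V] [Module.Free T V] [Module.Finite T V]
  {V' : Type*} [AddCommGroup V'] [Module T V'] [Module.Free T V'] [Module.Finite T V']

/-- two representations with the same trace (residually irreducible, odd) are equivalent -/
theorem exists_equiv_of_trace (hV : Module.finrank T V = 2) (hV' : Module.finrank T V' = 2)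
    (ρ : G →* Module.End T V) (ρ' : G →* Module.End T V')
    {t : G → T} {d : G →* Tˣ} (H : IsPseudo t d)
    (htr : ∀ g, LinearMap.trace T V (ρ g) = t g) (htr' : ∀ g, LinearMap.trace T V' (ρ' g) = t g)
    {c : G} (hc : c * c = 1) (hdc : ((d c : Tˣ) : T) = -1)
    {κ : T} (hκ : 2 * κ = 1) {r s : G} (hrs : IsUnit (xx κ t c r s)) :
    ∃ e : V ≃ₗ[T] V', ∀ g x, e (ρ g x) = ρ' g (e x) := by
  obtain ⟨X, hX'⟩ := hrs
  have hX : xx κ t c r s = X := hX'.symm
  obtain ⟨b, hb⟩ := exists_basis_of_trace hV ρ H htr hc hdc hκ X hX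
  obtain ⟨b', hb'⟩ := exists_basis_of_trace hV' ρ' H htr' hc hdc hκ X hX
  let e : V ≃ₗ[T] V' := b.equiv b' (_root_.Equiv.refl _)
  have he : ∀ i, e (b i) = b' i := fun i => by
    rw [Module.Basis.equiv_apply]; rfl
  refine ⟨e, fun g x => ?_⟩
  have h1 : e.toLinearMap ∘ₗ ρ g = ρ' g ∘ₗ e.toLinearMap := by
    refine b.ext fun i => ?_
    show e (ρ g (b i)) = ρ' g (e (b i))
    rw [he, hb, hb', map_add, map_smul, map_smul, he, he]
  exact LinearMap.congr_fun h1 x

end Equiv

section Frob

/-- the absolute Galois group -/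
local notation "GQ'" => (AlgebraicClosure ℚ ≃ₐ[ℚ] AlgebraicClosure ℚ)

variable {R : Type*} [CommRing R]

lemma sub_mem_pow {G : Type*} [Group G] {t t' : G → R} {d d' : G →* Rˣ} (H : IsPseudo t d)
    (H' : IsPseudo t' d') (I : Ideal R) {φ : G} (h : t φ - t' φ ∈ I)
    (hd : ((d φ : Rˣ) : R) - ((d' φ : Rˣ) : R) ∈ I) (k : ℕ) :
    t (φ ^ k) - t' (φ ^ k) ∈ I := by
  induction k using Nat.strong_induction_on with
  | _ k ih =>
    match k with
    | 0 => rw [pow_zero, H.one, H'.one, sub_self]; exact I.zero_mem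
    | 1 => rwa [pow_one]
    | (k + 2) =>
      have h1 := H.mul (φ ^ (k + 1)) φ
      have h2 := H'.mul (φ ^ (k + 1)) φ
      have e1 : φ ^ (k + 1) * φ = φ ^ (k + 2) := (pow_succ φ (k + 1)).symm
      have e2 : φ ^ (k + 1) * φ⁻¹ = φ ^ k := by rw [pow_succ, mul_inv_cancel_right]
      rw [e1, e2] at h1 h2
      have h3 := ih (k + 1) (by omega)
      have h4 := ih k (by omega)
      have : t (φ ^ (k + 2)) - t' (φ ^ (k + 2)) =
          (t (φ ^ (k + 1)) - t' (φ ^ (k + 1))) * t φ + t' (φ ^ (k + 1)) * (t φ - t' φ)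
            - ((((d φ : Rˣ) : R) - ((d' φ : Rˣ) : R)) * t (φ ^ k) +
              ((d' φ : Rˣ) : R) * (t (φ ^ k) - t' (φ ^ k))) := by
        linear_combination h2 - h1
      rw [this]
      exact I.sub_mem (I.add_mem (I.mul_mem_right _ h3) (I.mul_mem_left _ h))
        (I.add_mem (I.mul_mem_right _ hd) (I.mul_mem_left _ h4))

/-- two pseudo-characters of finite level modulo `I` which agree at Frobenius elements modulo `I`
agree modulo `I` -/
theorem sub_mem_of_frobenius {t t' : GQ' → R} {d d' : GQ' →* Rˣ} (H : IsPseudo t d)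
    (H' : IsPseudo t' d') (I : Ideal R)
    (hL : ∃ L : IntermediateField ℚ (AlgebraicClosure ℚ), FiniteDimensional ℚ L ∧
      ∀ σ : GQ', (∀ x ∈ L, σ x = x) → ∀ y, t (y * σ) - t y ∈ I)
    (hL' : ∃ L : IntermediateField ℚ (AlgebraicClosure ℚ), FiniteDimensional ℚ L ∧
      ∀ σ : GQ', (∀ x ∈ L, σ x = x) → ∀ y, t' (y * σ) - t' y ∈ I)
    (S : Set ℕ) (hS : S.Finite)
    (hF : ∀ ℓ : ℕ, ℓ.Prime → ℓ ∉ S → ∀ A : ValuationSubring (AlgebraicClosure ℚ),
      A.LiesOverPrime ℓ → ∀ φ : GQ', A.IsFrobeniusAt φ ℓ →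
        t φ - t' φ ∈ I ∧ ((d φ : Rˣ) : R) - ((d' φ : Rˣ) : R) ∈ I) (σ : GQ') :
    t σ - t' σ ∈ I := by
  obtain ⟨L, hLf, hL1⟩ := hL
  obtain ⟨L', hLf', hL1'⟩ := hL'
  have hfin : FiniteDimensional ℚ (L ⊔ L' : IntermediateField ℚ (AlgebraicClosure ℚ)) :=
    IntermediateField.finiteDimensional_sup L L'
  obtain ⟨ℓ, hℓ, hℓS, A, hA, φ, hφ, k, k', hk, hk'⟩ :=
    FrobDensity.exists_frobenius_on (L ⊔ L') σ S hS
  obtain ⟨h1, h2⟩ := hF ℓ hℓ hℓS A hA φ hφ
  set τ := (φ ^ k')⁻¹ * σ with hτ
  have hτσ : φ ^ k' * τ = σ := by rw [hτ, mul_inv_cancel_left]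
  have hτL : ∀ x ∈ (L ⊔ L' : IntermediateField ℚ (AlgebraicClosure ℚ)), τ x = x := by
    intro x hx
    rw [hτ, AlgEquiv.mul_apply, hk' x hx, ← AlgEquiv.mul_apply, inv_mul_cancel, AlgEquiv.one_apply]
  have e1 := hL1 τ (fun x hx => hτL x (le_sup_left (a := L) (b := L') hx)) (φ ^ k')
  have e2 := hL1' τ (fun x hx => hτL x (le_sup_right (a := L) (b := L') hx)) (φ ^ k')
  rw [hτσ] at e1 e2
  have e3 := sub_mem_pow H H' I h1 h2 k'
  have : t σ - t' σ = (t σ - t (φ ^ k')) - (t' σ - t' (φ ^ k')) + (t (φ ^ k') - t' (φ ^ k')) := by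
    ring
  rw [this]
  exact I.add_mem (I.sub_mem e1 e2) e3

/-- version for one value only needs that the Frobenius elements have the same trace; if `2` is a
unit the determinants are determined by the traces. -/
lemma det_sub_mem {G : Type*} [Group G] {t t' : G → R} {d d' : G →* Rˣ} (H : IsPseudo t d)
    (H' : IsPseudo t' d') {κ : R} (hκ : 2 * κ = 1) (I : Ideal R) (h : ∀ g, t g - t' g ∈ I) (g : G) :
    ((d g : Rˣ) : R) - ((d' g : Rˣ) : R) ∈ I := by
  have h1 := H.mul g g
  have h2 := H'.mul g g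
  rw [mul_inv_cancel, H.one] at h1
  rw [mul_inv_cancel, H'.one] at h2
  have : ((d g : Rˣ) : R) - ((d' g : Rˣ) : R) =
      κ * ((t g - t' g) * t g + t' g * (t g - t' g) - (t (g * g) - t' (g * g))) := by
    linear_combination (-κ) * h1 + κ * h2 - (((d g : Rˣ) : R) - ((d' g : Rˣ) : R)) * hκ
  rw [this]
  exact I.mul_mem_left _ (I.sub_mem (I.add_mem (I.mul_mem_right _ (h g)) (I.mul_mem_left _ (h g)))
    (h (g * g)))

end Frob

section Local

/-- the absolute Galois group -/
local notation "GQ'" => (AlgebraicClosure ℚ ≃ₐ[ℚ] AlgebraicClosure ℚ)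

variable {T : Type} [CommRing T] [IsLocalRing T]

lemma map_xx {G R R' : Type*} [Group G] [CommRing R] [CommRing R'] (f : R →+* R') (κ : R)
    (t : G → R) (c g h : G) : xx (f κ) (fun g => f (t g)) c g h = f (xx κ t c g h) := by
  simp only [xx, aa, map_sub, map_mul, map_add]

lemma IsPseudo.mapHom {G R R' : Type*} [Group G] [CommRing R] [CommRing R'] (f : R →+* R')
    {t : G → R} {d : G →* Rˣ} (H : IsPseudo t d) :
    IsPseudo (fun g => f (t g)) ((Units.map (f : R →* R')).comp d) where
  one := by rw [H.one, map_ofNat]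
  mul g h := by
    show f (t g) * f (t h) = f (t (g * h)) + f ((d h : Rˣ) : R) * f (t (g * h⁻¹))
    rw [← map_mul, H.mul, map_add, map_mul]

/-- the trace of a residual representation is a pseudo-character -/
lemma isPseudo_residual {k : Type} [Field k] (ρbar : ResidualGaloisRep k) :
    IsPseudo (fun g => LinearMap.trace k ρbar.V (ρbar.ρ g))
      ((LinearMap.det.comp ρbar.ρ).toHomUnits) :=
  isPseudo_trace ρbar.finrank_eq ρbar.ρ _ (fun _ => rfl)

/-- an absolutely irreducible residual representation produces a unit `x r s` -/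
theorem exists_isUnit_xx {t : GQ' → T} {d : GQ' →* Tˣ} (H : IsPseudo t d)
    {c : GQ'} (hc : c * c = 1) (hdc : ((d c : Tˣ) : T) = -1) {κ : T} (hκ : 2 * κ = 1)
    (ρbar : ResidualGaloisRep (IsLocalRing.ResidueField T)) (habs : ρbar.IsAbsolutelyIrreducible)
    (htr : ∀ g, LinearMap.trace _ ρbar.V (ρbar.ρ g) = IsLocalRing.residue T (t g)) :
    ∃ r s, IsUnit (xx κ t c r s) := by
  set k := IsLocalRing.ResidueField T
  set K := AlgebraicClosure k
  set f : T →+* K := (algebraMap k K).comp (IsLocalRing.residue T) with hf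
  have h1 := exists_xx_ne_zero (ρbar.baseChange K).finrank_eq (ρbar.baseChange K).ρ habs
    (IsPseudo.mapHom f H) (fun g => by
      show LinearMap.trace K _ ((ρbar.ρ g).baseChange K) = _
      rw [LinearMap.trace_baseChange, htr]; rfl) hc
    (by
      show f ((d c : Tˣ) : T) = -1
      rw [hdc, map_neg, map_one])
    (κ := f κ) (by rw [← map_ofNat f 2, ← map_mul, hκ, map_one])
  obtain ⟨r, s, hrs⟩ := h1
  refine ⟨r, s, ?_⟩
  rw [map_xx] at hrs
  by_contra hu
  apply hrs
  rw [hf, RingHom.comp_apply, (IsLocalRing.residue_eq_zero_iff _).mpr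
    ((IsLocalRing.mem_maximalIdeal _).mpr hu), map_zero]

end Local

end Fermat.Agent.HeckeRep
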