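import Fermat.Agent.HeckeRep.Limit
import Fermat.Agent.HeckeRep.Compare
import Fermat.Prelude.Def_GaloisRep_LocalConditions

/-!
# Galois representations over complete local rings attached to characters of the Hecke algebra

`exists_rep_of_ESInput_local`: let `T` be a complete local ring of odd residue characteristic `p`,
`χ : heckeAlgebra N 2 S →+* T` a ring homomorphism whose reduction is attached to an absolutely
irreducible `ρbar`. Then there is a representation over `T` with the expected characteristic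
polynomials of Frobenius, cyclotomic determinant, unramified outside `N p` and reduction `ρbar`.
-/

set_option autoImplicit false
set_option linter.style.haveILetI false
set_option linter.unusedVariables false
set_option linter.unusedSectionVars false

noncomputable section

open CuspForm ModularCurve Polynomial Fermat.Agent.GalRep
open scoped TensorProduct

namespace Fermat.Agent.HeckeRep

open Fermat.Agent.S30aux

section Cyc

variable {p : ℕ} [Fact p.Prime] {T : Type} [CommRing T] [IsLocalRing T]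
  [IsAdicComplete (IsLocalRing.maximalIdeal T) T]

lemma detIsCyclotomic_of_det_eq (hp : (p : T) ∈ IsLocalRing.maximalIdeal T) (ρ : GaloisRepAdic T)
    (h : ρ.det = cycO hp) : ρ.DetIsCyclotomic p := by
  refine ⟨hp, fun n σ a ha => ?_⟩
  have hdet : LinearMap.det (ρ.ρ σ) = ((cycO hp σ : Tˣ) : T) := by rw [← h]; rfl
  obtain ⟨ζ, hζ⟩ := exists_primitive p n
  have h1 := cn_unique p n σ a ζ hζ (ha ζ hζ.pow_eq_one)
  rw [cast_cn] at h1
  have h2 : ((cyc p σ : ℤ_[p]ˣ) : ℤ_[p]) - (a : ℤ_[p]) ∈ RingHom.ker (PadicInt.toZModPow (p := p) n) := by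
    rw [RingHom.mem_ker, map_sub, map_natCast, ← h1, sub_self]
  rw [PadicInt.ker_toZModPow] at h2
  obtain ⟨y, hy⟩ := Ideal.mem_span_singleton'.mp h2
  rw [hdet, coe_cycO, Ideal.mem_span_singleton']
  refine ⟨padicMap p T hp y, ?_⟩
  have h3 := congrArg (padicMap p T hp) hy
  rw [map_mul, map_pow, map_natCast, map_sub, map_natCast] at h3
  rw [Nat.cast_pow, h3]

end Cyc

section Main

variable {N p : ℕ} [NeZero N] [Fact p.Prime] {S : Finset ℕ}
  {J : Type*} [AddCommGroup J] [Module HeckeAlg J] [DistribMulAction GalRep.GQ J]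
  [SMulCommClass GalRep.GQ HeckeAlg J]

variable {T : Type} [CommRing T] [IsLocalRing T]
  [IsAdicComplete (IsLocalRing.maximalIdeal T) T]

lemma residual_trace (ρ : GaloisRepAdic T) (g : GalRep.GQ) :
    LinearMap.trace _ ρ.residual.V (ρ.residual.ρ g) = IsLocalRing.residue T (ρ.trace g) := by
  show LinearMap.trace (IsLocalRing.ResidueField T) _ ((ρ.ρ g).baseChange _) = _
  rw [LinearMap.trace_baseChange]; rfl

lemma charpoly_coeff_zero {R V : Type*} [CommRing R] [Nontrivial R] [AddCommGroup V] [Module R V]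
    [Module.Free R V] [Module.Finite R V] (hV : Module.finrank R V = 2) (f : Module.End R V)
    {a b : R} (h : f.charpoly = X ^ 2 - C a * X + C b) :
    LinearMap.trace R V f = a ∧ LinearMap.det f = b := by
  rw [charpoly_eq_trace_det hV] at h
  constructor
  · have := congrArg (fun q => q.coeff 1) h
    simpa [coeff_X, coeff_C] using this
  · have := congrArg (fun q => q.coeff 0) h
    simpa [coeff_X, coeff_C] using this

theorem exists_rep_of_ESInput_local (hJ : ESInput N p (↑S : Set ℕ) J) (hpS : p ∈ S)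
    (hNS : ∀ q : ℕ, q.Prime → q ∣ N → q ∈ S)
    (hp2 : p ≠ 2) (hpT : (p : T) ∈ IsLocalRing.maximalIdeal T)
    (χ : heckeAlgebra N 2 (↑S : Set ℕ) →+* T)
    (ρbar : ResidualGaloisRep (IsLocalRing.ResidueField T)) (habs : ρbar.IsAbsolutelyIrreducible)
    (B : Set ℕ) (hB : B.Finite)
    (hatt : ∀ (ℓ : ℕ) (hℓ : ℓ.Prime) (hℓN : ¬ ℓ ∣ N) (hℓS : ℓ ∉ (↑S : Set ℕ)), ℓ ∉ B →
      ∀ A : ValuationSubring (AlgebraicClosure ℚ), A.LiesOverPrime ℓ →
        ∀ σ : AlgebraicClosure ℚ ≃ₐ[ℚ] AlgebraicClosure ℚ, A.IsFrobeniusAt σ ℓ →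
          LinearMap.charpoly (ρbar.ρ σ) =
            X ^ 2 - C (IsLocalRing.residue T (χ (heckeAlgebra.T hℓ hℓN hℓS))) * X + C (ℓ : IsLocalRing.ResidueField T)) :
    ∃ ρ : GaloisRepAdic T,
      (∀ (ℓ : ℕ) (hℓ : ℓ.Prime) (hℓN : ¬ ℓ ∣ N) (hℓS : ℓ ∉ (↑S : Set ℕ)),
        ∀ A : ValuationSubring (AlgebraicClosure ℚ), A.LiesOverPrime ℓ →
          ∀ σ : AlgebraicClosure ℚ ≃ₐ[ℚ] AlgebraicClosure ℚ, A.IsFrobeniusAt σ ℓ →
            LinearMap.charpoly (ρ.ρ σ) =
              X ^ 2 - C (χ (heckeAlgebra.T hℓ hℓN hℓS)) * X + C (ℓ : T)) ∧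
      (∀ q : ℕ, q.Prime → ¬ q ∣ N → q ≠ p → ρ.IsUnramifiedAt q) ∧
      ρ.det = cycO hpT ∧ ρ.DetIsCyclotomic p ∧
      ρ.residual.IsEquiv ρbar ∧ ρ.residual.IsAbsolutelyIrreducible := by
  have hp : p.Prime := Fact.out
  obtain ⟨t, H, hct, hcd, hfrob, hin⟩ := exists_pseudo_of_ESInput hJ hpS hNS hpT χ
  set d := cycO hpT with hd
  -- two is a unit
  have h2 : IsUnit (2 : T) := by
    by_contra h
    have h3 : (2 : T) ∈ IsLocalRing.maximalIdeal T := (IsLocalRing.mem_maximalIdeal _).mpr h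
    obtain ⟨k, hk⟩ := hp.odd_of_ne_two hp2
    have h4 : (1 : T) = (p : T) - k * 2 := by rw [hk]; push_cast; ring
    exact (Ideal.ne_top_iff_one _).mp (IsLocalRing.maximalIdeal.isMaximal T).ne_top
      (h4 ▸ Ideal.sub_mem _ hpT (Ideal.mul_mem_left _ _ h3))
  obtain ⟨κ, hκ⟩ := h2.exists_right_inv
  -- comparison with `ρbar`
  set k := IsLocalRing.ResidueField T with hk
  set π := IsLocalRing.residue T with hπ
  have Hk : IsPseudo (fun g => π (t g)) ((Units.map (π : T →* k)).comp d) := IsPseudo.mapHom π H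
  have Hb := isPseudo_residual ρbar
  have htrbar : ∀ g, LinearMap.trace k ρbar.V (ρbar.ρ g) = π (t g) := by
    intro g
    have h3 := sub_mem_of_frobenius (R := k) Hb Hk ⊥ ?_ ?_ ((↑S : Set ℕ) ∪ B)
      (S.finite_toSet.union hB) ?_ g
    · exact sub_eq_zero.mp ((Submodule.mem_bot k).mp h3)
    · obtain ⟨L, hL, hL1⟩ := ρbar.factorsThroughFiniteLevel
      refine ⟨L, hL, fun σ hσ y => ?_⟩
      rw [map_mul, hL1 σ hσ, mul_one, sub_self]
      exact Ideal.zero_mem _
    · obtain ⟨L, hL, hL1⟩ := hct 1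
      refine ⟨L, hL, fun σ hσ y => ?_⟩
      have h4 := hL1 σ hσ y
      rw [pow_one] at h4
      rw [← map_sub, (IsLocalRing.residue_eq_zero_iff _).mpr h4]
      exact Ideal.zero_mem _
    · intro ℓ hℓ hℓSB A hA φ hφ
      have hℓS : ℓ ∉ (↑S : Set ℕ) := fun h => hℓSB (Or.inl h)
      have hℓB : ℓ ∉ B := fun h => hℓSB (Or.inr h)
      have hℓN : ¬ ℓ ∣ N := fun h => hℓS (hNS ℓ hℓ h)
      have hℓp : ℓ ≠ p := fun h => hℓS (h ▸ hpS)
      have h4 := charpoly_coeff_zero ρbar.finrank_eq _ (hatt ℓ hℓ hℓN hℓS hℓB A hA φ hφ)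
      constructor
      · rw [h4.1, hfrob ℓ hℓ hℓN hℓS A hA φ hφ, sub_self]
        exact Ideal.zero_mem _
      · have h5 : (((LinearMap.det.comp ρbar.ρ).toHomUnits φ : kˣ) : k) = LinearMap.det (ρbar.ρ φ) := rfl
        have h6 : ((((Units.map (π : T →* k)).comp d) φ : kˣ) : k) = π ((d φ : Tˣ) : T) := rfl
        rw [h5, h6, h4.2, hd, cycO_frobenius hpT hℓ hℓp hA hφ, map_natCast, sub_self]
        exact Ideal.zero_mem _
  have hcc : complexConjugation * complexConjugation = 1 := complexConjugation_mul_self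
  have hdc : ((d complexConjugation : Tˣ) : T) = -1 := cycO_complexConjugation hpT
  obtain ⟨r, s, hrs⟩ := exists_isUnit_xx H hcc hdc hκ ρbar habs htrbar
  obtain ⟨ρ, hcp, hone, hdet, htr, hirr⟩ := exists_rep_of_pseudo h2 t d H hct _ hcc hdc hκ r s hrs
  refine ⟨ρ, ?_, ?_, hdet, detIsCyclotomic_of_det_eq hpT ρ hdet, ?_, hirr⟩
  · intro ℓ hℓ hℓN hℓS A hA σ hσ
    have hℓp : ℓ ≠ p := fun h => hℓS (by rw [h]; exact hpS)
    rw [hcp, hfrob ℓ hℓ hℓN hℓS A hA σ hσ, hd, cycO_frobenius hpT hℓ hℓp hA hσ]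
  · intro q hq hqN hqp A hA σ hσ
    exact hone σ (hin q hq hqN hqp A hA σ hσ)
  · have h3 : IsUnit (xx (π κ) (fun g => π (t g)) complexConjugation r s) := by
      rw [map_xx]
      exact hrs.map π
    obtain ⟨e, he⟩ := exists_equiv_of_trace ρ.residual.finrank_eq ρbar.finrank_eq ρ.residual.ρ
      ρbar.ρ Hk (fun g => by rw [residual_trace, htr]) htrbar hcc
      (by
        show π ((d complexConjugation : Tˣ) : T) = -1
        rw [hdc, map_neg, map_one])
      (κ := π κ) (by rw [← map_ofNat π 2, ← map_mul, hκ, map_one]) h3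
    exact ⟨⟨e, he⟩⟩

end Main

end Fermat.Agent.HeckeRep
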