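import Fermat.Agent.HeckeRep.Local
import Fermat.Agent.HeckeRep.AbsIrr
import Fermat.Prelude.Def_CuspForm_HeckeLocal

/-!
# The Galois representation datum of the localised Hecke algebra

For a residual Hecke system `θ` attached to an absolutely irreducible residual representation,
`heckeLocal N S 𝒪 θ` carries a `HeckeGaloisRepDatum`.
-/

set_option autoImplicit false
set_option linter.style.haveILetI false
set_option linter.unusedVariables false
set_option linter.unusedSectionVars false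

noncomputable section

open CuspForm ModularCurve Polynomial Fermat.Agent.GalRep
open scoped TensorProduct

namespace Fermat.Agent.HeckeRep

open Fermat.Agent.S30aux

section HL

variable (N : ℕ) [NeZero N] (S : Set ℕ)
variable (𝒪 : Type) [CommRing 𝒪] [IsDomain 𝒪] [IsDiscreteValuationRing 𝒪]
  [IsAdicComplete (IsLocalRing.maximalIdeal 𝒪) 𝒪]
variable (θ : heckeAlgebra N 2 S →+* IsLocalRing.ResidueField 𝒪)

/-- the natural map `𝒪 ⊗ T → T_θ` -/
def toLocal : (𝒪 ⊗[ℤ] ↥(heckeAlgebra N 2 S)) →+* heckeLocal N S 𝒪 θ :=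
  (algebraMap (heckeBaseAlgebra N S 𝒪) (heckeLocal N S 𝒪 θ)).comp (latticeBaseChange N S 𝒪)

lemma toLocal_includeRight (t : heckeAlgebra N 2 S) :
    toLocal N S 𝒪 θ (1 ⊗ₜ t) = heckeLocal.π N S 𝒪 θ t := rfl

lemma toLocal_algebraMap (a : 𝒪) :
    toLocal N S 𝒪 θ (algebraMap 𝒪 _ a) = algebraMap 𝒪 (heckeLocal N S 𝒪 θ) a := by
  rw [toLocal, RingHom.comp_apply, latticeBaseChange_algebraMap,
    ← IsScalarTower.algebraMap_apply]

lemma toLocal_tmul (a : 𝒪) (t : heckeAlgebra N 2 S) :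
    toLocal N S 𝒪 θ (a ⊗ₜ t) = algebraMap 𝒪 (heckeLocal N S 𝒪 θ) a * heckeLocal.π N S 𝒪 θ t := by
  rw [← toLocal_algebraMap, ← toLocal_includeRight, ← map_mul,
    Algebra.TensorProduct.algebraMap_apply, Algebra.algebraMap_self, RingHom.id_apply,
    Algebra.TensorProduct.tmul_mul_tmul, mul_one, one_mul]

variable [Fact (HasIntegralStructure N 2)]

lemma algebraMap_base_surjective :
    Function.Surjective (algebraMap (heckeBaseAlgebra N S 𝒪) (heckeLocal N S 𝒪 θ)) := by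
  classical
  haveI : Module.Finite 𝒪 (heckeBaseAlgebra N S 𝒪) :=
    inferInstanceAs (Module.Finite 𝒪 (𝒪 ⊗[ℤ] ↥(heckeLatticeAlgebra N S)))
  set P : MaximalSpectrum (heckeBaseAlgebra N S 𝒪) :=
    ⟨heckeLocalIdeal N S 𝒪 θ, heckeLocalIdeal.instIsMaximal N S 𝒪 θ⟩ with hP
  obtain ⟨-, hbij, -, -⟩ := Algebra.finite_maximalSpectrum_and_bijective_localization_of_module_finite
    (𝒪 := 𝒪) (heckeBaseAlgebra N S 𝒪)
  have h1 : Function.Surjective (algebraMap (heckeBaseAlgebra N S 𝒪)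
      (Localization.AtPrime P.asIdeal)) := by
    intro z
    obtain ⟨b, hb⟩ := hbij.2 (Function.update 0 P z)
    refine ⟨b, ?_⟩
    have h := congrFun hb P
    simp only [Function.update_self] at h
    exact h
  let e := IsLocalization.algEquiv (heckeLocalIdeal N S 𝒪 θ).primeCompl
      (Localization.AtPrime (heckeLocalIdeal N S 𝒪 θ)) (heckeLocal N S 𝒪 θ)
  intro z
  obtain ⟨b, hb⟩ := h1 (e.symm z)
  refine ⟨b, ?_⟩
  have h2 := congrArg e hb
  rw [AlgEquiv.apply_symm_apply, AlgEquiv.commutes] at h2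
  exact h2

lemma toLocal_surjective : Function.Surjective (toLocal N S 𝒪 θ) :=
  (algebraMap_base_surjective N S 𝒪 θ).comp (latticeBaseChange_surjective N S 𝒪)

theorem adjoin_range_π :
    Algebra.adjoin 𝒪 (Set.range (heckeLocal.π N S 𝒪 θ)) = ⊤ := by
  rw [eq_top_iff]
  intro z _
  obtain ⟨y, rfl⟩ := toLocal_surjective N S 𝒪 θ z
  induction y using TensorProduct.induction_on with
  | zero => rw [map_zero]; exact zero_mem _
  | tmul a t =>
    rw [toLocal_tmul]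
    exact mul_mem (algebraMap_mem _ a) (Algebra.subset_adjoin ⟨t, rfl⟩)
  | add x y hx hy => rw [map_add]; exact add_mem (hx trivial) (hy trivial)

lemma toLocal_mem_maximalIdeal {y : 𝒪 ⊗[ℤ] ↥(heckeAlgebra N 2 S)}
    (hy : y ∈ heckeCharKernel N S 𝒪 θ) :
    toLocal N S 𝒪 θ y ∈ IsLocalRing.maximalIdeal (heckeLocal N S 𝒪 θ) := by
  have h1 : latticeBaseChange N S 𝒪 y ∈ heckeLocalIdeal N S 𝒪 θ := Ideal.mem_map_of_mem _ hy
  exact (IsLocalization.AtPrime.to_map_mem_maximal_iff (heckeLocal N S 𝒪 θ)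
    (heckeLocalIdeal N S 𝒪 θ) (latticeBaseChange N S 𝒪 y)).mpr h1

theorem residue_toLocal (y : 𝒪 ⊗[ℤ] ↥(heckeAlgebra N 2 S)) :
    IsLocalRing.residue (heckeLocal N S 𝒪 θ) (toLocal N S 𝒪 θ y) =
      IsLocalRing.ResidueField.map (algebraMap 𝒪 (heckeLocal N S 𝒪 θ))
        (residualCharacter N S 𝒪 θ y) := by
  obtain ⟨a, ha⟩ := IsLocalRing.residue_surjective (residualCharacter N S 𝒪 θ y)
  have h1 : y - algebraMap 𝒪 _ a ∈ heckeCharKernel N S 𝒪 θ := by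
    rw [mem_heckeCharKernel_iff, map_sub, residualCharacter_algebraMap, ha, sub_self]
  have h2 := toLocal_mem_maximalIdeal N S 𝒪 θ h1
  rw [map_sub, toLocal_algebraMap] at h2
  rw [← ha, IsLocalRing.ResidueField.map_residue]
  exact Ideal.Quotient.eq.mpr h2

theorem residue_π (t : heckeAlgebra N 2 S) :
    IsLocalRing.residue (heckeLocal N S 𝒪 θ) (heckeLocal.π N S 𝒪 θ t) =
      IsLocalRing.ResidueField.map (algebraMap 𝒪 (heckeLocal N S 𝒪 θ)) (θ t) := by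
  rw [← toLocal_includeRight, residue_toLocal, residualCharacter_tmul, map_one, one_mul]

theorem residue_surjective :
    Function.Surjective (IsLocalRing.residue (heckeLocal N S 𝒪 θ) ∘
      algebraMap 𝒪 (heckeLocal N S 𝒪 θ)) := by
  intro z
  obtain ⟨x, rfl⟩ := IsLocalRing.residue_surjective z
  obtain ⟨y, rfl⟩ := toLocal_surjective N S 𝒪 θ x
  obtain ⟨a, ha⟩ := IsLocalRing.residue_surjective (residualCharacter N S 𝒪 θ y)
  refine ⟨a, ?_⟩
  rw [Function.comp_apply, residue_toLocal, ← ha, IsLocalRing.ResidueField.map_residue]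

/-- the residue field of `T_θ` is the one of `𝒪` -/
theorem residueField_map_bijective :
    Function.Bijective (IsLocalRing.ResidueField.map (algebraMap 𝒪 (heckeLocal N S 𝒪 θ))) := by
  refine ⟨RingHom.injective _, fun z => ?_⟩
  obtain ⟨a, ha⟩ := residue_surjective N S 𝒪 θ z
  exact ⟨IsLocalRing.residue 𝒪 a, ha⟩

/-- `𝒪`-linear points of `T_θ` from characters of the Hecke algebra -/
theorem exists_point {𝒪' : Type} [CommRing 𝒪'] [IsLocalRing 𝒪'] [Algebra 𝒪 𝒪']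
    [IsLocalHom (algebraMap 𝒪 𝒪')] (χ : heckeAlgebra N 2 S →+* 𝒪')
    (hχ : ∀ t, IsLocalRing.residue 𝒪' (χ t) = IsLocalRing.ResidueField.map (algebraMap 𝒪 𝒪') (θ t)) :
    ∃ ψ : heckeLocal N S 𝒪 θ →ₐ[𝒪] 𝒪', ∀ t, ψ (heckeLocal.π N S 𝒪 θ t) = χ t := by
  let χ₀ : (𝒪 ⊗[ℤ] ↥(heckeAlgebra N 2 S)) →ₐ[𝒪] 𝒪' :=
    Algebra.TensorProduct.lift (Algebra.ofId 𝒪 𝒪') χ.toIntAlgHom (fun _ _ => Commute.all _ _)
  have hχ₀ : ∀ a t, χ₀ (a ⊗ₜ t) = algebraMap 𝒪 𝒪' a * χ t := fun a t => rfl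
  have hres : ∀ y, IsLocalRing.residue 𝒪' (χ₀ y) =
      IsLocalRing.ResidueField.map (algebraMap 𝒪 𝒪') (residualCharacter N S 𝒪 θ y) := by
    intro y
    induction y using TensorProduct.induction_on with
    | zero => rw [map_zero, map_zero, map_zero, map_zero]
    | tmul a t =>
      rw [hχ₀, map_mul, hχ, residualCharacter_tmul, map_mul, IsLocalRing.ResidueField.map_residue]
    | add x y hx hy => rw [map_add, map_add, map_add, map_add, hx, hy]
  let e : (𝒪 ⊗[ℤ] ↥(heckeAlgebra N 2 S)) ≃+* heckeBaseAlgebra N S 𝒪 :=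
    RingEquiv.ofBijective (latticeBaseChange N S 𝒪)
      ⟨latticeBaseChange_injective N S 𝒪 Fact.out, latticeBaseChange_surjective N S 𝒪⟩
  have he : ∀ y, e y = latticeBaseChange N S 𝒪 y := fun _ => rfl
  let f : heckeBaseAlgebra N S 𝒪 →+* 𝒪' := (χ₀ : _ →+* 𝒪').comp e.symm.toRingHom
  have hf : ∀ y, f (latticeBaseChange N S 𝒪 y) = χ₀ y := by
    intro y
    show χ₀ (e.symm (latticeBaseChange N S 𝒪 y)) = χ₀ y
    rw [← he, RingEquiv.symm_apply_apply]
  have hunit : ∀ s : heckeLocalSubmonoid N S 𝒪 θ, IsUnit (f s) := by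
    rintro ⟨_, ⟨y, hy, rfl⟩⟩
    show IsUnit (f (latticeBaseChange N S 𝒪 y))
    rw [hf]
    by_contra hu
    have h1 : IsLocalRing.residue 𝒪' (χ₀ y) = 0 :=
      (IsLocalRing.residue_eq_zero_iff _).mpr ((IsLocalRing.mem_maximalIdeal _).mpr hu)
    rw [hres, map_eq_zero] at h1
    exact hy ((mem_heckeCharKernel_iff N S 𝒪 θ y).mpr h1)
  let ψ₀ : heckeLocal N S 𝒪 θ →+* 𝒪' := IsLocalization.lift hunit
  have hψ₀ : ∀ y, ψ₀ (toLocal N S 𝒪 θ y) = χ₀ y := by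
    intro y
    show ψ₀ (algebraMap _ _ (latticeBaseChange N S 𝒪 y)) = _
    rw [IsLocalization.lift_eq, hf]
  refine ⟨{ ψ₀ with commutes' := fun a => ?_ }, fun t => ?_⟩
  · show ψ₀ (algebraMap 𝒪 (heckeLocal N S 𝒪 θ) a) = _
    rw [← toLocal_algebraMap, hψ₀, AlgHom.commutes]
  · show ψ₀ (heckeLocal.π N S 𝒪 θ t) = _
    rw [← toLocal_includeRight, hψ₀, hχ₀, map_one, one_mul]

end HL

section Det

/-- the absolute Galois group -/
local notation "GQ'" => (AlgebraicClosure ℚ ≃ₐ[ℚ] AlgebraicClosure ℚ)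

/-- two characters of finite level which agree at Frobenius elements agree -/
theorem char_eq_of_frobenius {M : Type*} [Group M] (d d' : GQ' →* M)
    (hL : ∃ L : IntermediateField ℚ (AlgebraicClosure ℚ), FiniteDimensional ℚ L ∧
      ∀ σ : GQ', (∀ x ∈ L, σ x = x) → d σ = 1)
    (hL' : ∃ L : IntermediateField ℚ (AlgebraicClosure ℚ), FiniteDimensional ℚ L ∧
      ∀ σ : GQ', (∀ x ∈ L, σ x = x) → d' σ = 1)
    (S : Set ℕ) (hS : S.Finite)
    (hF : ∀ ℓ : ℕ, ℓ.Prime → ℓ ∉ S → ∀ A : ValuationSubring (AlgebraicClosure ℚ),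
      A.LiesOverPrime ℓ → ∀ φ : GQ', A.IsFrobeniusAt φ ℓ → d φ = d' φ) : d = d' := by
  ext σ
  obtain ⟨L, hLf, hL1⟩ := hL
  obtain ⟨L', hLf', hL1'⟩ := hL'
  have hfin : FiniteDimensional ℚ (L ⊔ L' : IntermediateField ℚ (AlgebraicClosure ℚ)) :=
    IntermediateField.finiteDimensional_sup L L'
  obtain ⟨ℓ, hℓ, hℓS, A, hA, φ, hφ, k, k', hk, hk'⟩ :=
    FrobDensity.exists_frobenius_on (L ⊔ L') σ S hS
  have h1 := hF ℓ hℓ hℓS A hA φ hφ
  set τ := (φ ^ k')⁻¹ * σ with hτ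
  have hτσ : φ ^ k' * τ = σ := by rw [hτ, mul_inv_cancel_left]
  have hτL : ∀ x ∈ (L ⊔ L' : IntermediateField ℚ (AlgebraicClosure ℚ)), τ x = x := by
    intro x hx
    rw [hτ, AlgEquiv.mul_apply, hk' x hx, ← AlgEquiv.mul_apply, inv_mul_cancel, AlgEquiv.one_apply]
  have e1 := hL1 τ (fun x hx => hτL x (le_sup_left (a := L) (b := L') hx))
  have e2 := hL1' τ (fun x hx => hτL x (le_sup_right (a := L) (b := L') hx))
  calc d σ = d (φ ^ k') * d τ := by rw [← map_mul d, hτσ]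
    _ = d' (φ ^ k') * d' τ := by rw [e1, e2, map_pow, map_pow, h1]
    _ = d' σ := by rw [← map_mul d', hτσ]

variable {p : ℕ} [Fact p.Prime] {O : Type} [CommRing O] [IsLocalRing O]
  [IsAdicComplete (IsLocalRing.maximalIdeal O) O]

/-- the determinant of a residual representation is determined by its values at Frobenii -/
theorem det_residual_eq (hpO : (p : O) ∈ IsLocalRing.maximalIdeal O)
    (ρbar : ResidualGaloisRep (IsLocalRing.ResidueField O)) (S : Set ℕ) (hS : S.Finite)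
    (hF : ∀ ℓ : ℕ, ℓ.Prime → ℓ ∉ S → ∀ A : ValuationSubring (AlgebraicClosure ℚ),
      A.LiesOverPrime ℓ → ∀ φ : GQ', A.IsFrobeniusAt φ ℓ →
        LinearMap.det (ρbar.ρ φ) = (ℓ : IsLocalRing.ResidueField O)) (g : GQ') :
    LinearMap.det (ρbar.ρ g) = IsLocalRing.residue O ((cycO hpO g : Oˣ) : O) := by
  have h1 : (LinearMap.det.comp ρbar.ρ).toHomUnits =
      (Units.map (IsLocalRing.residue O : O →* IsLocalRing.ResidueField O)).comp (cycO hpO) := by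
    refine char_eq_of_frobenius _ _ ?_ ?_ (S ∪ {p}) (hS.union (Set.finite_singleton p)) ?_
    · obtain ⟨L, hL, hL1⟩ := ρbar.factorsThroughFiniteLevel
      refine ⟨L, hL, fun σ hσ => Units.ext ?_⟩
      show LinearMap.det (ρbar.ρ σ) = 1
      rw [hL1 σ hσ, map_one]
    · obtain ⟨ζ, hζ⟩ := exists_primitive p 1
      have hint : IsIntegral ℚ ζ := Algebra.IsIntegral.isIntegral ζ
      refine ⟨IntermediateField.adjoin ℚ {ζ}, IntermediateField.adjoin.finiteDimensional hint,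
        fun σ hσ => Units.ext ?_⟩
      have h2 := cycO_sub_one_mem hpO 1 hζ σ (hσ ζ (IntermediateField.mem_adjoin_simple_self ℚ ζ))
      rw [pow_one] at h2
      show IsLocalRing.residue O ((cycO hpO σ : Oˣ) : O) = 1
      rw [← sub_eq_zero, ← map_one (IsLocalRing.residue O), ← map_sub]
      exact (IsLocalRing.residue_eq_zero_iff _).mpr h2
    · intro ℓ hℓ hℓS A hA φ hφ
      apply Units.ext
      show LinearMap.det (ρbar.ρ φ) = IsLocalRing.residue O ((cycO hpO φ : Oˣ) : O)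
      rw [hF ℓ hℓ (fun h => hℓS (Or.inl h)) A hA φ hφ,
        cycO_frobenius hpO hℓ (fun h => hℓS (Or.inr h)) hA hφ, map_natCast]
  exact congrArg (fun f : GQ' →* (IsLocalRing.ResidueField O)ˣ =>
    ((f g : (IsLocalRing.ResidueField O)ˣ) : IsLocalRing.ResidueField O)) h1

end Det

section Exists

variable {N p : ℕ} [NeZero N] [Fact p.Prime] {S : Finset ℕ}
  {J : Type*} [AddCommGroup J] [Module HeckeAlg J] [DistribMulAction GalRep.GQ J]
  [SMulCommClass GalRep.GQ HeckeAlg J]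

variable {𝒪 : Type} [CommRing 𝒪] [IsLocalRing 𝒪]
  [IsAdicComplete (IsLocalRing.maximalIdeal 𝒪) 𝒪]

/-- `ρbar` is attached to the residual Hecke system `θ` -/
def Attached (N : ℕ) [NeZero N] (S : Set ℕ) {k : Type} [Field k] (θ : heckeAlgebra N 2 S →+* k)
    (ρbar : ResidualGaloisRep k) : Prop :=
  ∃ B : Set ℕ, B.Finite ∧ ∀ (ℓ : ℕ) (hℓ : ℓ.Prime) (hℓN : ¬ ℓ ∣ N) (hℓS : ℓ ∉ S), ℓ ∉ B →
    ∀ A : ValuationSubring (AlgebraicClosure ℚ), A.LiesOverPrime ℓ →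
      ∀ σ : AlgebraicClosure ℚ ≃ₐ[ℚ] AlgebraicClosure ℚ, A.IsFrobeniusAt σ ℓ →
        LinearMap.charpoly (ρbar.ρ σ) = X ^ 2 - C (θ (heckeAlgebra.T hℓ hℓN hℓS)) * X + C (ℓ : k)

/-- representations over arbitrary complete local `𝒪`-algebras. -/
theorem exists_rep_of_attached (hJ : ESInput N p (↑S : Set ℕ) J) (hpS : p ∈ S)
    (hNS : ∀ q : ℕ, q.Prime → q ∣ N → q ∈ S)
    (hp2 : p ≠ 2) (hp𝒪 : (p : 𝒪) ∈ IsLocalRing.maximalIdeal 𝒪)
    {θ : heckeAlgebra N 2 (↑S : Set ℕ) →+* IsLocalRing.ResidueField 𝒪}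
    {ρbar : ResidualGaloisRep (IsLocalRing.ResidueField 𝒪)} (habs : ρbar.IsAbsolutelyIrreducible)
    (hatt : Attached N (↑S : Set ℕ) θ ρbar)
    {T : Type} [CommRing T] [IsLocalRing T] [IsAdicComplete (IsLocalRing.maximalIdeal T) T]
    (i : 𝒪 →+* T) [IsLocalHom i]
    (χ : heckeAlgebra N 2 (↑S : Set ℕ) →+* T)
    (hχ : ∀ t, IsLocalRing.residue T (χ t) = IsLocalRing.ResidueField.map i (θ t)) :
    ∃ ρ : GaloisRepAdic T,
      (∀ (ℓ : ℕ) (hℓ : ℓ.Prime) (hℓN : ¬ ℓ ∣ N) (hℓS : ℓ ∉ (↑S : Set ℕ)),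
        ∀ A : ValuationSubring (AlgebraicClosure ℚ), A.LiesOverPrime ℓ →
          ∀ σ : AlgebraicClosure ℚ ≃ₐ[ℚ] AlgebraicClosure ℚ, A.IsFrobeniusAt σ ℓ →
            LinearMap.charpoly (ρ.ρ σ) =
              X ^ 2 - C (χ (heckeAlgebra.T hℓ hℓN hℓS)) * X + C (ℓ : T)) ∧
      (∀ q : ℕ, q.Prime → ¬ q ∣ N → q ≠ p → ρ.IsUnramifiedAt q) ∧
      ρ.DetIsCyclotomic p ∧
      ρ.residual.IsEquiv (ρbar.baseChangeAlong (IsLocalRing.ResidueField.map i)) ∧
      ρ.residual.IsAbsolutelyIrreducible := by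
  have hp : p.Prime := Fact.out
  have hpT : (p : T) ∈ IsLocalRing.maximalIdeal T := by
    have h1 := ((IsLocalRing.local_hom_TFAE i).out 0 2).mp ‹_›
    have h2 := h1 (Ideal.mem_map_of_mem i hp𝒪)
    rwa [map_natCast] at h2
  obtain ⟨B, hB, hatt⟩ := hatt
  set k := IsLocalRing.ResidueField 𝒪 with hk
  -- two is a unit
  have h2 : (2 : k) ≠ 0 := by
    intro h
    obtain ⟨m, hm⟩ := hp.odd_of_ne_two hp2
    have h4 : (p : k) = 0 := by
      rw [← map_natCast (IsLocalRing.residue 𝒪)]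
      exact (IsLocalRing.residue_eq_zero_iff _).mpr hp𝒪
    rw [hm, Nat.cast_add, Nat.cast_mul, Nat.cast_ofNat, Nat.cast_one] at h4
    have h5 : (2 : k) * m + 1 = 0 := h4
    rw [h, zero_mul, zero_add] at h5
    exact one_ne_zero h5
  have hκ : 2 * (2 : k)⁻¹ = 1 := mul_inv_cancel₀ h2
  have hdet : LinearMap.det (ρbar.ρ complexConjugation) = -1 := by
    rw [det_residual_eq hp𝒪 ρbar ((↑S : Set ℕ) ∪ B) (S.finite_toSet.union hB) ?_,
      cycO_complexConjugation, map_neg, map_one]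
    intro ℓ hℓ hℓS A hA φ hφ
    have hℓ1 : ℓ ∉ (↑S : Set ℕ) := fun h => hℓS (Or.inl h)
    exact (charpoly_coeff_zero ρbar.finrank_eq _ (hatt ℓ hℓ (fun h => hℓ1 (hNS ℓ hℓ h)) hℓ1
      (fun h => hℓS (Or.inr h)) A hA φ hφ)).2
  have habs' : (ρbar.baseChangeAlong (IsLocalRing.ResidueField.map i)).IsAbsolutelyIrreducible :=
    (isAbsolutelyIrreducible_baseChangeAlong_iff complexConjugation_mul_self hκ ρbar hdet _).mpr habs
  obtain ⟨ρ, h1, h2, h3, h4, h5, h6⟩ := exists_rep_of_ESInput_local hJ hpS hNS hp2 hpT χ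
    (ρbar.baseChangeAlong (IsLocalRing.ResidueField.map i)) habs' B hB (by
      intro ℓ hℓ hℓN hℓS hℓB A hA σ hσ
      rw [charpoly_baseChangeAlong, hatt ℓ hℓ hℓN hℓS hℓB A hA σ hσ, hχ]
      simp)
  exact ⟨ρ, h1, h2, h4, h5, h6⟩

end Exists

section Datum

variable {N p : ℕ} [NeZero N] [Fact p.Prime] {S : Finset ℕ}
  {J : Type*} [AddCommGroup J] [Module HeckeAlg J] [DistribMulAction GalRep.GQ J]
  [SMulCommClass GalRep.GQ HeckeAlg J]

variable {𝒪 : Type} [CommRing 𝒪] [IsDomain 𝒪] [IsDiscreteValuationRing 𝒪]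
  [IsAdicComplete (IsLocalRing.maximalIdeal 𝒪) 𝒪]

/-- **Existence of the Galois representation datum** for the localised Hecke algebra. -/
theorem exists_datum [Fact (HasIntegralStructure N 2)]
    (hJ : ESInput N p (↑S : Set ℕ) J) (hpS : p ∈ S)
    (hNS : ∀ q : ℕ, q.Prime → q ∣ N → q ∈ S)
    (hp2 : p ≠ 2) (hp𝒪 : (p : 𝒪) ∈ IsLocalRing.maximalIdeal 𝒪)
    (θ : heckeAlgebra N 2 (↑S : Set ℕ) →+* IsLocalRing.ResidueField 𝒪)
    (ρbar : ResidualGaloisRep (IsLocalRing.ResidueField 𝒪)) (habs : ρbar.IsAbsolutelyIrreducible)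
    (hatt : Attached N (↑S : Set ℕ) θ ρbar) :
    ∃ H : HeckeGaloisRepDatum N (↑S : Set ℕ) 𝒪 θ (heckeLocal N (↑S : Set ℕ) 𝒪 θ),
      H.π = heckeLocal.π N (↑S : Set ℕ) 𝒪 θ ∧
      (∀ q : ℕ, q.Prime → ¬ q ∣ N → q ≠ p → H.ρ.IsUnramifiedAt q) ∧
      H.ρ.DetIsCyclotomic p ∧
      H.ρ.residual.IsEquiv (ρbar.baseChangeAlong (IsLocalRing.ResidueField.map
        (algebraMap 𝒪 (heckeLocal N (↑S : Set ℕ) 𝒪 θ)))) := by
  obtain ⟨ρ, h1, h2, h4, h5, h6⟩ := exists_rep_of_attached hJ hpS hNS hp2 hp𝒪 habs hatt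
    (algebraMap 𝒪 (heckeLocal N (↑S : Set ℕ) 𝒪 θ)) (heckeLocal.π N (↑S : Set ℕ) 𝒪 θ)
    (residue_π N (↑S : Set ℕ) 𝒪 θ)
  refine ⟨{
    π := heckeLocal.π N (↑S : Set ℕ) 𝒪 θ
    residue_π := residue_π N (↑S : Set ℕ) 𝒪 θ
    adjoin_range_π := adjoin_range_π N (↑S : Set ℕ) 𝒪 θ
    exists_point := fun χ hχ => exists_point N (↑S : Set ℕ) 𝒪 θ (𝒪' := 𝒪) χ (fun t => by
      rw [hχ t]
      obtain ⟨a, ha⟩ := IsLocalRing.residue_surjective (θ t)
      rw [← ha, IsLocalRing.ResidueField.map_residue]; rfl)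
    residue_surjective := residue_surjective N (↑S : Set ℕ) 𝒪 θ
    ρ := ρ
    charpoly_frob := h1
    residual_absIrr := h6 }, rfl, h2, h4, h5⟩

end Datum

end Fermat.Agent.HeckeRep
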