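import Fermat.Agent.HeckeRep.Act
import Fermat.Agent.HeckeRep.Datum
import Fermat.Agent.RTD.GalSide
import Fermat.Agent.S23
import Fermat.Agent.S32
import Fermat.Agent.S34
import Fermat.Agent.S41.HmRes

/-!
# The Hecke rings of level prime to `p` are of flat type

For `L` prime to `p`, divisible exactly once by the bad primes of the setup `𝓢` and otherwise only
by primes of `Q`, the Galois representation over `heckeLocal L S 𝒪 θ` is of type
`𝓢.type (Lflat p) Q`.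
-/

set_option autoImplicit false
set_option linter.style.haveILetI false
set_option linter.unusedVariables false
set_option linter.unusedSectionVars false

noncomputable section

namespace Fermat.Agent.HeckeRep

open IsLocalRing Polynomial CuspForm Fermat.Agent.GalRep Fermat.Agent.TwExact

/-- an unramified representation is unipotent on inertia. -/
private theorem unipotent_of_unramified {A : Type} [CommRing A] [IsLocalRing A]
    {ρ : GaloisRepAdic A} {q : ℕ} (h : ρ.IsUnramifiedAt q) : ρ.IsUnipotentOnInertiaAt q := by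
  intro P hP σ hσ
  rw [h P hP σ hσ, LinearMap.charpoly_one, ρ.finrank_eq]

section General

variable {𝒪 : Type} [CommRing 𝒪] [IsDomain 𝒪] [IsDiscreteValuationRing 𝒪]
  [IsAdicComplete (maximalIdeal 𝒪) 𝒪] [Finite (ResidueField 𝒪)] [CharZero 𝒪] {p : ℕ}

/-- **The Hecke ring of level prime to `p` is of flat type.** -/
theorem type_flat_of_datum (𝓢 : RTD.Setup 𝒪 p) {L : ℕ} [NeZero L] {Q S : Finset ℕ}
    (hpL : ¬ p ∣ L) (hpS : p ∈ S) (hNS : ∀ q : ℕ, q.Prime → q ∣ L → q ∈ S)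
    (hL : ∀ q : ℕ, q.Prime → q ∣ L → q ∈ 𝓢.Sg ∪ Q)
    (hsq : ∀ q ∈ 𝓢.Sg, q ≠ p → ¬ q ^ 2 ∣ L)
    {θ : heckeAlgebra L 2 (↑S : Set ℕ) →+* ResidueField 𝒪}
    {T : Type} [CommRing T] [IsLocalRing T] [IsNoetherianRing T]
    [IsAdicComplete (maximalIdeal T) T] [Algebra 𝒪 T] [IsLocalHom (algebraMap 𝒪 T)]
    [Module.Finite 𝒪 T] [Module.Free 𝒪 T]
    (H : HeckeGaloisRepDatum L (↑S : Set ℕ) 𝒪 θ T)
    (hunr : ∀ q : ℕ, q.Prime → ¬ q ∣ L → q ≠ p → H.ρ.IsUnramifiedAt q)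
    (hdet : H.ρ.DetIsCyclotomic p) : 𝓢.type (RTD.Lflat p) Q H.ρ := by
  refine ⟨⟨hdet, ?_, fun q hq hqS => ?_⟩, fun q hqS hq hqp => ?_⟩
  · exact Fermat.Agent.S32.result 𝓢.hp 𝓢.hp2 𝓢.hp𝒪 hpL hpS hNS H
  · refine hunr q hq (fun h => hqS (hL q hq h)) fun h => hqS (Finset.mem_union_left _ ?_)
    rw [h]
    exact Finset.mem_union_left _ 𝓢.hpS
  · by_cases hqL : q ∣ L
    · exact Fermat.Agent.S34.result 𝓢.hp 𝓢.hp𝒪 hpS hNS H q hq hqp hqL (hsq q hqS hqp)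
    · exact unipotent_of_unramified (hunr q hq hqL hqp)

/-- **The Galois representation over the localised Hecke algebra of level prime to `p`.** -/
theorem exists_datum_flat (𝓢 : RTD.Setup 𝒪 p) {L : ℕ} [NeZero L] [Fact (HasIntegralStructure L 2)]
    {Q S : Finset ℕ}
    (hpL : ¬ p ∣ L) (hpS : p ∈ S) (hNS : ∀ q : ℕ, q.Prime → q ∣ L → q ∈ S)
    (hL : ∀ q : ℕ, q.Prime → q ∣ L → q ∈ 𝓢.Sg ∪ Q)
    (hsq : ∀ q ∈ 𝓢.Sg, q ≠ p → ¬ q ^ 2 ∣ L)
    (θ : heckeAlgebra L 2 (↑S : Set ℕ) →+* ResidueField 𝒪)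
    (hatt : Attached L (↑S : Set ℕ) θ 𝓢.ρbar) :
    ∃ H : HeckeGaloisRepDatum L (↑S : Set ℕ) 𝒪 θ (heckeLocal L (↑S : Set ℕ) 𝒪 θ),
      H.π = heckeLocal.π L (↑S : Set ℕ) 𝒪 θ ∧
      𝓢.type (RTD.Lflat p) Q H.ρ ∧
      (∀ q : ℕ, q.Prime → ¬ q ∣ L → q ≠ p → H.ρ.IsUnramifiedAt q) ∧
      H.ρ.residual.IsEquiv (𝓢.ρbar.baseChangeAlong (ResidueField.map
        (algebraMap 𝒪 (heckeLocal L (↑S : Set ℕ) 𝒪 θ)))) := by
  haveI : Fact p.Prime := ⟨𝓢.hp⟩
  letI := ModularCurve.heckeModuleBar L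
  haveI := Fermat.Agent.Cofaith.smulCommClass_JZero L
  have hspec := Fermat.Agent.S37.result L p
    (Fermat.Agent.HeckeComm.heckeOperatorsCommuteBar L) inferInstance
  have hJ := Fermat.Agent.Cofaith.esInput_JZero L 𝓢.hp (↑S : Set ℕ)
    (fun q hq hqN => by simpa using hNS q hq hqN) hspec
  obtain ⟨H, h1, h2, h3, h4⟩ := exists_datum hJ hpS hNS 𝓢.hp2 𝓢.hp𝒪 θ 𝓢.ρbar 𝓢.habs hatt
  exact ⟨H, h1, type_flat_of_datum 𝓢 hpL hpS hNS hL hsq H h2 h3, h2, h4⟩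

/-- base change of representations of flat type. -/
theorem type_flat_baseChange (𝓢 : RTD.Setup 𝒪 p) {Q : Finset ℕ} {T B : Type} [CommRing T]
    [IsLocalRing T] [Algebra 𝒪 T] [CommRing B] [IsLocalRing B] [Algebra 𝒪 B]
    {ρ : GaloisRepAdic T} (h : 𝓢.type (RTD.Lflat p) Q ρ) (f : T →+* B) (hf : IsLocalHom f)
    (hB : Finite (ResidueField B)) : 𝓢.type (RTD.Lflat p) Q (ρ.baseChangeAlong f hf) :=
  ⟨⟨TW.detIsCyclotomic_baseChange f hf h.1.1,
    FlatGS.isFlatAt_baseChangeAlong f hf ρ hB h.1.2.1,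
    fun q hq hqS => TW.isUnramifiedAt_baseChange f hf (h.1.2.2 q hq hqS)⟩,
    fun q hqS hq hqp => TW.isUnipotentOnInertiaAt_baseChange f hf (h.2 q hqS hq hqp)⟩

omit [IsDomain 𝒪] [IsDiscreteValuationRing 𝒪] [IsAdicComplete (maximalIdeal 𝒪) 𝒪]
  [Finite (ResidueField 𝒪)] [CharZero 𝒪] in
/-- the residue field of a ring with residue field generated by the base is finite. -/
theorem finite_residueField_of_surjective [IsLocalRing 𝒪] [Finite (ResidueField 𝒪)] {B : Type}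
    [CommRing B] [IsLocalRing B] [Algebra 𝒪 B] [IsLocalHom (algebraMap 𝒪 B)]
    (hB : Function.Surjective (residue B ∘ algebraMap 𝒪 B)) : Finite (ResidueField B) := by
  refine Finite.of_surjective (ResidueField.map (algebraMap 𝒪 B)) fun y => ?_
  obtain ⟨c, rfl⟩ := hB y
  exact ⟨residue 𝒪 c, rfl⟩

end General

section Level

/-- the level `NS * Q₀ * Q₀`, `Q₀` the product of the auxiliary primes: its prime factors. -/
theorem prime_dvd_level {NS Q₀ L m : ℕ} {qv : Fin m → ℕ} (hQ₀ : Q₀ = ∏ i, qv i)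
    (hqv : ∀ i, (qv i).Prime) (hL : L = NS * Q₀ * Q₀) {q : ℕ} (hq : q.Prime) (h : q ∣ L) :
    q ∣ NS ∨ ∃ i, q = qv i := by
  rw [hL, hq.dvd_mul, hq.dvd_mul] at h
  have h1 : q ∣ Q₀ → ∃ i, q = qv i := by
    intro h2
    rw [hQ₀, Prime.dvd_finsetProd_iff hq.prime] at h2
    obtain ⟨i, -, hi⟩ := h2
    exact ⟨i, (Nat.prime_dvd_prime_iff_eq hq (hqv i)).mp hi⟩
  rcases h with (h | h) | h
  · exact Or.inl h
  · exact Or.inr (h1 h)
  · exact Or.inr (h1 h)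

/-- away from the auxiliary primes, the level `NS * Q₀ * Q₀` is squarefree. -/
theorem not_sq_dvd_level {NS Q₀ L m : ℕ} {qv : Fin m → ℕ} (hQ₀ : Q₀ = ∏ i, qv i)
    (hqv : ∀ i, (qv i).Prime) (hL : L = NS * Q₀ * Q₀) (hNS : Squarefree NS) {q : ℕ} (hq : q.Prime)
    (h : ∀ i, q ≠ qv i) : ¬ q ^ 2 ∣ L := by
  intro h1
  have hcop : Nat.Coprime (q ^ 2) Q₀ := by
    refine Nat.Coprime.pow_left 2 ?_
    rw [hQ₀]
    exact Nat.Coprime.prod_right fun i _ => (Nat.coprime_primes hq (hqv i)).mpr (h i)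
  rw [hL] at h1
  have h2 := hcop.dvd_of_dvd_mul_right (hcop.dvd_of_dvd_mul_right h1)
  rw [pow_two] at h2
  exact hq.one_lt.ne' (Nat.isUnit_iff.mp (hNS q h2))

/-- the product of the minimal level and of distinct primes which do not divide it. -/
theorem squarefree_mul_prod {N : ℕ} (hN : Squarefree N) (T : Finset ℕ)
    (hT : ∀ v ∈ T, v.Prime ∧ ¬ v ∣ N) : Squarefree (N * ∏ v ∈ T, v) := by
  have h1 : Squarefree (∏ v ∈ T, v) := by
    refine Finset.squarefree_prod_of_pairwise_isCoprime (fun v hv w hw hvw => ?_)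
      fun v hv => (hT v hv).1.prime.squarefree
    rw [Function.onFun, ← Nat.coprime_iff_isRelPrime]
    exact (Nat.coprime_primes (hT v hv).1 (hT w hw).1).mpr hvw
  refine (Nat.squarefree_mul ?_).mpr ⟨hN, h1⟩
  exact Nat.Coprime.prod_right fun v hv =>
    ((hT v hv).1.coprime_iff_not_dvd.mpr (hT v hv).2).symm

theorem prime_dvd_mul_prod {N : ℕ} {T : Finset ℕ} (hT : ∀ v ∈ T, v.Prime) {q : ℕ} (hq : q.Prime)
    (h : q ∣ N * ∏ v ∈ T, v) : q ∣ N ∨ q ∈ T := by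
  rw [hq.dvd_mul] at h
  refine h.imp_right fun h2 => ?_
  rw [Prime.dvd_finsetProd_iff hq.prime] at h2
  obtain ⟨v, hv, h3⟩ := h2
  exact ((Nat.prime_dvd_prime_iff_eq hq (hT v hv)).mp h3) ▸ hv

end Level

section Climb

open Fermat.Agent.S59aux

variable {𝒪 : Type} [CommRing 𝒪] [IsLocalRing 𝒪]

/-- the residual system attached to the system `a`. -/
abbrev resSys (S : Set ℕ) (a : ℕ → 𝒪) : PIdx S → ResidueField 𝒪 :=
  fun ℓ => residue 𝒪 (a (ℓ.1 : ℕ))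

theorem map_evalA {R k : Type} [CommRing R] [Field k] (g : R →+* k) (S : Set ℕ) (a : ℕ → R)
    (t : MvPolynomial (PIdx S) ℤ) :
    g (evalA S a t) = MvPolynomial.aeval (R := ℤ) (fun ℓ : PIdx S => g (a (ℓ.1 : ℕ))) t := by
  induction t using MvPolynomial.induction_on with
  | C c =>
    rw [← MvPolynomial.algebraMap_eq, AlgHom.commutes, MvPolynomial.algebraMap_eq, evalA,
      MvPolynomial.coe_eval₂Hom, MvPolynomial.eval₂_C, eq_intCast, algebraMap_int_eq, eq_intCast,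
      map_intCast]
  | add s t hs ht => rw [map_add, map_add, map_add, hs, ht]
  | mul_X s i hs => rw [map_mul, map_mul, map_mul, hs, evalA_X, MvPolynomial.aeval_X]

/-- the residual system occurs, in the sense of `Occ`. -/
theorem occ_of_occursRes {N : ℕ} [NeZero N] {S : Finset ℕ} {a : ℕ → 𝒪}
    (h : OccursRes N S a) : Occ N (↑S : Set ℕ) (resSys (↑S : Set ℕ) a) := fun t ht =>
  (map_evalA (residue 𝒪) (↑S : Set ℕ) a t).symm.trans (h t ht)

/-- the residual system occurs at all the higher levels, with fewer Hecke operators. -/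
theorem occ_up {N L : ℕ} [NeZero N] [NeZero L] {S S' : Finset ℕ} {a : ℕ → 𝒪}
    (h : OccursRes N S a) (hS : S ⊆ S') (hL : N ∣ L) (hLS : ∀ q : ℕ, q.Prime → q ∣ L → q ∈ S') :
    Occ L (↑S' : Set ℕ) (resSys (↑S' : Set ℕ) a) :=
  ((occ_of_occursRes h).incl (Finset.coe_subset.mpr hS)).up hL fun q hq hqL => hLS q hq hqL

/-- the residual representation is attached to the residual system. -/
theorem attached_sysHom {p : ℕ} {x : GaloisRepAdic 𝒪} {r N : ℕ} {T S S' : Finset ℕ} {a : ℕ → 𝒪}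
    (hx : ClimbData p x r N T S a) (hS : S ⊆ S') {L : ℕ} [NeZero L]
    (h : Occ L (↑S' : Set ℕ) (resSys (↑S' : Set ℕ) a)) :
    Attached L (↑S' : Set ℕ) (sysHom h) x.residual := by
  refine ⟨∅, Set.finite_empty, fun ℓ hℓ hℓL hℓS _ A hA σ hσ => ?_⟩
  have h1 := S41hm.frobAt_residual (T := (↑S : Set ℕ)) (fun ℓ hℓ hℓS => hx.frob ℓ hℓ hℓS) ℓ hℓ
    (fun h2 => hℓS (hS h2)) A hA σ hσ
  have h2 : sysHom h (heckeAlgebra.T hℓ hℓL hℓS) = residue 𝒪 (a ℓ) := by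
    have h3 := sysHom_genS h ⟨⟨ℓ, hℓ⟩, hℓS⟩
    rw [genS, dif_neg hℓL] at h3
    exact h3
  rw [h2]
  exact h1

end Climb

section Main

open Fermat.Agent.S59aux

variable {𝒪 : Type} [CommRing 𝒪] [IsDomain 𝒪] [IsDiscreteValuationRing 𝒪]
  [IsAdicComplete (maximalIdeal 𝒪) 𝒪] [Finite (ResidueField 𝒪)] [CharZero 𝒪] {p : ℕ}

/-- **The localised Hecke algebras of the climb, flat case.** `L = NS * Q₀ ^ 2`, `NS` a squarefree
multiple of the minimal level with prime factors in `S ∖ {p}`, `Q₀` the product of the auxiliary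
primes `qv i ∉ S`. -/
theorem exists_datum_climb (𝓢 : RTD.Setup 𝒪 p) {x : GaloisRepAdic 𝒪} {r N : ℕ} {T S : Finset ℕ}
    {a : ℕ → 𝒪} (hx : ClimbData p x r N T S a) (hρ : 𝓢.ρbar = x.residual) (hSg : 𝓢.Sg = S)
    {m : ℕ} {qv : Fin m → ℕ} (hqv : ∀ i, (qv i).Prime) (hqS : ∀ i, qv i ∉ S)
    {NS Q₀ L : ℕ} [NeZero L] [Fact (HasIntegralStructure L 2)] (hQ₀ : Q₀ = ∏ i, qv i)
    (hL : L = NS * Q₀ * Q₀) (hsqf : Squarefree NS) (hNSS : ∀ q : ℕ, q.Prime → q ∣ NS → q ∈ S)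
    (hpNS : ¬ p ∣ NS) {S' : Finset ℕ} (hSS' : S ⊆ S') (hqS' : ∀ i, qv i ∈ S')
    (h : Occ L (↑S' : Set ℕ) (resSys (↑S' : Set ℕ) a)) :
    ∃ H : HeckeGaloisRepDatum L (↑S' : Set ℕ) 𝒪 (sysHom h) (heckeLocal L (↑S' : Set ℕ) 𝒪 (sysHom h)),
      H.π = heckeLocal.π L (↑S' : Set ℕ) 𝒪 (sysHom h) ∧
      𝓢.type (RTD.Lflat p) (Finset.univ.image qv) H.ρ ∧
      (∀ q : ℕ, q.Prime → ¬ q ∣ L → q ≠ p → H.ρ.IsUnramifiedAt q) ∧
      H.ρ.residual.IsEquiv (𝓢.ρbar.baseChangeAlong (ResidueField.map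
        (algebraMap 𝒪 (heckeLocal L (↑S' : Set ℕ) 𝒪 (sysHom h))))) := by
  have hp := 𝓢.hp
  have hpS : p ∈ S := by
    rw [← hSg]
    exact Finset.mem_union_left _ 𝓢.hpS
  have hpr : ∀ q : ℕ, q.Prime → q ∣ L → q ∣ NS ∨ ∃ i, q = qv i := fun q hq hqL =>
    prime_dvd_level hQ₀ hqv hL hq hqL
  refine exists_datum_flat 𝓢 ?_ (hSS' hpS) ?_ ?_ ?_ (sysHom h) ?_
  · intro hpL
    rcases hpr p hp hpL with h1 | ⟨i, hi⟩
    · exact hpNS h1
    · exact hqS i (hi ▸ hpS)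
  · intro q hq hqL
    rcases hpr q hq hqL with h1 | ⟨i, rfl⟩
    · exact hSS' (hNSS q hq h1)
    · exact hqS' i
  · intro q hq hqL
    rcases hpr q hq hqL with h1 | ⟨i, rfl⟩
    · rw [hSg]
      exact Finset.mem_union_left _ (hNSS q hq h1)
    · exact Finset.mem_union_right _ (Finset.mem_image_of_mem _ (Finset.mem_univ i))
  · intro q hqS1 hqp
    rw [hSg] at hqS1
    exact not_sq_dvd_level hQ₀ hqv hL hsqf (((hx.mem_S q).mp hqS1).1) fun i hi => hqS i (hi ▸ hqS1)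
  · rw [hρ]
    exact attached_sysHom hx hSS' h

end Main

end Fermat.Agent.HeckeRep

end
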