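import Fermat.Agent.HeckeRep.Fourier
import Fermat.Agent.TwHecke.Hecke
import Fermat.Agent.TwExact.MPart

/-!
# Transport of relations between Hecke operators from `ℂ` to `𝒪[Δ]`

`exists_smul_cev_eq_zero`: if an integral polynomial in the (normalised) Hecke operators kills the
twisted cohomology `H¹(Γ₀(M), ℂ(χ))` for all characters `χ` of the finite group `Δ`, then it kills
`H¹(Γ₀(M), 𝒪[Δ])` up to torsion.
-/

set_option autoImplicit false
set_option linter.unusedSectionVars false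
set_option linter.unusedVariables false

noncomputable section

open CongruenceSubgroup
open scoped MatrixGroups

namespace Fermat.Agent.HeckeRep

open Fermat.Agent.TwHecke Fermat.Agent.TwExact

section Push

variable {M : ℕ} {R R' : Type*} [CommRing R] [CommRing R'] {ε : (ZMod M)ˣ →* Rˣ}
  {ε' : (ZMod M)ˣ →* R'ˣ} (f : R →+* R') (hε : ∀ u, ((ε' u : R'ˣ) : R') = f ((ε u : Rˣ) : R))

include hε in
lemma wt_push (u : (ZMod M)ˣ) : wt ε' u = f (wt ε u) := by
  have h1 : ε' u = Units.map (f : R →* R') (ε u) := Units.ext (hε u)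
  rw [wt, wt, h1, ← map_inv]; rfl

/-- push-forward of cocycles along a ring homomorphism -/
def pushZ (c : ZM M ε R) : ZM M ε' R' :=
  ⟨fun g => f (c g), fun g h => by
    show f (c (g * h)) = f (c g) + ((ε' (aMap M g) : R'ˣ) : R') • f (c h)
    rw [Z1.apply_mul, map_add, smul_eq_mul, map_mul, hε, smul_eq_mul]; rfl⟩

@[simp] lemma pushZ_apply (c : ZM M ε R) (g : Gamma0 M) : pushZ f hε c g = f (c g) := rfl

/-- push-forward on cohomology -/
def pushH : HM M ε R →+ HM M ε' R' :=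
  QuotientAddGroup.lift _
    ({ toFun := fun c => H1.mk (pushZ f hε c)
       map_zero' := by
        have : pushZ f hε (0 : ZM M ε R) = 0 := by ext g; simp
        rw [this, H1.mk_zero]
       map_add' := fun c d => by
        have : pushZ f hε (c + d) = pushZ f hε c + pushZ f hε d := by ext g; simp
        rw [this, H1.mk_add] } : ZM M ε R →+ HM M ε' R') (by
      rintro _ ⟨a, rfl⟩
      refine H1.mk_eq_zero.mpr ⟨f a, ?_⟩
      ext g
      rw [cobd_apply, pushZ_apply, cobd_apply, map_sub, smul_eq_mul, smul_eq_mul, map_mul]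
      show ((ε' (aMap M g) : R'ˣ) : R') * f a - f a = _
      rw [hε]; rfl)

@[simp] lemma pushH_mk (c : ZM M ε R) : pushH f hε (H1.mk c) = H1.mk (pushZ f hε c) := rfl

lemma pushH_smul (r : R) (x : HM M ε R) : pushH f hε (r • x) = f r • pushH f hε x := by
  induction x using H1.ind with
  | h c =>
    rw [← H1.mk_smul, pushH_mk, pushH_mk, ← H1.mk_smul]
    congr 1
    ext g
    rw [pushZ_apply, Z1.smul_apply, Z1.smul_apply, pushZ_apply, smul_eq_mul, smul_eq_mul, map_mul]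

lemma pushH_heckeH (p : ℕ) [Fact p.Prime] (x : HM M ε R) :
    pushH f hε (heckeH M p ε R x) = heckeH M p ε' R' (pushH f hε x) := by
  induction x using H1.ind with
  | h c =>
    rw [heckeH_mk, pushH_mk, pushH_mk, heckeH_mk]
    congr 1
    ext g
    rw [pushZ_apply, heckeZ_apply, heckeZ_apply, map_sum]
    refine Finset.sum_congr rfl fun x _ => ?_
    rw [smul_eq_mul, map_mul, wt_push f hε, smul_eq_mul, pushZ_apply]

lemma pushH_heckeP (ℓ : Nat.Primes) (x : HM M ε R) :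
    pushH f hε (heckeP M ε R ℓ x) = heckeP M ε' R' ℓ (pushH f hε x) := by
  have : Fact (ℓ : ℕ).Prime := ⟨ℓ.2⟩
  exact pushH_heckeH f hε ℓ x

end Push

section CevZ

variable {ι : Type*} {R R' : Type*} [CommRing R] [CommRing R'] {H H' : Type*} [AddCommGroup H]
  [Module R H] [AddCommGroup H'] [Module R' H']

/-- naturality of the evaluation of integral polynomials. -/
theorem cevZ_natural {T : ι → Module.End R H} (hT : ∀ i j, Commute (T i) (T j))
    {T' : ι → Module.End R' H'} (hT' : ∀ i j, Commute (T' i) (T' j)) (f : H →+ H')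
    (hf : ∀ i x, f (T i x) = T' i (f x)) (t : MvPolynomial ι ℤ) (x : H) :
    f (cev (R := ℤ) T hT t x) = cev (R := ℤ) T' hT' t (f x) := by
  induction t using MvPolynomial.induction_on generalizing x with
  | C a =>
    rw [cev_C, cev_C, algebraMap_int_eq, algebraMap_int_eq, eq_intCast, eq_intCast,
      Module.End.intCast_apply, Module.End.intCast_apply, map_zsmul]
  | add p q hp hq => rw [map_add, map_add, LinearMap.add_apply, LinearMap.add_apply, map_add, hp, hq]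
  | mul_X p i hp =>
    rw [map_mul, map_mul, cev_X, cev_X, Module.End.mul_apply, Module.End.mul_apply, hp, hf]

/-- comparison of the evaluations of integral polynomials and polynomials over `R`. -/
theorem cevZ_eq {T : ι → Module.End R H} (hT : ∀ i j, Commute (T i) (T j))
    (t : MvPolynomial ι ℤ) :
    cev (R := ℤ) T hT t = cev (R := R) T hT (MvPolynomial.map (Int.castRingHom R) t) := by
  induction t using MvPolynomial.induction_on with
  | C a =>
    rw [cev_C, MvPolynomial.map_C, cev_C, algebraMap_int_eq, eq_intCast, eq_intCast, map_intCast]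
  | add p q hp hq => rw [map_add, map_add, map_add, hp, hq]
  | mul_X p i hp =>
    rw [map_mul, map_mul, map_mul, cev_X, MvPolynomial.map_X, cev_X, hp]

end CevZ

section Normalised

variable {M : ℕ} {S : Set ℕ} {R : Type*} [CommRing R] (η : (ZMod M)ˣ →* Rˣ)

/-- the normalised Hecke operators `η(ℓ) T_ℓ` on `H¹(Γ₀(M), R(η²))`. -/
def nop (S : Set ℕ) (ℓ : {ℓ : Nat.Primes // (ℓ : ℕ) ∉ S}) : Module.End R (HM M (η ^ 2) R) :=
  ((η (unitOf M ℓ.1) : Rˣ) : R) • heckeP M (η ^ 2) R ℓ.1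

lemma nop_commute (i j : {ℓ : Nat.Primes // (ℓ : ℕ) ∉ S}) : Commute (nop η S i) (nop η S j) := by
  rw [nop, nop]
  exact ((heckeP_commute M (η ^ 2) R i.1 j.1).smul_left _).smul_right _

end Normalised

section Descent

variable {M : ℕ} [NeZero M] {S : Set ℕ} {𝒪 : Type*} [CommRing 𝒪] [IsDomain 𝒪]
  {Δ : Type*} [CommGroup Δ] [Fintype Δ]

/-- the tautological character -/
def taut (𝒪 : Type*) [CommRing 𝒪] (τ : (ZMod M)ˣ →* Δ) : (ZMod M)ˣ →* (MonoidAlgebra 𝒪 Δ)ˣ :=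
  (Units.map (MonoidAlgebra.of 𝒪 Δ)).comp ((toUnits (G := Δ) : Δ ≃* Δˣ) : Δ →* Δˣ) |>.comp τ

lemma coe_taut (τ : (ZMod M)ˣ →* Δ) (u : (ZMod M)ˣ) :
    ((taut 𝒪 τ u : (MonoidAlgebra 𝒪 Δ)ˣ) : MonoidAlgebra 𝒪 Δ) = MonoidAlgebra.single (τ u) 1 := rfl

lemma push_taut (ι : 𝒪 →+* ℂ) (χ : Δ →* ℂˣ) (τ : (ZMod M)ˣ →* Δ) (u : (ZMod M)ˣ) :
    (((χ.comp τ) u : ℂˣ) : ℂ) = chiO ι χ ((taut 𝒪 τ u : (MonoidAlgebra 𝒪 Δ)ˣ) : MonoidAlgebra 𝒪 Δ) := by
  rw [coe_taut, chiO_single, map_one, one_mul]; rfl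

lemma push_taut_sq (ι : 𝒪 →+* ℂ) (χ : Δ →* ℂˣ) (τ : (ZMod M)ˣ →* Δ) (u : (ZMod M)ˣ) :
    ((((χ.comp τ) ^ 2) u : ℂˣ) : ℂ) =
      chiO ι χ ((((taut 𝒪 τ) ^ 2) u : (MonoidAlgebra 𝒪 Δ)ˣ) : MonoidAlgebra 𝒪 Δ) := by
  rw [MonoidHom.pow_apply, MonoidHom.pow_apply, Units.val_pow_eq_pow_val, Units.val_pow_eq_pow_val,
    map_pow, push_taut ι χ τ u]

/-- **Transport of relations.** -/
theorem exists_smul_cev_eq_zero (ι : 𝒪 →+* ℂ) (hι : Function.Injective ι) (τ : (ZMod M)ˣ →* Δ)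
    (t : MvPolynomial {ℓ : Nat.Primes // (ℓ : ℕ) ∉ S} ℤ)
    (hC : ∀ (χ : Δ →* ℂˣ) (x : HM M ((χ.comp τ) ^ 2) ℂ),
      cev (R := ℤ) (nop (χ.comp τ) S) (nop_commute (χ.comp τ)) t x = 0)
    (x : HM M ((taut 𝒪 τ) ^ 2) (MonoidAlgebra 𝒪 Δ)) :
    ∃ n : 𝒪, n ≠ 0 ∧ (algebraMap 𝒪 (MonoidAlgebra 𝒪 Δ) n) •
      cev (R := ℤ) (nop (taut 𝒪 τ) S) (nop_commute (taut 𝒪 τ)) t x = 0 := by
  set y := cev (R := ℤ) (nop (taut 𝒪 τ) S) (nop_commute (taut 𝒪 τ)) t x with hy
  have h1 : ∀ χ : Δ →* ℂˣ, pushH (chiO ι χ) (push_taut_sq ι χ τ) y = 0 := by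
    intro χ
    rw [hy, cevZ_natural (nop_commute (taut 𝒪 τ)) (nop_commute (χ.comp τ))
      (pushH (chiO ι χ) (push_taut_sq ι χ τ)) ?_, hC]
    intro ℓ x
    rw [nop, nop, LinearMap.smul_apply, LinearMap.smul_apply, pushH_smul, pushH_heckeP,
      ← push_taut]
  obtain ⟨c, hc⟩ := H1.mk_surjective y
  have h2 : ∀ χ : Δ →* ℂˣ, ∃ b : ℂ, ∀ g : Gamma0 M, chiO ι χ (c g) =
      (chiO ι χ ((((taut 𝒪 τ) ^ 2) (aMap M g) : (MonoidAlgebra 𝒪 Δ)ˣ) : MonoidAlgebra 𝒪 Δ) - 1) * b := by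
    intro χ
    have h3 := h1 χ
    rw [← hc, pushH_mk, H1.mk_eq_zero] at h3
    obtain ⟨b, hb⟩ := h3
    refine ⟨b, fun g => ?_⟩
    have h4 := congrArg (fun c : ZM M ((χ.comp τ) ^ 2) ℂ => c g) hb
    simp only [cobd_apply, pushZ_apply] at h4
    rw [← h4, ← push_taut_sq ι χ τ, smul_eq_mul, sub_mul, one_mul]; rfl
  obtain ⟨n, b, hn, hb⟩ := exists_smul_eq_of_forall_char ι hι (fun g : Gamma0 M => c g)
    (fun g => ((((taut 𝒪 τ) ^ 2) (aMap M g) : (MonoidAlgebra 𝒪 Δ)ˣ) : MonoidAlgebra 𝒪 Δ)) h2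
  refine ⟨n, hn, ?_⟩
  rw [← hc, ← H1.mk_smul, H1.mk_eq_zero]
  refine ⟨b, ?_⟩
  ext1 g
  rw [cobd_apply, Z1.smul_apply, smul_eq_mul, smul_eq_mul (algebraMap 𝒪 (MonoidAlgebra 𝒪 Δ) n),
    ← Algebra.smul_def, hb, sub_mul, one_mul]
  rfl

end Descent

end Fermat.Agent.HeckeRep
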