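import Fermat.Agent.HeckeRep.Act
import Fermat.Agent.RT.Ramified
import Fermat.Agent.RTD.Functor
import Fermat.Agent.TW.Conditions
import Fermat.Agent.S54
import Fermat.Agent.S37
import Fermat.Agent.S23
import Fermat.Agent.Cofaith.ES

/-!
# From deformation rings to localised Hecke algebras

* `isEquiv_of_trace`: representations with the same traces are equivalent;
* `DeformationRingData.hom_ext`: homomorphisms from a deformation ring are determined by the traces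
  of Frobenius elements;
* `heckeRep`: the Galois representation over `heckeLocal L S 𝒪 (sysHom h)`;
* `exists_phi`: the map from the deformation ring to a quotient of the localised Hecke algebra.
-/

set_option autoImplicit false
set_option linter.unusedSectionVars false
set_option linter.unusedVariables false
set_option linter.style.haveILetI false

noncomputable section

namespace Fermat.Agent.HeckeRep

open IsLocalRing Fermat.Agent.GalRep CuspForm Polynomial GaloisRep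
open Fermat.Agent.TwExact (PIdx)

/-- the absolute Galois group -/
local notation "GQ'" => (AlgebraicClosure ℚ ≃ₐ[ℚ] AlgebraicClosure ℚ)

section Trace

variable {T : Type} [CommRing T] [IsLocalRing T]

lemma trace_baseChangeAlong {B : Type} [CommRing B] [IsLocalRing B] (φ : T →+* B)
    (hφ : IsLocalHom φ) (ρ : GaloisRepAdic T) (g : GQ') :
    (ρ.baseChangeAlong φ hφ).trace g = φ (ρ.trace g) := by
  letI : Algebra T B := φ.toAlgebra
  show LinearMap.trace B _ ((ρ.ρ g).baseChange B) = _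
  rw [LinearMap.trace_baseChange]; rfl

lemma charpoly_of_isEquiv {ρ ρ' : GaloisRepAdic T} (h : ρ.IsEquiv ρ') (g : GQ') :
    (ρ.ρ g).charpoly = (ρ'.ρ g).charpoly := by
  obtain ⟨e⟩ := h
  exact (S54.aux_charpoly_eq_of_equiv e g).symm

lemma trace_of_isEquiv {ρ ρ' : GaloisRepAdic T} (h : ρ.IsEquiv ρ') (g : GQ') :
    ρ.trace g = ρ'.trace g := by
  have h1 := charpoly_of_isEquiv h g
  rw [S30aux.charpoly_eq_trace_det ρ'.finrank_eq] at h1
  exact (charpoly_coeff_zero ρ.finrank_eq _ h1).1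

lemma isUnramifiedAt_of_isEquiv {ρ ρ' : GaloisRepAdic T} (h : ρ.IsEquiv ρ') {q : ℕ}
    (hq : ρ.IsUnramifiedAt q) : ρ'.IsUnramifiedAt q := by
  obtain ⟨e⟩ := h
  intro P hP σ hσ
  refine LinearMap.ext fun x => ?_
  have h1 := e.map_apply σ (e.toLinearEquiv.symm x)
  rw [hq P hP σ hσ, Module.End.one_apply, LinearEquiv.apply_symm_apply] at h1
  rw [Module.End.one_apply]
  exact h1.symm

/-- representations with the same traces are equivalent -/
theorem isEquiv_of_trace {ρ ρ' : GaloisRepAdic T} {κ : T} (hκ : 2 * κ = 1)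
    (habs : ρ.residual.IsAbsolutelyIrreducible)
    (hodd : LinearMap.det (ρ.residual.ρ complexConjugation) = -1)
    (htr : ∀ g, ρ.trace g = ρ'.trace g) : ρ.IsEquiv ρ' := by
  have hcc : complexConjugation * complexConjugation = 1 := complexConjugation_mul_self
  have H := RT.isPseudo_adic ρ
  have hdc : ((ρ.det complexConjugation : Tˣ) : T) = -1 := by
    set d : T := ((ρ.det complexConjugation : Tˣ) : T) with hd
    have h1 : d * d = 1 := by
      rw [hd, ← Units.val_mul, ← map_mul, hcc, map_one, Units.val_one]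
    have h2 : residue T d = -1 := by
      have h3 : LinearMap.det (ρ.residual.ρ complexConjugation) = -1 := hodd
      have h4 : LinearMap.det (ρ.residual.ρ complexConjugation) = residue T d := by
        show LinearMap.det ((ρ.ρ complexConjugation).baseChange (ResidueField T)) = _
        rw [LinearMap.det_baseChange]; rfl
      rw [← h4, h3]
    have h3 : IsUnit (d - 1) := by
      by_contra hu
      have h4 : residue T (d - 1) = 0 := (residue_eq_zero_iff _).mpr hu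
      rw [map_sub, h2, map_one] at h4
      have h5 : (2 : ResidueField T) = 0 := by linear_combination -h4
      have h6 := congrArg (residue T) hκ
      rw [map_mul, map_ofNat, h5, zero_mul, map_one] at h6
      exact zero_ne_one h6
    have h4 : (d - 1) * (d + 1) = 0 := by linear_combination h1
    have h5 := (h3.mul_right_eq_zero).mp h4
    linear_combination h5
  obtain ⟨r, s, hrs⟩ := exists_isUnit_xx H hcc hdc hκ ρ.residual habs (fun g => by
    show LinearMap.trace (ResidueField T) _ ((ρ.ρ g).baseChange _) = _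
    rw [LinearMap.trace_baseChange]; rfl)
  obtain ⟨e, he⟩ := exists_equiv_of_trace ρ.finrank_eq ρ'.finrank_eq ρ.ρ ρ'.ρ H (fun g => rfl)
    (fun g => (htr g).symm) hcc hdc hκ hrs
  exact ⟨⟨e, he⟩⟩

end Trace

section LocalHom

variable {𝒪 : Type} [CommRing 𝒪] [IsLocalRing 𝒪]

/-- algebra homomorphisms to rings with residue field generated by the base are local. -/
theorem isLocalHom_algHom {A B : Type} [CommRing A] [IsLocalRing A] [CommRing B] [IsLocalRing B]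
    [Algebra 𝒪 A] [Algebra 𝒪 B]
    (hB : Function.Surjective (residue B ∘ algebraMap 𝒪 B)) (f : A →ₐ[𝒪] B) :
    IsLocalHom (f : A →+* B) := by
  constructor
  intro a ha
  by_contra hna
  have ha' : IsUnit (f a) := ha
  obtain ⟨c, hc⟩ := hB (residue B (f a))⁻¹
  have h1 : IsUnit (1 - algebraMap 𝒪 A c * a) := by
    have h2 : algebraMap 𝒪 A c * a ∈ maximalIdeal A := Ideal.mul_mem_left _ _ hna
    by_contra h3
    have h4 : 1 - algebraMap 𝒪 A c * a ∈ maximalIdeal A := h3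
    exact (Ideal.ne_top_iff_one _).mp (maximalIdeal.isMaximal A).ne_top
      (by have := Ideal.add_mem _ h4 h2; rwa [sub_add_cancel] at this)
  have h2 : IsUnit (f (1 - algebraMap 𝒪 A c * a)) := h1.map f
  rw [map_sub, map_one, map_mul, AlgHom.commutes] at h2
  have h3 : residue B (1 - algebraMap 𝒪 B c * f a) = 0 := by
    rw [map_sub, map_one, map_mul, show residue B (algebraMap 𝒪 B c) = (residue B (f a))⁻¹ from hc,
      inv_mul_cancel₀, sub_self]
    exact (ha'.map (residue B)).ne_zero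
  exact (residue_eq_zero_iff _).mp h3 h2

end LocalHom

section Def

variable {𝒪 : Type} [CommRing 𝒪] [IsDomain 𝒪] [IsDiscreteValuationRing 𝒪]
  [IsAdicComplete (maximalIdeal 𝒪) 𝒪] {ρbar : ResidualGaloisRep (ResidueField 𝒪)}
  {𝒟 : ∀ ⦃A : Type⦄ [CommRing A] [IsLocalRing A] [Algebra 𝒪 A], GaloisRepAdic A → Prop}
  (D : DeformationRingData 𝒪 ρbar 𝒟)
  {A : Type} [CommRing A] [IsLocalRing A] [IsNoetherianRing A] [IsAdicComplete (maximalIdeal A) A]
  [Algebra 𝒪 A] [IsLocalHom (algebraMap 𝒪 A)]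

/-- a homomorphism with the right traces at Frobenius elements pushes the universal deformation to
the given representation. -/
theorem isEquiv_of_frob (ρA : GaloisRepAdic A) {κ : A} (hκ : 2 * κ = 1)
    (habs : ρA.residual.IsAbsolutelyIrreducible)
    (hodd : LinearMap.det (ρA.residual.ρ complexConjugation) = -1)
    {R : Type} [CommRing R] [IsLocalRing R] (ρ : GaloisRepAdic R)
    (f : R →+* A) (hf : IsLocalHom f) (B : Set ℕ) (hB : B.Finite)
    (h : ∀ ℓ : ℕ, ℓ.Prime → ℓ ∉ B → ∀ P : ValuationSubring (AlgebraicClosure ℚ),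
      P.LiesOverPrime ℓ → ∀ σ : GQ', P.IsFrobeniusAt σ ℓ →
        (ρA.ρ σ).charpoly = (ρ.ρ σ).charpoly.map f) :
    (ρ.baseChangeAlong f hf).IsEquiv ρA := by
  have h1 : ∀ g, ρA.trace g = (ρ.baseChangeAlong f hf).trace g :=
    RT.trace_eq_of_frobenius B hB (fun ℓ hℓ hℓB P hP σ hσ => by
      rw [h ℓ hℓ hℓB P hP σ hσ, RT.charpoly_baseChangeAlong_adic])
  obtain ⟨e⟩ := isEquiv_of_trace hκ habs hodd h1
  exact ⟨e.symm⟩

/-- **homomorphisms from a deformation ring are determined by the traces.** -/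
theorem hom_ext (hres : Function.Surjective (residue A ∘ algebraMap 𝒪 A)) (ρA : GaloisRepAdic A)
    (h𝒟 : 𝒟 ρA) (f g : D.R →ₐ[𝒪] A)
    (hf : (D.ρ.baseChangeAlong (f : D.R →+* A) (isLocalHom_algHom hres f)).IsEquiv ρA)
    (hg : (D.ρ.baseChangeAlong (g : D.R →+* A) (isLocalHom_algHom hres g)).IsEquiv ρA) :
    f = g := by
  have h1 : ρA.residual.IsEquiv (ρbar.baseChangeAlong (ResidueField.map (algebraMap 𝒪 A))) := by
    obtain ⟨e⟩ := hf
    obtain ⟨e'⟩ := RTD.residual_baseChangeAlong_isEquiv D.residual_isEquiv f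
      (isLocalHom_algHom hres f)
    exact ⟨e.residual.symm.trans e'⟩
  obtain ⟨φ, -, huniq⟩ := D.universal A hres ρA h𝒟 h1
  rw [huniq f ⟨_, hf⟩, huniq g ⟨_, hg⟩]

end Def

section Ctx

/-- the residual data: `ρbar` is absolutely irreducible and the eigenvalue system `θ₀` is given by
its Frobenius traces. -/
structure HCtx (p : ℕ) {𝒪 : Type} [CommRing 𝒪] [IsLocalRing 𝒪]
    (ρbar : ResidualGaloisRep (ResidueField 𝒪)) (S : Finset ℕ)
    (θ₀ : PIdx (↑S : Set ℕ) → ResidueField 𝒪) : Prop where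
  two : p ≠ 2
  mem : (p : 𝒪) ∈ maximalIdeal 𝒪
  mem_S : p ∈ S
  abs : ρbar.IsAbsolutelyIrreducible
  frob : ∀ ℓ : PIdx (↑S : Set ℕ), ∀ A : ValuationSubring (AlgebraicClosure ℚ),
    A.LiesOverPrime (ℓ.1 : ℕ) → ∀ σ : GQ', A.IsFrobeniusAt σ (ℓ.1 : ℕ) →
      (ρbar.ρ σ).charpoly = X ^ 2 - C (θ₀ ℓ) * X + C (((ℓ.1 : ℕ) : ℕ) : ResidueField 𝒪)

instance instFactHasIntegralStructure (L : ℕ) [NeZero L] : Fact (HasIntegralStructure L 2) :=
  ⟨S23.result L⟩

variable {p : ℕ} [Fact p.Prime] {𝒪 : Type} [CommRing 𝒪] [IsDomain 𝒪]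
  [IsDiscreteValuationRing 𝒪] [IsAdicComplete (maximalIdeal 𝒪) 𝒪]
  {ρbar : ResidualGaloisRep (ResidueField 𝒪)} {S : Finset ℕ}
  {θ₀ : PIdx (↑S : Set ℕ) → ResidueField 𝒪} {L : ℕ} [NeZero L]

lemma genS_of_not_dvd {ℓ : ℕ} (hℓ : ℓ.Prime) (hℓL : ¬ ℓ ∣ L) {S : Set ℕ} (hℓS : ℓ ∉ S) :
    genS L S ⟨⟨ℓ, hℓ⟩, hℓS⟩ = heckeAlgebra.T hℓ hℓL hℓS := by
  rw [genS, dif_neg hℓL]

theorem attached_of (ctx : HCtx p ρbar S θ₀) (h : Occ L (↑S : Set ℕ) θ₀) :
    Attached L (↑S : Set ℕ) (sysHom h) ρbar := by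
  refine ⟨∅, Set.finite_empty, fun ℓ hℓ hℓL hℓS _ A hA σ hσ => ?_⟩
  rw [← genS_of_not_dvd hℓ hℓL hℓS, sysHom_genS]
  exact ctx.frob ⟨⟨ℓ, hℓ⟩, hℓS⟩ A hA σ hσ

theorem exists_heckeDatum (ctx : HCtx p ρbar S θ₀) (hLS : ∀ q : ℕ, q.Prime → q ∣ L → q ∈ S)
    (h : Occ L (↑S : Set ℕ) θ₀) :
    ∃ H : HeckeGaloisRepDatum L (↑S : Set ℕ) 𝒪 (sysHom h) (heckeLocal L (↑S : Set ℕ) 𝒪 (sysHom h)),
      H.π = heckeLocal.π L (↑S : Set ℕ) 𝒪 (sysHom h) ∧
      (∀ q : ℕ, q.Prime → ¬ q ∣ L → q ≠ p → H.ρ.IsUnramifiedAt q) ∧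
      H.ρ.DetIsCyclotomic p ∧
      H.ρ.residual.IsEquiv (ρbar.baseChangeAlong (IsLocalRing.ResidueField.map
        (algebraMap 𝒪 (heckeLocal L (↑S : Set ℕ) 𝒪 (sysHom h))))) := by
  letI := ModularCurve.heckeModuleBar L
  haveI := Fermat.Agent.Cofaith.smulCommClass_JZero L
  have hspec := Fermat.Agent.S37.result L p
    (Fermat.Agent.HeckeComm.heckeOperatorsCommuteBar L) inferInstance
  have hJ := Fermat.Agent.Cofaith.esInput_JZero L (Fact.out : p.Prime) (↑S : Set ℕ)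
    (fun q hq hqN => by simpa using hLS q hq hqN) hspec
  exact exists_datum hJ ctx.mem_S hLS ctx.two ctx.mem (sysHom h) ρbar ctx.abs (attached_of ctx h)

/-- the Galois representation datum of the localised Hecke algebra -/
def heckeDatum (ctx : HCtx p ρbar S θ₀) (hLS : ∀ q : ℕ, q.Prime → q ∣ L → q ∈ S)
    (h : Occ L (↑S : Set ℕ) θ₀) :
    HeckeGaloisRepDatum L (↑S : Set ℕ) 𝒪 (sysHom h) (heckeLocal L (↑S : Set ℕ) 𝒪 (sysHom h)) :=
  (exists_heckeDatum ctx hLS h).choose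

section Props

variable (ctx : HCtx p ρbar S θ₀) (hLS : ∀ q : ℕ, q.Prime → q ∣ L → q ∈ S)
    (h : Occ L (↑S : Set ℕ) θ₀)

lemma heckeDatum_π : (heckeDatum ctx hLS h).π = heckeLocal.π L (↑S : Set ℕ) 𝒪 (sysHom h) :=
  (exists_heckeDatum ctx hLS h).choose_spec.1

lemma heckeDatum_unramified {q : ℕ} (hq : q.Prime) (hqL : ¬ q ∣ L) (hqp : q ≠ p) :
    (heckeDatum ctx hLS h).ρ.IsUnramifiedAt q :=
  (exists_heckeDatum ctx hLS h).choose_spec.2.1 q hq hqL hqp

lemma heckeDatum_det : (heckeDatum ctx hLS h).ρ.DetIsCyclotomic p :=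
  (exists_heckeDatum ctx hLS h).choose_spec.2.2.1

lemma heckeDatum_residual : (heckeDatum ctx hLS h).ρ.residual.IsEquiv
    (ρbar.baseChangeAlong (IsLocalRing.ResidueField.map
      (algebraMap 𝒪 (heckeLocal L (↑S : Set ℕ) 𝒪 (sysHom h))))) :=
  (exists_heckeDatum ctx hLS h).choose_spec.2.2.2

lemma heckeDatum_charpoly (ℓ : PIdx (↑S : Set ℕ)) {A : ValuationSubring (AlgebraicClosure ℚ)}
    (hA : A.LiesOverPrime (ℓ.1 : ℕ)) {σ : GQ'} (hσ : A.IsFrobeniusAt σ (ℓ.1 : ℕ)) :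
    ((heckeDatum ctx hLS h).ρ.ρ σ).charpoly =
      X ^ 2 - C (heckeLocal.π L (↑S : Set ℕ) 𝒪 (sysHom h) (genS L (↑S : Set ℕ) ℓ)) * X +
        C (((ℓ.1 : ℕ) : ℕ) : heckeLocal L (↑S : Set ℕ) 𝒪 (sysHom h)) := by
  have hℓL : ¬ (ℓ.1 : ℕ) ∣ L := fun hd => ℓ.2 (by simpa using hLS _ ℓ.1.2 hd)
  have h1 := (heckeDatum ctx hLS h).charpoly_frob ℓ.1 ℓ.1.2 hℓL ℓ.2 A hA σ hσ
  rw [h1, heckeDatum_π, ← genS_of_not_dvd]; rfl

lemma heckeDatum_trace (ℓ : PIdx (↑S : Set ℕ)) {A : ValuationSubring (AlgebraicClosure ℚ)}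
    (hA : A.LiesOverPrime (ℓ.1 : ℕ)) {σ : GQ'} (hσ : A.IsFrobeniusAt σ (ℓ.1 : ℕ)) :
    (heckeDatum ctx hLS h).ρ.trace σ =
      heckeLocal.π L (↑S : Set ℕ) 𝒪 (sysHom h) (genS L (↑S : Set ℕ) ℓ) :=
  (charpoly_coeff_zero (heckeDatum ctx hLS h).ρ.finrank_eq _
    (heckeDatum_charpoly ctx hLS h ℓ hA hσ)).1

end Props

end Ctx

section Phi

variable {p : ℕ} [Fact p.Prime] {𝒪 : Type} [CommRing 𝒪] [IsDomain 𝒪]
  [IsDiscreteValuationRing 𝒪] [IsAdicComplete (maximalIdeal 𝒪) 𝒪]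
  {ρbar : ResidualGaloisRep (ResidueField 𝒪)} {S : Finset ℕ}
  {θ₀ : PIdx (↑S : Set ℕ) → ResidueField 𝒪} {L : ℕ} [NeZero L]

lemma HCtx.exists_half {p : ℕ} [Fact p.Prime] {𝒪 : Type} [CommRing 𝒪] [IsLocalRing 𝒪]
    {ρbar : ResidualGaloisRep (ResidueField 𝒪)}
    {S : Finset ℕ} {θ₀ : PIdx (↑S : Set ℕ) → ResidueField 𝒪} (ctx : HCtx p ρbar S θ₀)
    (A : Type) [CommRing A] [Algebra 𝒪 A] : ∃ κ : A, 2 * κ = 1 := by
  have h2 : IsUnit (2 : 𝒪) := by
    by_contra h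
    have h3 : (2 : 𝒪) ∈ maximalIdeal 𝒪 := (mem_maximalIdeal _).mpr h
    obtain ⟨k, hk⟩ := (Fact.out : p.Prime).odd_of_ne_two ctx.two
    have h4 : (1 : 𝒪) = (p : 𝒪) - k * 2 := by rw [hk]; push_cast; ring
    exact (Ideal.ne_top_iff_one _).mp (maximalIdeal.isMaximal 𝒪).ne_top
      (h4 ▸ Ideal.sub_mem _ ctx.mem (Ideal.mul_mem_left _ _ h3))
  obtain ⟨κ, hκ⟩ := h2.exists_right_inv
  exact ⟨algebraMap 𝒪 A κ, by rw [← map_ofNat (algebraMap 𝒪 A) 2, ← map_mul, hκ, map_one]⟩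

theorem HCtx.det_bar (ctx : HCtx p ρbar S θ₀) :
    LinearMap.det (ρbar.ρ complexConjugation) = -1 := by
  rw [det_residual_eq ctx.mem ρbar (↑S : Set ℕ) S.finite_toSet ?_,
    S30aux.cycO_complexConjugation, map_neg, map_one]
  intro ℓ hℓ hℓS A hA φ hφ
  exact (charpoly_coeff_zero ρbar.finrank_eq _ (ctx.frob ⟨⟨ℓ, hℓ⟩, hℓS⟩ A hA φ hφ)).2

/-- absolute irreducibility and oddness of the representations with residual `ρbar` -/
theorem HCtx.absIrr_det (ctx : HCtx p ρbar S θ₀) {A : Type} [CommRing A] [IsLocalRing A]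
    [Algebra 𝒪 A] [IsLocalHom (algebraMap 𝒪 A)] {ρA : GaloisRepAdic A}
    (hres : ρA.residual.IsEquiv (ρbar.baseChangeAlong (ResidueField.map (algebraMap 𝒪 A)))) :
    ρA.residual.IsAbsolutelyIrreducible ∧
      LinearMap.det (ρA.residual.ρ complexConjugation) = -1 := by
  obtain ⟨κ, hκ⟩ := ctx.exists_half (ResidueField 𝒪)
  obtain ⟨κ', hκ'⟩ := ctx.exists_half (ResidueField A)
  have hc : complexConjugation * complexConjugation = 1 := complexConjugation_mul_self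
  set ρ1 := ρbar.baseChangeAlong (ResidueField.map (algebraMap 𝒪 A)) with hρ1
  have habs1 : ρ1.IsAbsolutelyIrreducible :=
    (isAbsolutelyIrreducible_baseChangeAlong_iff hc hκ ρbar ctx.det_bar _).mpr ctx.abs
  have hdet1 : LinearMap.det (ρ1.ρ complexConjugation) = -1 := by
    letI : Algebra (ResidueField 𝒪) (ResidueField A) :=
      (ResidueField.map (algebraMap 𝒪 A)).toAlgebra
    show LinearMap.det ((ρbar.ρ complexConjugation).baseChange (ResidueField A)) = -1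
    rw [LinearMap.det_baseChange, ctx.det_bar, map_neg, map_one]
  obtain ⟨e⟩ := hres
  have hcp : ∀ g, (ρA.residual.ρ g).charpoly = (ρ1.ρ g).charpoly := by
    intro g
    rw [← LinearEquiv.charpoly_conj e.toLinearEquiv (ρA.residual.ρ g)]
    congr 1
    refine LinearMap.ext fun x => ?_
    rw [LinearEquiv.conj_apply_apply, e.map_apply, LinearEquiv.apply_symm_apply]
  have h2 := fun g => RT.charpoly_eq_iff ρA.residual.finrank_eq ρ1.finrank_eq (hcp g)
  have hdet : LinearMap.det (ρA.residual.ρ complexConjugation) = -1 := by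
    rw [(h2 complexConjugation).2, hdet1]
  refine ⟨?_, hdet⟩
  exact RT.isAbsolutelyIrreducible_of_rtr hc hκ' hdet1 hdet (funext fun g => (h2 g).1) habs1

variable (ctx : HCtx p ρbar S θ₀) (hLS : ∀ q : ℕ, q.Prime → q ∣ L → q ∈ S)
    (h : Occ L (↑S : Set ℕ) θ₀)
  {𝒟 : ∀ ⦃A : Type⦄ [CommRing A] [IsLocalRing A] [Algebra 𝒪 A], GaloisRepAdic A → Prop}
  (D : DeformationRingData 𝒪 ρbar 𝒟)

section Quot

variable {B : Type} [CommRing B] [IsLocalRing B] [IsNoetherianRing B]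
  [IsAdicComplete (maximalIdeal B) B] [Algebra 𝒪 B] [IsLocalHom (algebraMap 𝒪 B)]
  (q : heckeLocal L (↑S : Set ℕ) 𝒪 (sysHom h) →ₐ[𝒪] B) (hq : Function.Surjective q)

include hq in
lemma residue_surjective_of_surjective :
    Function.Surjective (residue B ∘ algebraMap 𝒪 B) := by
  have hloc : IsLocalHom (q : heckeLocal L (↑S : Set ℕ) 𝒪 (sysHom h) →+* B) :=
    IsLocalHom.of_surjective _ hq
  intro z
  obtain ⟨b, rfl⟩ := IsLocalRing.residue_surjective z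
  obtain ⟨t, rfl⟩ := hq b
  obtain ⟨a, ha⟩ := residue_surjective L (↑S : Set ℕ) 𝒪 (sysHom h) (residue _ t)
  refine ⟨a, ?_⟩
  have h1 := congrArg (ResidueField.map (q : heckeLocal L (↑S : Set ℕ) 𝒪 (sysHom h) →+* B)) ha
  rw [Function.comp_apply, ResidueField.map_residue, ResidueField.map_residue] at h1
  rw [Function.comp_apply, ← AlgHom.commutes q]
  exact h1

include hq in
/-- a homomorphism with the right traces is onto -/
theorem surjective_of_trace (φ : D.R →ₐ[𝒪] B)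
    (hφ : ∀ g, φ (D.ρ.trace g) = q ((heckeDatum ctx hLS h).ρ.trace g)) : Function.Surjective φ := by
  have h1 : ∀ t : heckeLocal L (↑S : Set ℕ) 𝒪 (sysHom h), q t ∈ φ.range := by
    intro t
    induction t using heckeLocal_induction with
    | halg a => rw [AlgHom.commutes]; exact φ.range.algebraMap_mem a
    | hgen ℓ =>
      obtain ⟨A, hA⟩ := Frob.exists_liesOverPrime _ ℓ.1.2
      obtain ⟨σ, hσ⟩ := Frob.exists_isFrobeniusAt ℓ.1.2 hA
      exact ⟨D.ρ.trace σ, by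
        change φ _ = _
        rw [hφ, heckeDatum_trace ctx hLS h ℓ hA hσ]⟩
    | hadd a b ha hb => rw [map_add]; exact add_mem ha hb
    | hmul a b ha hb => rw [map_mul]; exact mul_mem ha hb
  intro b
  obtain ⟨t, rfl⟩ := hq b
  exact h1 t

/-- **From the deformation ring to quotients of the localised Hecke algebra.** -/
theorem exists_phi
    (h𝒟 : 𝒟 ((heckeDatum ctx hLS h).ρ.baseChangeAlong
      (q : heckeLocal L (↑S : Set ℕ) 𝒪 (sysHom h) →+* B) (IsLocalHom.of_surjective _ hq))) :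
    ∃ φ : D.R →ₐ[𝒪] B, Function.Surjective φ ∧
      (∀ g, φ (D.ρ.trace g) = q ((heckeDatum ctx hLS h).ρ.trace g)) ∧
      ∃ hφ : IsLocalHom (φ : D.R →+* B), (D.ρ.baseChangeAlong (φ : D.R →+* B) hφ).IsEquiv
        ((heckeDatum ctx hLS h).ρ.baseChangeAlong
          (q : heckeLocal L (↑S : Set ℕ) 𝒪 (sysHom h) →+* B) (IsLocalHom.of_surjective _ hq)) := by
  obtain ⟨φ, ⟨hφ, he⟩, -⟩ := D.universal B (residue_surjective_of_surjective h q hq) _ h𝒟
    (RTD.residual_baseChangeAlong_isEquiv (heckeDatum_residual ctx hLS h) q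
      (IsLocalHom.of_surjective _ hq))
  have htr : ∀ g, φ (D.ρ.trace g) = q ((heckeDatum ctx hLS h).ρ.trace g) := by
    intro g
    have h1 := trace_of_isEquiv he g
    rw [trace_baseChangeAlong, trace_baseChangeAlong] at h1
    exact h1
  exact ⟨φ, surjective_of_trace ctx hLS h D q hq φ htr, htr, hφ, he⟩

end Quot

/-- **From the deformation ring to the localised Hecke algebra.** -/
theorem exists_phi_self (h𝒟 : 𝒟 (heckeDatum ctx hLS h).ρ) :
    ∃ φ : D.R →ₐ[𝒪] heckeLocal L (↑S : Set ℕ) 𝒪 (sysHom h), Function.Surjective φ ∧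
      (∀ g, φ (D.ρ.trace g) = (heckeDatum ctx hLS h).ρ.trace g) ∧
      ∃ hφ : IsLocalHom (φ : D.R →+* heckeLocal L (↑S : Set ℕ) 𝒪 (sysHom h)),
        (D.ρ.baseChangeAlong (φ : D.R →+* _) hφ).IsEquiv (heckeDatum ctx hLS h).ρ := by
  obtain ⟨φ, ⟨hφ, he⟩, -⟩ := D.universal _ (residue_surjective L (↑S : Set ℕ) 𝒪 (sysHom h)) _ h𝒟
    (heckeDatum_residual ctx hLS h)
  have htr : ∀ g, φ (D.ρ.trace g) = (heckeDatum ctx hLS h).ρ.trace g := by
    intro g
    have h1 := trace_of_isEquiv he g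
    rw [trace_baseChangeAlong] at h1
    exact h1
  exact ⟨φ, surjective_of_trace ctx hLS h D (AlgHom.id 𝒪 _) Function.surjective_id φ htr,
    htr, hφ, he⟩

end Phi

section Level

variable {p : ℕ} [Fact p.Prime] {𝒪 : Type} [CommRing 𝒪] [IsDomain 𝒪]
  [IsDiscreteValuationRing 𝒪] [IsAdicComplete (maximalIdeal 𝒪) 𝒪]
  {ρbar : ResidualGaloisRep (ResidueField 𝒪)} {S S' : Finset ℕ}
  {θ₀ : PIdx (↑S : Set ℕ) → ResidueField 𝒪} {θ₀' : PIdx (↑S' : Set ℕ) → ResidueField 𝒪}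
  {L L' : ℕ} [NeZero L] [NeZero L']

/-- the system of eigenvalues is determined by `ρbar` -/
theorem HCtx.theta_eq (ctx : HCtx p ρbar S θ₀) (ctx' : HCtx p ρbar S' θ₀')
    (hS : (↑S' : Set ℕ) ⊆ ↑S) (ℓ : PIdx (↑S : Set ℕ)) : θ₀ ℓ = θ₀' (inclIdx hS ℓ) := by
  obtain ⟨A, hA⟩ := Frob.exists_liesOverPrime _ ℓ.1.2
  obtain ⟨σ, hσ⟩ := Frob.exists_isFrobeniusAt ℓ.1.2 hA
  rw [← (charpoly_coeff_zero ρbar.finrank_eq _ (ctx.frob ℓ A hA σ hσ)).1,
    ← (charpoly_coeff_zero ρbar.finrank_eq _ (ctx'.frob (inclIdx hS ℓ) A hA σ hσ)).1]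

variable (ctx : HCtx p ρbar S θ₀) (hLS : ∀ q : ℕ, q.Prime → q ∣ L → q ∈ S)
    (h : Occ L (↑S : Set ℕ) θ₀)
    (ctx' : HCtx p ρbar S' θ₀') (hLS' : ∀ q : ℕ, q.Prime → q ∣ L' → q ∈ S')
    (h' : Occ L' (↑S' : Set ℕ) θ₀')

/-- the level maps are compatible with the Galois representations -/
theorem levelMap_trace (hS : (↑S' : Set ℕ) ⊆ ↑S)
    (Ψ : heckeLocal L (↑S : Set ℕ) 𝒪 (sysHom h) →ₐ[𝒪] heckeLocal L' (↑S' : Set ℕ) 𝒪 (sysHom h'))
    (hΨ : ∀ ℓ : PIdx (↑S : Set ℕ), Ψ (heckeLocal.π L (↑S : Set ℕ) 𝒪 (sysHom h)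
      (genS L (↑S : Set ℕ) ℓ)) = heckeLocal.π L' (↑S' : Set ℕ) 𝒪 (sysHom h')
        (genS L' (↑S' : Set ℕ) (inclIdx hS ℓ))) (g : GQ') :
    Ψ ((heckeDatum ctx hLS h).ρ.trace g) = (heckeDatum ctx' hLS' h').ρ.trace g := by
  have hloc : IsLocalHom (Ψ : heckeLocal L (↑S : Set ℕ) 𝒪 (sysHom h) →+*
      heckeLocal L' (↑S' : Set ℕ) 𝒪 (sysHom h')) :=
    isLocalHom_algHom (residue_surjective L' (↑S' : Set ℕ) 𝒪 (sysHom h')) Ψ
  have h1 := RT.trace_eq_of_frobenius (ρ := (heckeDatum ctx hLS h).ρ.baseChangeAlong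
    (Ψ : heckeLocal L (↑S : Set ℕ) 𝒪 (sysHom h) →+* _) hloc)
    (ρ' := (heckeDatum ctx' hLS' h').ρ) (↑S : Set ℕ) S.finite_toSet (by
      intro ℓ hℓ hℓS A hA σ hσ
      rw [RT.charpoly_baseChangeAlong_adic, heckeDatum_charpoly ctx hLS h ⟨⟨ℓ, hℓ⟩, hℓS⟩ hA hσ,
        heckeDatum_charpoly ctx' hLS' h' (inclIdx hS ⟨⟨ℓ, hℓ⟩, hℓS⟩) hA hσ, ← hΨ]
      simp [inclIdx]) g
  rw [trace_baseChangeAlong] at h1
  exact h1

/-- **Existence of the level maps.** -/
theorem exists_levelMap_trace (hL : L' ∣ L) (hS : (↑S' : Set ℕ) ⊆ ↑S) :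
    ∃ Ψ : heckeLocal L (↑S : Set ℕ) 𝒪 (sysHom h) →ₐ[𝒪]
        heckeLocal L' (↑S' : Set ℕ) 𝒪 (sysHom h'),
      (∀ ℓ : PIdx (↑S : Set ℕ), Ψ (heckeLocal.π L (↑S : Set ℕ) 𝒪 (sysHom h)
        (genS L (↑S : Set ℕ) ℓ)) = heckeLocal.π L' (↑S' : Set ℕ) 𝒪 (sysHom h')
          (genS L' (↑S' : Set ℕ) (inclIdx hS ℓ))) ∧
      ∀ g, Ψ ((heckeDatum ctx hLS h).ρ.trace g) = (heckeDatum ctx' hLS' h').ρ.trace g := by
  obtain ⟨Ψ, hΨ⟩ := exists_levelMap (𝒪 := 𝒪) hL hS (fun ℓ hℓ hd => by simpa using hLS ℓ hℓ hd)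
    (sysHom h) (sysHom h') (fun ℓ => by
      rw [sysHom_genS, sysHom_genS]
      exact ctx.theta_eq ctx' hS ℓ)
  exact ⟨Ψ, hΨ, levelMap_trace ctx hLS h ctx' hLS' h' hS Ψ hΨ⟩

/-- the level maps are onto if the same primes are omitted -/
theorem levelMap_surjective {L'' : ℕ} [NeZero L''] {h'' : Occ L'' (↑S : Set ℕ) θ₀}
    (Ψ : heckeLocal L (↑S : Set ℕ) 𝒪 (sysHom h) →ₐ[𝒪] heckeLocal L'' (↑S : Set ℕ) 𝒪 (sysHom h''))
    (hΨ : ∀ ℓ : PIdx (↑S : Set ℕ), Ψ (heckeLocal.π L (↑S : Set ℕ) 𝒪 (sysHom h)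
      (genS L (↑S : Set ℕ) ℓ)) = heckeLocal.π L'' (↑S : Set ℕ) 𝒪 (sysHom h'')
        (genS L'' (↑S : Set ℕ) ℓ)) : Function.Surjective Ψ := by
  intro t
  change t ∈ Ψ.range
  induction t using heckeLocal_induction with
  | halg a => exact Ψ.range.algebraMap_mem a
  | hgen ℓ => exact ⟨_, hΨ ℓ⟩
  | hadd a b ha hb => exact add_mem ha hb
  | hmul a b ha hb => exact mul_mem ha hb

end Level

section Ext

variable {p : ℕ} [Fact p.Prime] {𝒪 : Type} [CommRing 𝒪] [IsDomain 𝒪]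
  [IsDiscreteValuationRing 𝒪] [IsAdicComplete (maximalIdeal 𝒪) 𝒪]
  {ρbar : ResidualGaloisRep (ResidueField 𝒪)} {S : Finset ℕ}
  {θ₀ : PIdx (↑S : Set ℕ) → ResidueField 𝒪}
  {𝒟 : ∀ ⦃A : Type⦄ [CommRing A] [IsLocalRing A] [Algebra 𝒪 A], GaloisRepAdic A → Prop}

/-- **homomorphisms from a deformation ring with the same traces agree.** -/
theorem HCtx.hom_ext (ctx : HCtx p ρbar S θ₀) (D : DeformationRingData 𝒪 ρbar 𝒟)
    {A : Type} [CommRing A] [IsLocalRing A] [IsNoetherianRing A]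
    [IsAdicComplete (maximalIdeal A) A] [Algebra 𝒪 A] [IsLocalHom (algebraMap 𝒪 A)]
    (hres : Function.Surjective (residue A ∘ algebraMap 𝒪 A)) (ρA : GaloisRepAdic A)
    (h𝒟 : 𝒟 ρA)
    (hρA : ρA.residual.IsEquiv (ρbar.baseChangeAlong (ResidueField.map (algebraMap 𝒪 A))))
    (f g : D.R →ₐ[𝒪] A) (hf : ∀ x, f (D.ρ.trace x) = ρA.trace x)
    (hg : ∀ x, g (D.ρ.trace x) = ρA.trace x) : f = g := by
  obtain ⟨κ, hκ⟩ := ctx.exists_half A
  obtain ⟨habs, hodd⟩ := ctx.absIrr_det hρA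
  have key : ∀ f : D.R →ₐ[𝒪] A, (∀ x, f (D.ρ.trace x) = ρA.trace x) →
      (D.ρ.baseChangeAlong (f : D.R →+* A) (isLocalHom_algHom hres f)).IsEquiv ρA := by
    intro f hf
    obtain ⟨e⟩ := isEquiv_of_trace (ρ := ρA)
      (ρ' := D.ρ.baseChangeAlong (f : D.R →+* A) (isLocalHom_algHom hres f)) hκ habs hodd
      (fun x => by rw [trace_baseChangeAlong, ← hf]; rfl)
    exact ⟨e.symm⟩
  exact HeckeRep.hom_ext D hres ρA h𝒟 f g (key f hf) (key g hg)

/-- the push-forward of the universal deformation along a homomorphism with the right traces -/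
theorem HCtx.isEquiv_of_trace (ctx : HCtx p ρbar S θ₀) {R : Type} [CommRing R] [IsLocalRing R]
    (ρ : GaloisRepAdic R)
    {A : Type} [CommRing A] [IsLocalRing A] [Algebra 𝒪 A] [IsLocalHom (algebraMap 𝒪 A)]
    (ρA : GaloisRepAdic A)
    (hρA : ρA.residual.IsEquiv (ρbar.baseChangeAlong (ResidueField.map (algebraMap 𝒪 A))))
    (f : R →+* A) (hfl : IsLocalHom f) (hf : ∀ x, f (ρ.trace x) = ρA.trace x) :
    (ρ.baseChangeAlong f hfl).IsEquiv ρA := by
  obtain ⟨κ, hκ⟩ := ctx.exists_half A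
  obtain ⟨habs, hodd⟩ := ctx.absIrr_det hρA
  obtain ⟨e⟩ := HeckeRep.isEquiv_of_trace (ρ := ρA)
      (ρ' := ρ.baseChangeAlong f hfl) hκ habs hodd
      (fun x => by rw [trace_baseChangeAlong, ← hf])
  exact ⟨e.symm⟩

variable {L : ℕ} [NeZero L] (ctx : HCtx p ρbar S θ₀)
    (hLS : ∀ q : ℕ, q.Prime → q ∣ L → q ∈ S) (h : Occ L (↑S : Set ℕ) θ₀)

/-- push-forwards to quotients of the localised Hecke algebra of level `L` are unramified outside
`L p`. -/
theorem isUnramifiedAt_of_trace {R : Type} [CommRing R] [IsLocalRing R]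
    (ρ : GaloisRepAdic R) {B : Type} [CommRing B] [IsLocalRing B] [Algebra 𝒪 B]
    [IsLocalHom (algebraMap 𝒪 B)]
    (q : heckeLocal L (↑S : Set ℕ) 𝒪 (sysHom h) →ₐ[𝒪] B)
    (hql : IsLocalHom (q : heckeLocal L (↑S : Set ℕ) 𝒪 (sysHom h) →+* B))
    (f : R →+* B) (hfl : IsLocalHom f)
    (hf : ∀ x, f (ρ.trace x) = q ((heckeDatum ctx hLS h).ρ.trace x))
    {v : ℕ} (hv : v.Prime) (hvL : ¬ v ∣ L) (hvp : v ≠ p) :
    (ρ.baseChangeAlong f hfl).IsUnramifiedAt v := by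
  have h1 := ctx.isEquiv_of_trace ρ ((heckeDatum ctx hLS h).ρ.baseChangeAlong
    (q : heckeLocal L (↑S : Set ℕ) 𝒪 (sysHom h) →+* B) hql)
    (RTD.residual_baseChangeAlong_isEquiv (heckeDatum_residual ctx hLS h) q hql) f hfl
    (fun x => by rw [trace_baseChangeAlong, hf]; rfl)
  obtain ⟨e⟩ := h1
  exact isUnramifiedAt_of_isEquiv ⟨e.symm⟩
    (TW.isUnramifiedAt_baseChange _ hql (heckeDatum_unramified ctx hLS h hv hvL hvp))

end Ext

end Fermat.Agent.HeckeRep
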