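import Fermat.Agent.HeckeRep.Univ
import Fermat.Agent.EC.TateDatum
import Fermat.Agent.LTF.Loc2New

/-!
# Flatness at `p` of the specialisations of a Hecke ring which factor through a level prime to `p`

No assumption that the residual system occurs at the level prime to `p`.
-/

set_option autoImplicit false
set_option linter.style.haveILetI false

noncomputable section

namespace Fermat.Agent.HeckeRep

open IsLocalRing Polynomial CuspForm Fermat.Agent.GalRep GaloisRep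
open Fermat.Agent.TwExact (PIdx)

section General

variable {L p : ℕ} [NeZero L] {S : Finset ℕ}
  {T B : Type} [CommRing T] [IsLocalRing T] [CommRing B] [IsLocalRing B]

/-- base change of the Frobenius relation -/
theorem hasFrobCharpoly_baseChangeAlong {π : heckeAlgebra L 2 (↑S : Set ℕ) →+* T}
    {ρ : GaloisRepAdic T} (hfrob : HasFrobCharpoly π ρ) (f : T →+* B) (hf : IsLocalHom f) :
    HasFrobCharpoly (f.comp π) (ρ.baseChangeAlong f hf) := by
  intro ℓ hℓ hℓL hℓS A hA σ hσ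
  rw [Fermat.Agent.Tate.charpoly_baseChangeAlong', hfrob ℓ hℓ hℓL hℓS A hA σ hσ]
  have h1 : Polynomial.map f ((C ((ℓ : ℕ) : T) : T[X])) = C ((ℓ : ℕ) : B) := by
    rw [map_C, _root_.map_natCast f]
  simp only [Polynomial.map_add, Polynomial.map_sub, Polynomial.map_mul, Polynomial.map_pow,
    map_X, h1, RingHom.comp_apply]
  rw [map_C]

/-- **Flatness.** -/
theorem flat_of_evS {L' : ℕ} [NeZero L'] [IsNoetherianRing B] [Finite (ResidueField B)] (hp : p.Prime)
    (hpL' : ¬ p ∣ L') (hpB : (p : B) ∈ maximalIdeal B) (hpS : p ∈ S)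
    (hLS : ∀ q : ℕ, q.Prime → q ∣ L → q ∈ S) (hLS' : ∀ q : ℕ, q.Prime → q ∣ L' → q ∈ S)
    {π : heckeAlgebra L 2 (↑S : Set ℕ) →+* T} {ρ : GaloisRepAdic T}
    (hfrob : HasFrobCharpoly π ρ) (f : T →+* B) (hf : IsLocalHom f)
    (habs : (ρ.baseChangeAlong f hf).residual.IsAbsolutelyIrreducible)
    (hkill : ∀ t : HeckeAlgS (↑S : Set ℕ), evS L' (↑S : Set ℕ) t = 0 →
      f (π (evS L (↑S : Set ℕ) t)) = 0) : (ρ.baseChangeAlong f hf).IsFlatAt p := by
  obtain ⟨π', hπ'⟩ := LTF.exists_factor_evS (m := L') (f.comp π) hkill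
  exact LTF.isFlatAt_of_level hp hpL' hpB hpS hLS'
    (LTF.hasFrobCharpoly_factor hLS (hasFrobCharpoly_baseChangeAlong hfrob f hf) hπ') habs

end General

section Datum

variable {p : ℕ} [Fact p.Prime] {𝒪 : Type} [CommRing 𝒪] [IsDomain 𝒪]
  [IsDiscreteValuationRing 𝒪] [IsAdicComplete (maximalIdeal 𝒪) 𝒪]
  {ρbar : ResidualGaloisRep (ResidueField 𝒪)} {S : Finset ℕ}
  {θ₀ : PIdx (↑S : Set ℕ) → ResidueField 𝒪} {L : ℕ} [NeZero L]
  {B : Type} [CommRing B] [IsLocalRing B]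

/-- absolute irreducibility of the specialisations -/
theorem heckeDatum_baseChange_absIrr (ctx : HCtx p ρbar S θ₀)
    (hLS : ∀ q : ℕ, q.Prime → q ∣ L → q ∈ S) (h : Occ L (↑S : Set ℕ) θ₀)
    (f : heckeLocal L (↑S : Set ℕ) 𝒪 (sysHom h) →+* B) (hf : IsLocalHom f) :
    ((heckeDatum ctx hLS h).ρ.baseChangeAlong f hf).residual.IsAbsolutelyIrreducible := by
  obtain ⟨h1, h2⟩ := ctx.absIrr_det (heckeDatum_residual ctx hLS h)
  refine Fermat.Agent.Tate.residual_isAbsolutelyIrreducible_baseChangeAlong _ f hf ?_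
    complexConjugation_mul_self h2 h1
  obtain ⟨κ, hκ⟩ := ctx.exists_half (ResidueField (heckeLocal L (↑S : Set ℕ) 𝒪 (sysHom h)))
  intro h0
  rw [h0, zero_mul] at hκ
  exact zero_ne_one hκ

/-- **Flatness of the specialisations of the Hecke ring of level `L` which factor through the
Hecke algebra of level `L'` prime to `p`.** -/
theorem heckeDatum_flat_of_evS {L' : ℕ} [NeZero L'] [IsNoetherianRing B] [Finite (ResidueField B)]
    (ctx : HCtx p ρbar S θ₀) (hLS : ∀ q : ℕ, q.Prime → q ∣ L → q ∈ S)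
    (h : Occ L (↑S : Set ℕ) θ₀) (hpL' : ¬ p ∣ L')
    (hLS' : ∀ q : ℕ, q.Prime → q ∣ L' → q ∈ S)
    (f : heckeLocal L (↑S : Set ℕ) 𝒪 (sysHom h) →+* B) (hf : IsLocalHom f)
    (hkill : ∀ t : HeckeAlgS (↑S : Set ℕ), evS L' (↑S : Set ℕ) t = 0 →
      f (heckeLocal.π L (↑S : Set ℕ) 𝒪 (sysHom h) (evS L (↑S : Set ℕ) t)) = 0) :
    ((heckeDatum ctx hLS h).ρ.baseChangeAlong f hf).IsFlatAt p := by
  have hpB : (p : B) ∈ maximalIdeal B := by
    have h1 : (p : heckeLocal L (↑S : Set ℕ) 𝒪 (sysHom h)) ∈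
        maximalIdeal (heckeLocal L (↑S : Set ℕ) 𝒪 (sysHom h)) := by
      have h2 := map_nonunit (algebraMap 𝒪 (heckeLocal L (↑S : Set ℕ) 𝒪 (sysHom h))) (p : 𝒪)
        ctx.mem
      rwa [map_natCast] at h2
    have h3 := map_nonunit f _ h1
    rwa [map_natCast] at h3
  refine flat_of_evS (L := L) (L' := L') (Fact.out : p.Prime) hpL' hpB ctx.mem_S hLS hLS'
    (π := heckeLocal.π L (↑S : Set ℕ) 𝒪 (sysHom h)) (ρ := (heckeDatum ctx hLS h).ρ) ?_ f hf
    (heckeDatum_baseChange_absIrr ctx hLS h f hf) hkill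
  intro ℓ hℓ hℓL hℓS A hA σ hσ
  rw [← heckeDatum_π ctx hLS h]
  exact (heckeDatum ctx hLS h).charpoly_frob ℓ hℓ hℓL hℓS A hA σ hσ

end Datum

end Fermat.Agent.HeckeRep

end
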