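import Fermat.Agent.HeckeRep.Univ

/-!
# Actions of deformation rings on submodules of the cohomology

`exists_act_sub`: if `T = heckeLocal` acts on `M`, `K ⊆ M` is stable, and the Galois representation
over `T ⧸ Ann K` is of type `𝒟`, then the deformation ring of type `𝒟` acts on `K` through
`T ⧸ Ann K`.
-/

set_option autoImplicit false
set_option linter.unusedSectionVars false
set_option linter.unusedVariables false
set_option linter.style.haveILetI false

noncomputable section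

open CongruenceSubgroup Polynomial
open scoped MatrixGroups

namespace Fermat.Agent.HeckeRep

open IsLocalRing Fermat.Agent.TwHecke Fermat.Agent.TwExact Fermat.Agent.GalRep CuspForm
open GaloisRepAdic GaloisRep

/-- the absolute Galois group -/
local notation "GQ'" => (AlgebraicClosure ℚ ≃ₐ[ℚ] AlgebraicClosure ℚ)

section SubAct

variable {T Λ M K : Type*} [CommRing T] [CommRing Λ] [AddCommGroup M] [Module Λ M]
  [AddCommGroup K] [Module Λ K] (actT : T →+* Module.End Λ M) (i : K →ₗ[Λ] M)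

/-- the annihilator of a submodule -/
def annK : Ideal T where
  carrier := {t | ∀ x, actT t (i x) = 0}
  add_mem' := by
    intro a b ha hb x
    rw [map_add, LinearMap.add_apply, ha x, hb x, add_zero]
  zero_mem' := by intro x; rw [map_zero, LinearMap.zero_apply]
  smul_mem' := by
    intro c a ha x
    rw [smul_eq_mul, map_mul, Module.End.mul_apply, ha x, map_zero]

lemma mem_annK {t : T} : t ∈ annK actT i ↔ ∀ x, actT t (i x) = 0 := Iff.rfl

variable {actT i}

/-- the restricted operator -/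
def subEnd (hi : Function.Injective i) (hst : ∀ t x, ∃ y, i y = actT t (i x)) (t : T) :
    Module.End Λ K where
  toFun x := (hst t x).choose
  map_add' x y := by
    apply hi
    rw [(hst t (x + y)).choose_spec, map_add, map_add, map_add, (hst t x).choose_spec,
      (hst t y).choose_spec]
  map_smul' c x := by
    apply hi
    rw [(hst t (c • x)).choose_spec, map_smul, map_smul, RingHom.id_apply, map_smul,
      (hst t x).choose_spec]

lemma coe_subEnd (hi : Function.Injective i) (hst : ∀ t x, ∃ y, i y = actT t (i x)) (t : T)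
    (x : K) : i (subEnd hi hst t x) = actT t (i x) := (hst t x).choose_spec

/-- the action on a stable submodule -/
def subAct (hi : Function.Injective i) (hst : ∀ t x, ∃ y, i y = actT t (i x)) :
    T →+* Module.End Λ K where
  toFun t := subEnd hi hst t
  map_one' := by
    refine LinearMap.ext fun x => hi ?_
    rw [coe_subEnd, map_one, Module.End.one_apply, Module.End.one_apply]
  map_mul' a b := by
    refine LinearMap.ext fun x => hi ?_
    rw [coe_subEnd, map_mul, Module.End.mul_apply, Module.End.mul_apply, coe_subEnd, coe_subEnd]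
  map_zero' := by
    refine LinearMap.ext fun x => hi ?_
    rw [coe_subEnd, map_zero, LinearMap.zero_apply, LinearMap.zero_apply, map_zero]
  map_add' a b := by
    refine LinearMap.ext fun x => hi ?_
    rw [coe_subEnd, map_add, LinearMap.add_apply, LinearMap.add_apply, map_add, coe_subEnd,
      coe_subEnd]

lemma coe_subAct (hi : Function.Injective i) (hst : ∀ t x, ∃ y, i y = actT t (i x)) (t : T)
    (x : K) : i (subAct hi hst t x) = actT t (i x) := coe_subEnd hi hst t x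

/-- the action of the quotient by the annihilator on a stable submodule -/
def quotAct (hi : Function.Injective i) (hst : ∀ t x, ∃ y, i y = actT t (i x)) :
    T ⧸ annK actT i →+* Module.End Λ K :=
  Ideal.Quotient.lift _ (subAct hi hst) fun t ht => LinearMap.ext fun x => hi (by
    rw [coe_subAct, (mem_annK actT i).mp ht, LinearMap.zero_apply, map_zero])

lemma coe_quotAct (hi : Function.Injective i) (hst : ∀ t x, ∃ y, i y = actT t (i x)) (t : T)
    (x : K) : i (quotAct hi hst (Ideal.Quotient.mk _ t) x) = actT t (i x) := by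
  rw [quotAct, Ideal.Quotient.lift_mk, coe_subAct]

/-- the quotient by the annihilator acts faithfully. -/
lemma quotAct_injective (hi : Function.Injective i) (hst : ∀ t x, ∃ y, i y = actT t (i x)) :
    Function.Injective (quotAct hi hst) := by
  rw [injective_iff_map_eq_zero]
  intro a ha
  obtain ⟨t, rfl⟩ := Ideal.Quotient.mk_surjective a
  rw [Ideal.Quotient.eq_zero_iff_mem, mem_annK]
  intro x
  rw [← coe_quotAct hi hst, ha, LinearMap.zero_apply, map_zero]

lemma annK_ne_top [Nontrivial K] (hi : Function.Injective i) : annK actT i ≠ ⊤ := by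
  intro h
  obtain ⟨x, hx⟩ := exists_ne (0 : K)
  have h1 : (1 : T) ∈ annK actT i := by rw [h]; trivial
  have h2 := (mem_annK actT i).mp h1 x
  rw [map_one, Module.End.one_apply] at h2
  exact hx (hi (by rw [h2, map_zero]))

end SubAct

section Deform

variable {p : ℕ} [Fact p.Prime] {𝒪 : Type} [CommRing 𝒪] [IsDomain 𝒪]
  [IsDiscreteValuationRing 𝒪] [IsAdicComplete (maximalIdeal 𝒪) 𝒪]
  {ρbar : ResidualGaloisRep (ResidueField 𝒪)} {S : Finset ℕ}
  {θ₀ : PIdx (↑S : Set ℕ) → ResidueField 𝒪} {L : ℕ} [NeZero L]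
  (ctx : HCtx p ρbar S θ₀) (hLS : ∀ q : ℕ, q.Prime → q ∣ L → q ∈ S)
  (h : Occ L (↑S : Set ℕ) θ₀)
  {𝒟 : ∀ ⦃A : Type⦄ [CommRing A] [IsLocalRing A] [Algebra 𝒪 A], GaloisRepAdic A → Prop}
  (D : DeformationRingData 𝒪 ρbar 𝒟)
  {Λ M K : Type} [CommRing Λ] [Algebra 𝒪 Λ] [AddCommGroup M] [Module Λ M]
  [AddCommGroup K] [Module Λ K]
  (actT : heckeLocal L (↑S : Set ℕ) 𝒪 (sysHom h) →+* Module.End Λ M)
  (hC : ∀ c : 𝒪, actT (algebraMap 𝒪 _ c) = algebraMap Λ _ (algebraMap 𝒪 Λ c))
  (i : K →ₗ[Λ] M) (hi : Function.Injective i) (hst : ∀ t x, ∃ y, i y = actT t (i x))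

include hC hi hst in
/-- **The action of a deformation ring on a stable submodule of the cohomology.** -/
theorem exists_act_sub
    (h𝒟 : ∀ (_ : IsLocalRing (heckeLocal L (↑S : Set ℕ) 𝒪 (sysHom h) ⧸ annK actT i))
      (hq : IsLocalHom (Ideal.Quotient.mk (annK actT i))),
      𝒟 ((heckeDatum ctx hLS h).ρ.baseChangeAlong (Ideal.Quotient.mk (annK actT i)) hq)) :
    ∃ act : D.R →+* Module.End Λ K,
      (∀ c : 𝒪, act (algebraMap 𝒪 D.R c) = algebraMap Λ _ (algebraMap 𝒪 Λ c)) ∧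
      (∀ (σ : GQ') x, i (act (D.ρ.trace σ) x) = actT ((heckeDatum ctx hLS h).ρ.trace σ) (i x)) ∧
      (∀ f : D.R, ∃ t, ∀ x, i (act f x) = actT t (i x)) ∧
      (∀ v : ℕ, v.Prime → ¬ v ∣ L → v ≠ p → ∀ f : D.R,
        (∀ (B : Type) [CommRing B] [IsLocalRing B] (φ : D.R →+* B) (hφ : IsLocalHom φ),
          (D.ρ.baseChangeAlong φ hφ).IsUnramifiedAt v → φ f = 0) → act f = 0) ∧
      (∀ (f : D.R) (t : heckeLocal L (↑S : Set ℕ) 𝒪 (sysHom h)),
        (∀ (φ : D.R →ₐ[𝒪] heckeLocal L (↑S : Set ℕ) 𝒪 (sysHom h) ⧸ annK actT i),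
          (∀ σ, φ (D.ρ.trace σ) = Ideal.Quotient.mk _ ((heckeDatum ctx hLS h).ρ.trace σ)) →
          φ f = Ideal.Quotient.mk _ t) → ∀ x, i (act f x) = actT t (i x)) := by
  rcases subsingleton_or_nontrivial K with hK | hK
  · have hs : Subsingleton (Module.End Λ K) := ⟨fun a b => LinearMap.ext fun x =>
      Subsingleton.elim _ _⟩
    refine ⟨⟨⟨⟨fun _ => 0, Subsingleton.elim _ _⟩, fun _ _ => Subsingleton.elim _ _⟩,
      Subsingleton.elim _ _, fun _ _ => Subsingleton.elim _ _⟩, fun c => Subsingleton.elim _ _,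
      fun σ x => ?_, fun f => ⟨0, fun x => ?_⟩, fun v _ _ _ f _ => Subsingleton.elim _ _,
      fun f t _ x => ?_⟩
    · rw [Subsingleton.elim x 0, map_zero, map_zero, map_zero]
    · rw [Subsingleton.elim x 0, map_zero, map_zero, map_zero]
    · rw [Subsingleton.elim x 0, map_zero, map_zero, map_zero]
  · set T := heckeLocal L (↑S : Set ℕ) 𝒪 (sysHom h) with hT
    set I : Ideal T := annK actT i with hI
    have hne : I ≠ ⊤ := annK_ne_top hi
    have hnt : Nontrivial (T ⧸ I) := Ideal.Quotient.nontrivial_iff.mpr hne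
    have hloc : IsLocalRing (T ⧸ I) :=
      IsLocalRing.of_surjective' (Ideal.Quotient.mk I) Ideal.Quotient.mk_surjective
    have hnoeth : IsNoetherianRing (T ⧸ I) :=
      isNoetherianRing_of_surjective _ _ (Ideal.Quotient.mk I) Ideal.Quotient.mk_surjective
    have hql : IsLocalHom (Ideal.Quotient.mk I) :=
      IsLocalHom.of_surjective _ Ideal.Quotient.mk_surjective
    have hfin : Module.Finite 𝒪 (T ⧸ I) := inferInstance
    have hlhom : IsLocalHom (algebraMap 𝒪 (T ⧸ I)) := by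
      have h1 : algebraMap 𝒪 (T ⧸ I) = (Ideal.Quotient.mk I).comp (algebraMap 𝒪 T) := rfl
      rw [h1]
      infer_instance
    have hcomp : IsAdicComplete (maximalIdeal (T ⧸ I)) (T ⧸ I) :=
      IsLocalRing.isAdicComplete_of_module_finite (𝒪 := 𝒪)
    let q : T →ₐ[𝒪] T ⧸ I := Ideal.Quotient.mkₐ 𝒪 I
    have hq : Function.Surjective q := Ideal.Quotient.mk_surjective
    obtain ⟨φ, hφs, hφ, hφl, he⟩ := exists_phi ctx hLS h D q hq (h𝒟 hloc hql)
    refine ⟨(quotAct hi hst).comp (φ : D.R →+* T ⧸ I), fun c => ?_, fun σ x => ?_, fun f => ?_,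
      fun v hv hvL hvp f hf => ?_, fun f t hft x => ?_⟩
    · refine LinearMap.ext fun x => hi ?_
      have h1 : (φ : D.R →+* T ⧸ I) (algebraMap 𝒪 D.R c) = Ideal.Quotient.mk I (algebraMap 𝒪 T c) :=
        φ.commutes c
      rw [RingHom.comp_apply, h1, coe_quotAct, hC, Module.algebraMap_end_apply,
        Module.algebraMap_end_apply, map_smul]
    · have h1 : (φ : D.R →+* T ⧸ I) (D.ρ.trace σ) =
          Ideal.Quotient.mk I ((heckeDatum ctx hLS h).ρ.trace σ) := hφ σ
      rw [RingHom.comp_apply, h1, coe_quotAct]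
    · obtain ⟨t, ht⟩ := Ideal.Quotient.mk_surjective (φ f)
      refine ⟨t, fun x => ?_⟩
      have h1 : (φ : D.R →+* T ⧸ I) f = Ideal.Quotient.mk I t := ht.symm
      rw [RingHom.comp_apply, h1, coe_quotAct]
    · rw [RingHom.comp_apply, hf (T ⧸ I) (φ : D.R →+* T ⧸ I) hφl, map_zero]
      exact isUnramifiedAt_of_trace ctx hLS h D.ρ q hql (φ : D.R →+* T ⧸ I) hφl
        (fun x => hφ x) hv hvL hvp
    · have h1 : (φ : D.R →+* T ⧸ I) f = Ideal.Quotient.mk I t := hft φ hφ
      rw [RingHom.comp_apply, h1, coe_quotAct]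

end Deform

section Full

variable {p : ℕ} [Fact p.Prime] {𝒪 : Type} [CommRing 𝒪] [IsDomain 𝒪]
  [IsDiscreteValuationRing 𝒪] [IsAdicComplete (maximalIdeal 𝒪) 𝒪]
  {ρbar : ResidualGaloisRep (ResidueField 𝒪)} {S : Finset ℕ}
  {θ₀ : PIdx (↑S : Set ℕ) → ResidueField 𝒪} {L : ℕ} [NeZero L]
  (ctx : HCtx p ρbar S θ₀) (hLS : ∀ q : ℕ, q.Prime → q ∣ L → q ∈ S)
  (h : Occ L (↑S : Set ℕ) θ₀)
  {𝒟 : ∀ ⦃A : Type⦄ [CommRing A] [IsLocalRing A] [Algebra 𝒪 A], GaloisRepAdic A → Prop}
  (D : DeformationRingData 𝒪 ρbar 𝒟)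
  {Λ M : Type} [CommRing Λ] [Algebra 𝒪 Λ] [AddCommGroup M] [Module Λ M]
  (actT : heckeLocal L (↑S : Set ℕ) 𝒪 (sysHom h) →+* Module.End Λ M)
  (hC : ∀ c : 𝒪, actT (algebraMap 𝒪 _ c) = algebraMap Λ _ (algebraMap 𝒪 Λ c))

include hC in
/-- **The action of a deformation ring on the cohomology.** -/
theorem exists_act_full (h𝒟 : 𝒟 (heckeDatum ctx hLS h).ρ) :
    ∃ act : D.R →+* Module.End Λ M,
      (∀ c : 𝒪, act (algebraMap 𝒪 D.R c) = algebraMap Λ _ (algebraMap 𝒪 Λ c)) ∧
      (∀ σ : GQ', act (D.ρ.trace σ) = actT ((heckeDatum ctx hLS h).ρ.trace σ)) ∧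
      (∀ f : D.R, ∃ t, act f = actT t) ∧
      (∀ v : ℕ, v.Prime → ¬ v ∣ L → v ≠ p → ∀ f : D.R,
        (∀ (B : Type) [CommRing B] [IsLocalRing B] (φ : D.R →+* B) (hφ : IsLocalHom φ),
          (D.ρ.baseChangeAlong φ hφ).IsUnramifiedAt v → φ f = 0) → act f = 0) := by
  obtain ⟨φ, hφs, hφ, hφl, he⟩ := exists_phi_self ctx hLS h D h𝒟
  refine ⟨actT.comp (φ : D.R →+* heckeLocal L (↑S : Set ℕ) 𝒪 (sysHom h)), fun c => ?_,
    fun σ => ?_, fun f => ⟨φ f, rfl⟩, fun v hv hvL hvp f hf => ?_⟩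
  · have h1 : (φ : D.R →+* heckeLocal L (↑S : Set ℕ) 𝒪 (sysHom h)) (algebraMap 𝒪 D.R c) =
        algebraMap 𝒪 _ c := φ.commutes c
    rw [RingHom.comp_apply, h1, hC]
  · have h1 : (φ : D.R →+* heckeLocal L (↑S : Set ℕ) 𝒪 (sysHom h)) (D.ρ.trace σ) =
        (heckeDatum ctx hLS h).ρ.trace σ := hφ σ
    rw [RingHom.comp_apply, h1]
  · rw [RingHom.comp_apply, hf _ (φ : D.R →+* heckeLocal L (↑S : Set ℕ) 𝒪 (sysHom h)) hφl,
      map_zero]
    obtain ⟨e⟩ := he
    exact isUnramifiedAt_of_isEquiv ⟨e.symm⟩ (heckeDatum_unramified ctx hLS h hv hvL hvp)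

end Full

end Fermat.Agent.HeckeRep
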