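import Fermat.Agent.HeckeRep.Relation
import Fermat.Agent.TwExact.Change

/-!
# The localised Hecke algebra acts on the `𝔪`-parts of the twisted cohomology

* `Occ`, `sysHom`: residual systems occurring at a level;
* `exists_act`: `heckeLocal L S 𝒪 θ` acts on `H¹(Γ₀(M), 𝒪[Δ](τ²))_𝔪` whenever `M Q₀ ∣ L`;
* `exists_act_triv`: the same for trivial coefficients;
* `exists_poly`, `act_aeval`: every element acts as a polynomial in the Hecke operators;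
* `exists_levelMap`: change of level.
-/

set_option autoImplicit false
set_option linter.unusedSectionVars false
set_option linter.unusedVariables false

noncomputable section

open CongruenceSubgroup
open scoped MatrixGroups

namespace Fermat.Agent.HeckeRep

open IsLocalRing Fermat.Agent.TwHecke Fermat.Agent.TwExact Fermat.Agent.GalRep CuspForm

section Occ

variable {k : Type} [Field k]

/-- the system of eigenvalues `θ₀` occurs at level `L` -/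
def Occ (L : ℕ) [NeZero L] (S : Set ℕ) (θ₀ : PIdx S → k) : Prop :=
  ∀ t : MvPolynomial (PIdx S) ℤ, evS L S t = 0 → MvPolynomial.aeval (R := ℤ) θ₀ t = 0

variable {L : ℕ} [NeZero L] {S : Set ℕ} {θ₀ : PIdx S → k}

/-- the character of the Hecke algebra attached to a system of eigenvalues -/
def sysHom (h : Occ L S θ₀) : heckeAlgebra L 2 S →+* k := (exists_hom_of_relations θ₀ h).choose

lemma sysHom_evS (h : Occ L S θ₀) (t : MvPolynomial (PIdx S) ℤ) :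
    sysHom h (evS L S t) = MvPolynomial.aeval (R := ℤ) θ₀ t :=
  (exists_hom_of_relations θ₀ h).choose_spec t

lemma evS_X0 (L : ℕ) [NeZero L] (S : Set ℕ) (ℓ : PIdx S) :
    evS L S (MvPolynomial.X ℓ) = genS L S ℓ := by
  rw [evS, MvPolynomial.aeval_X]

lemma aeval_genS {E : Type*} [CommRing E] (χ : heckeAlgebra L 2 S →+* E)
    (t : MvPolynomial (PIdx S) ℤ) :
    MvPolynomial.aeval (R := ℤ) (fun ℓ => χ (genS L S ℓ)) t = χ (evS L S t) := by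
  induction t using MvPolynomial.induction_on with
  | C a =>
    rw [← MvPolynomial.algebraMap_eq, AlgHom.commutes, AlgHom.commutes, algebraMap_int_eq,
      algebraMap_int_eq, eq_intCast, eq_intCast, map_intCast]
  | add p q hp hq => rw [map_add, map_add, map_add, hp, hq]
  | mul_X p i hp => rw [map_mul, map_mul, map_mul, hp, MvPolynomial.aeval_X, evS_X0]

@[simp] lemma sysHom_genS (h : Occ L S θ₀) (ℓ : PIdx S) : sysHom h (genS L S ℓ) = θ₀ ℓ := by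
  rw [← evS_X0, sysHom_evS, MvPolynomial.aeval_X]

lemma Occ.up {L' : ℕ} [NeZero L'] (h : Occ L' S θ₀) (hL : L' ∣ L)
    (hS : ∀ ℓ : ℕ, ℓ.Prime → ℓ ∣ L → ℓ ∈ S) : Occ L S θ₀ :=
  fun t ht => h t (evS_eq_zero_of_dvd hL hS ht)

/-- inclusion of index sets -/
def inclIdx {S S' : Set ℕ} (h : S ⊆ S') (ℓ : PIdx S') : PIdx S := ⟨ℓ.1, fun hℓ => ℓ.2 (h hℓ)⟩

lemma val_evS (L : ℕ) [NeZero L] (S : Set ℕ) (t : MvPolynomial (PIdx S) ℤ) :
    ((evS L S t : heckeAlgebra L 2 S) : Module.End ℂ (CuspForm (Gamma0 L) 2)) =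
      cev (R := ℤ) (fun i : PIdx S => FermatAgent.HeckeEigen.heckeOp L 2 i.1)
        (fun i j => FermatAgent.HeckeEigen.heckeOp_comm i.1 j.1) t := by
  have h2 : (heckeAlgebra L 2 S).val.comp (evS L S) =
      cev (R := ℤ) (fun i : {ℓ : Nat.Primes // (ℓ : ℕ) ∉ S} => FermatAgent.HeckeEigen.heckeOp L 2 i.1)
      (fun i j => FermatAgent.HeckeEigen.heckeOp_comm i.1 j.1) := by
    apply MvPolynomial.algHom_ext
    intro i
    rw [cev_X, AlgHom.comp_apply, evS, MvPolynomial.aeval_X]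
    exact TwES.val_genS L S i
  rw [← h2]; rfl

lemma cev_rename {R : Type*} [CommRing R] {ι ι' : Type*} {A : Type*} [Ring A] [Algebra R A]
    (f : ι → ι') (op : ι → A) (hop : ∀ i j, Commute (op i) (op j)) (op' : ι' → A)
    (hop' : ∀ i j, Commute (op' i) (op' j)) (h : ∀ i, op' (f i) = op i) (t : MvPolynomial ι R) :
    cev op' hop' (MvPolynomial.rename f t) = cev op hop t := by
  induction t using MvPolynomial.induction_on with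
  | C a => rw [MvPolynomial.rename_C, cev_C, cev_C]
  | add p q hp hq => rw [map_add, map_add, map_add, hp, hq]
  | mul_X p i hp => rw [map_mul, map_mul, map_mul, hp, MvPolynomial.rename_X, cev_X, cev_X, h]

lemma evS_rename_eq_zero_iff (L : ℕ) [NeZero L] {S S' : Set ℕ} (h : S ⊆ S')
    (t : MvPolynomial (PIdx S') ℤ) :
    evS L S (MvPolynomial.rename (inclIdx h) t) = 0 ↔ evS L S' t = 0 := by
  have h1 : ∀ (S : Set ℕ) (t : MvPolynomial (PIdx S) ℤ), evS L S t = 0 ↔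
      ((evS L S t : heckeAlgebra L 2 S) : Module.End ℂ (CuspForm (Gamma0 L) 2)) = 0 := fun S t =>
    ⟨fun h => by rw [h]; rfl, fun h => Subtype.ext h⟩
  rw [h1, h1, val_evS, val_evS, cev_rename (inclIdx h)
    (fun i : PIdx S' => FermatAgent.HeckeEigen.heckeOp L 2 i.1)
    (fun i j => FermatAgent.HeckeEigen.heckeOp_comm i.1 j.1) _ _ (fun i => rfl)]

lemma Occ.incl {S S' : Set ℕ} {θ₀ : PIdx S → k} (h : Occ L S θ₀) (hS : S ⊆ S') :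
    Occ L S' (θ₀ ∘ inclIdx hS) := by
  intro t ht
  have h1 := h _ ((evS_rename_eq_zero_iff L hS t).mpr ht)
  rwa [MvPolynomial.aeval_rename] at h1

end Occ

section Local

variable {𝒪 : Type} [CommRing 𝒪] [IsDomain 𝒪] [IsDiscreteValuationRing 𝒪]
  [IsAdicComplete (maximalIdeal 𝒪) 𝒪]

variable {L : ℕ} [NeZero L] {S : Set ℕ} [Fact (HasIntegralStructure L 2)]
variable (θ : heckeAlgebra L 2 S →+* ResidueField 𝒪)

/-- every element of the localised Hecke algebra is a polynomial in the Hecke operators. -/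
theorem exists_poly (x : heckeLocal L S 𝒪 θ) : ∃ t : MvPolynomial (PIdx S) 𝒪,
    MvPolynomial.aeval (fun ℓ => heckeLocal.π L S 𝒪 θ (genS L S ℓ)) t = x := by
  induction x using heckeLocal_induction θ with
  | halg a => exact ⟨MvPolynomial.C a, by rw [← MvPolynomial.algebraMap_eq, AlgHom.commutes]⟩
  | hgen ℓ => exact ⟨MvPolynomial.X ℓ, by rw [MvPolynomial.aeval_X]⟩
  | hadd a b ha hb =>
    obtain ⟨s, rfl⟩ := ha
    obtain ⟨t, rfl⟩ := hb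
    exact ⟨s + t, map_add _ _ _⟩
  | hmul a b ha hb =>
    obtain ⟨s, rfl⟩ := ha
    obtain ⟨t, rfl⟩ := hb
    exact ⟨s * t, map_mul _ _ _⟩

/-- polynomials act as polynomials. -/
theorem act_aeval {R : Type} [CommRing R] [Algebra 𝒪 R] {H : Type} [AddCommGroup H] [Module R H]
    {T : PIdx S → Module.End R H} (hT : ∀ i j, Commute (T i) (T j))
    (act : heckeLocal L S 𝒪 θ →+* Module.End R H)
    (h1 : ∀ a, act (algebraMap 𝒪 _ a) = algebraMap R _ (algebraMap 𝒪 R a))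
    (h2 : ∀ ℓ, act (heckeLocal.π L S 𝒪 θ (genS L S ℓ)) = T ℓ) (t : MvPolynomial (PIdx S) 𝒪) :
    act (MvPolynomial.aeval (fun ℓ => heckeLocal.π L S 𝒪 θ (genS L S ℓ)) t) =
      cev T hT (MvPolynomial.map (algebraMap 𝒪 R) t) := by
  induction t using MvPolynomial.induction_on with
  | C a => rw [MvPolynomial.map_C, cev_C, ← MvPolynomial.algebraMap_eq, AlgHom.commutes, h1]
  | add p q hp hq => rw [map_add, map_add, map_add, map_add, hp, hq]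
  | mul_X p i hp =>
    rw [map_mul, map_mul, map_mul, map_mul, hp, MvPolynomial.aeval_X, h2, MvPolynomial.map_X, cev_X]

/-- additive maps compatible with scalars and Hecke operators are compatible with the actions. -/
theorem act_natural {R R' : Type} [CommRing R] [Algebra 𝒪 R] [CommRing R'] [Algebra 𝒪 R']
    {H H' : Type} [AddCommGroup H] [Module R H] [AddCommGroup H'] [Module R' H']
    {T : PIdx S → Module.End R H} {T' : PIdx S → Module.End R' H'}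
    (act : heckeLocal L S 𝒪 θ →+* Module.End R H)
    (h1 : ∀ a, act (algebraMap 𝒪 _ a) = algebraMap R _ (algebraMap 𝒪 R a))
    (h2 : ∀ ℓ, act (heckeLocal.π L S 𝒪 θ (genS L S ℓ)) = T ℓ)
    (act' : heckeLocal L S 𝒪 θ →+* Module.End R' H')
    (h1' : ∀ a, act' (algebraMap 𝒪 _ a) = algebraMap R' _ (algebraMap 𝒪 R' a))
    (h2' : ∀ ℓ, act' (heckeLocal.π L S 𝒪 θ (genS L S ℓ)) = T' ℓ)
    (f : H →+ H') (hf : ∀ (a : 𝒪) x, f (algebraMap 𝒪 R a • x) = algebraMap 𝒪 R' a • f x)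
    (hfT : ∀ ℓ x, f (T ℓ x) = T' ℓ (f x)) (x : heckeLocal L S 𝒪 θ) (y : H) :
    f (act x y) = act' x (f y) := by
  revert y
  induction x using heckeLocal_induction θ with
  | halg a =>
    intro y
    rw [h1, h1', Module.algebraMap_end_apply, Module.algebraMap_end_apply, hf]
  | hgen ℓ => intro y; rw [h2, h2', hfT]
  | hadd a b ha hb =>
    intro y
    rw [map_add, map_add, LinearMap.add_apply, LinearMap.add_apply, map_add, ha, hb]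
  | hmul a b ha hb =>
    intro y
    rw [map_mul, map_mul, Module.End.mul_apply, Module.End.mul_apply, ha, hb]

end Local

section LevelMap

variable {𝒪 : Type} [CommRing 𝒪] [IsDomain 𝒪] [IsDiscreteValuationRing 𝒪]
  [IsAdicComplete (maximalIdeal 𝒪) 𝒪]

/-- **Change of level.** -/
theorem exists_levelMap {L L' : ℕ} [NeZero L] [NeZero L'] {S S' : Set ℕ}
    [Fact (HasIntegralStructure L 2)] [Fact (HasIntegralStructure L' 2)]
    (hL : L' ∣ L) (hS : S' ⊆ S) (hLS : ∀ ℓ : ℕ, ℓ.Prime → ℓ ∣ L → ℓ ∈ S)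
    (θ : heckeAlgebra L 2 S →+* ResidueField 𝒪) (θ' : heckeAlgebra L' 2 S' →+* ResidueField 𝒪)
    (hθ : ∀ ℓ : PIdx S, θ (genS L S ℓ) = θ' (genS L' S' (inclIdx hS ℓ))) :
    ∃ Ψ : heckeLocal L S 𝒪 θ →ₐ[𝒪] heckeLocal L' S' 𝒪 θ', ∀ ℓ : PIdx S,
      Ψ (heckeLocal.π L S 𝒪 θ (genS L S ℓ)) =
        heckeLocal.π L' S' 𝒪 θ' (genS L' S' (inclIdx hS ℓ)) := by
  obtain ⟨Ψ, hΨ⟩ := exists_algHom_of_relations θ
    (E := heckeLocal L' S' 𝒪 θ')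
    (fun ℓ : PIdx S => heckeLocal.π L' S' 𝒪 θ' (genS L' S' (inclIdx hS ℓ))) (fun t ht => by
      have h1 : evS L' S' (MvPolynomial.rename (inclIdx hS) t) = 0 :=
        (evS_rename_eq_zero_iff L' hS t).mpr (evS_eq_zero_of_dvd hL hLS ht)
      have h2 := aeval_genS (heckeLocal.π L' S' 𝒪 θ') (MvPolynomial.rename (inclIdx hS) t)
      rw [MvPolynomial.aeval_rename, h1, map_zero] at h2
      exact h2) (fun ℓ => by
      rw [residue_π, ← hθ])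
  exact ⟨Ψ, fun ℓ => by rw [← evS_X0, hΨ, MvPolynomial.aeval_X]⟩

end LevelMap

section GroupRing

variable {𝒪 : Type} [CommRing 𝒪] [IsLocalRing 𝒪] {Δ : Type} [CommGroup Δ]

theorem isLocalHom_groupRing [IsLocalRing (MonoidAlgebra 𝒪 Δ)] :
    IsLocalHom (algebraMap 𝒪 (MonoidAlgebra 𝒪 Δ)) := by
  constructor
  intro a ha
  have h1 := ha.map (RT.aug 𝒪 Δ)
  rwa [AlgHom.commutes] at h1

theorem isNoetherianRing_groupRing [IsNoetherianRing 𝒪] [Finite Δ] :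
    IsNoetherianRing (MonoidAlgebra 𝒪 Δ) := IsNoetherianRing.of_finite 𝒪 _

theorem isAdicComplete_groupRing [IsNoetherianRing 𝒪] [IsAdicComplete (maximalIdeal 𝒪) 𝒪]
    [Finite Δ] [IsLocalRing (MonoidAlgebra 𝒪 Δ)] :
    IsAdicComplete (maximalIdeal (MonoidAlgebra 𝒪 Δ)) (MonoidAlgebra 𝒪 Δ) := by
  have := isLocalHom_groupRing (𝒪 := 𝒪) (Δ := Δ)
  exact IsLocalRing.isAdicComplete_of_module_finite (𝒪 := 𝒪)

/-- group elements are residually trivial for a `p`-group. -/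
theorem residue_gr {p : ℕ} [Fact p.Prime] (hp𝒪 : (p : 𝒪) ∈ maximalIdeal 𝒪) (hΔ : IsPGroup p Δ)
    [Finite Δ] [IsLocalRing (MonoidAlgebra 𝒪 Δ)] (g : Δ) :
    residue (MonoidAlgebra 𝒪 Δ) (RT.gr 𝒪 Δ g) = 1 := by
  rw [← sub_eq_zero, ← map_one (residue (MonoidAlgebra 𝒪 Δ)), ← map_sub, residue_eq_zero_iff,
    RT.maximalIdeal_groupRing hp𝒪 hΔ, RT.mem_ker_resAug, map_sub, RT.aug_gr, map_one, sub_self]
  exact Ideal.zero_mem _

theorem residue_taut {M : ℕ} {p : ℕ} [Fact p.Prime] (hp𝒪 : (p : 𝒪) ∈ maximalIdeal 𝒪)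
    (hΔ : IsPGroup p Δ) [Finite Δ] [IsLocalRing (MonoidAlgebra 𝒪 Δ)] (τ : (ZMod M)ˣ →* Δ)
    (u : (ZMod M)ˣ) :
    residue (MonoidAlgebra 𝒪 Δ) ((taut 𝒪 τ u : (MonoidAlgebra 𝒪 Δ)ˣ) : MonoidAlgebra 𝒪 Δ) = 1 :=
  residue_gr hp𝒪 hΔ _

end GroupRing

section ActGroup

variable {𝒪 : Type} [CommRing 𝒪] [IsDomain 𝒪] [IsDiscreteValuationRing 𝒪]
  [IsAdicComplete (maximalIdeal 𝒪) 𝒪] [Finite (ResidueField 𝒪)] [CharZero 𝒪]

/-- an auxiliary prime from the strong non-Eisenstein condition. -/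
theorem exists_aux {k : Type} [Field k] {S : Set ℕ} {θ₀ : PIdx S → k}
    (hne : S41hm.StrongNonEis S θ₀) {M : ℕ} [NeZero M] : ∃ ℓ₀ : PIdx S,
      (((ℓ₀.1 : ℕ) : ℕ) : ZMod M) = 1 ∧ Odd (ℓ₀.1 : ℕ) ∧ θ₀ ℓ₀ ≠ (((ℓ₀.1 : ℕ) : ℕ) : k) + 1 := by
  obtain ⟨ℓ₀, h1, h2⟩ := hne.one (2 * M) (Nat.mul_pos two_pos (NeZero.pos M))
  have h3 : (M : ℤ) ∣ ((ℓ₀.1 : ℕ) : ℤ) - 1 :=
    dvd_trans (by rw [Nat.cast_mul]; exact Dvd.intro_left _ rfl) h1
  have h4 : (2 : ℤ) ∣ ((ℓ₀.1 : ℕ) : ℤ) - 1 :=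
    dvd_trans (by rw [Nat.cast_mul]; exact Dvd.intro _ rfl) h1
  refine ⟨ℓ₀, ?_, ?_, h2⟩
  · have h5 := (ZMod.intCast_zmod_eq_zero_iff_dvd (((ℓ₀.1 : ℕ) : ℤ) - 1) M).mpr h3
    push_cast at h5
    exact sub_eq_zero.mp h5
  · have := ℓ₀.1.2.two_le
    rw [Nat.odd_iff]; omega

variable {Δ : Type} [CommGroup Δ] [Finite Δ] [IsLocalRing (MonoidAlgebra 𝒪 Δ)]
  [IsLocalHom (algebraMap 𝒪 (MonoidAlgebra 𝒪 Δ))]

/-- **The action on `H¹(Γ₀(M), 𝒪[Δ](τ²))_𝔪`.** -/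
theorem exists_act {M Q₀ L : ℕ} [NeZero M] [NeZero Q₀] [NeZero L]
    [Fact (HasIntegralStructure L 2)] (hQM : Q₀ ∣ M) (hL : M * Q₀ ∣ L) {S : Set ℕ}
    (hS : ∀ ℓ : ℕ, ℓ.Prime → ℓ ∣ L → ℓ ∈ S) (τ₀ : (ZMod Q₀)ˣ →* Δ)
    {θ₀ : PIdx S → ResidueField 𝒪} (h : Occ L S θ₀) (hne : S41hm.StrongNonEis S θ₀)
    (hη : ∀ u, residue (MonoidAlgebra 𝒪 Δ)
      (taut 𝒪 (τ₀.comp (ZMod.unitsMap hQM)) u : MonoidAlgebra 𝒪 Δ) = 1)
    (hG : Good M ((taut 𝒪 (τ₀.comp (ZMod.unitsMap hQM))) ^ 2) S (thMap (MonoidAlgebra 𝒪 Δ) θ₀)) :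
    ∃ act : heckeLocal L S 𝒪 (sysHom h) →+*
        Module.End (MonoidAlgebra 𝒪 Δ) (Hm M ((taut 𝒪 (τ₀.comp (ZMod.unitsMap hQM))) ^ 2)
          (MonoidAlgebra 𝒪 Δ) S (thMap (MonoidAlgebra 𝒪 Δ) θ₀)),
      (∀ a, act (algebraMap 𝒪 _ a) =
        algebraMap (MonoidAlgebra 𝒪 Δ) _ (algebraMap 𝒪 (MonoidAlgebra 𝒪 Δ) a)) ∧
      ∀ ℓ, act (heckeLocal.π L S 𝒪 (sysHom h) (genS L S ℓ)) =
        hT (taut 𝒪 (τ₀.comp (ZMod.unitsMap hQM))) ((taut 𝒪 (τ₀.comp (ZMod.unitsMap hQM))) ^ 2) S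
          (thMap (MonoidAlgebra 𝒪 Δ) θ₀) ℓ := by
  have := Fintype.ofFinite Δ
  have hnoeth := isNoetherianRing_groupRing (𝒪 := 𝒪) (Δ := Δ)
  have hcomp := isAdicComplete_groupRing (𝒪 := 𝒪) (Δ := Δ)
  obtain ⟨ι, hι⟩ := RT.exists_embedding 𝒪
  obtain ⟨ℓ₀, h1, h2, h3⟩ := exists_aux hne (M := M)
  have hth : thR (sysHom h) (MonoidAlgebra 𝒪 Δ) = thMap (MonoidAlgebra 𝒪 Δ) θ₀ := by
    funext ℓ
    rw [thR, sysHom_genS]
  have hfin : Module.Finite (MonoidAlgebra 𝒪 Δ) (Hm M ((taut 𝒪 (τ₀.comp (ZMod.unitsMap hQM))) ^ 2)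
          (MonoidAlgebra 𝒪 Δ) S (thMap (MonoidAlgebra 𝒪 Δ) θ₀)) := finite_Hm _ _ _
  have hMS : ∀ ℓ : ℕ, ℓ.Prime → ℓ ∣ M → ℓ ∈ S := fun ℓ hℓ hd =>
    hS ℓ hℓ (hd.trans ((Dvd.intro _ rfl).trans hL))
  have hloc := isLocalAt_hT (M := M) (S := S)
    (ε := (taut 𝒪 (τ₀.comp (ZMod.unitsMap hQM))) ^ 2) (θ := thMap (MonoidAlgebra 𝒪 Δ) θ₀) hη
  rw [← hth] at hloc
  have hNZ : NeZero (M * Q₀) := ⟨mul_ne_zero (NeZero.ne M) (NeZero.ne Q₀)⟩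
  refine exists_act_of_relations (sysHom h) _ (hT_commute _ _ _) (by
    rw [hth] at hloc ⊢; exact hloc) (fun t ht => ?_)
  have ht' : evS (M * Q₀) S t = 0 := evS_eq_zero_of_dvd hL hS ht
  refine relation_of_torsion (𝒪 := 𝒪) hη hG t (ℓ₀ := ℓ₀) ?_ (fun x =>
    relation_group hQM ι hι hMS τ₀ t rfl ht' h1 h2 x)
  intro h4
  apply h3
  have h5 : ResidueField.map (algebraMap 𝒪 (MonoidAlgebra 𝒪 Δ)) (θ₀ ℓ₀) =
      ResidueField.map (algebraMap 𝒪 (MonoidAlgebra 𝒪 Δ))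
        ((((ℓ₀.1 : ℕ) : ℕ) : ResidueField 𝒪) + 1) := by
    rw [map_add, map_one, map_natCast]; exact h4
  exact (ResidueField.map (algebraMap 𝒪 (MonoidAlgebra 𝒪 Δ))).injective h5

end ActGroup

section ActTriv

variable {𝒪 : Type} [CommRing 𝒪] [IsDomain 𝒪]

/-- the relations for trivial coefficients, up to torsion. -/
theorem relation_triv (ι : 𝒪 →+* ℂ) (hι : Function.Injective ι) {M : ℕ} [NeZero M] {S : Set ℕ}
    (hS : ∀ ℓ : ℕ, ℓ.Prime → ℓ ∣ M → ℓ ∈ S)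
    (t : MvPolynomial {ℓ : Nat.Primes // (ℓ : ℕ) ∉ S} ℤ) (ht : evS M S t = 0)
    {ℓ₀ : PIdx S} (hℓ₀ : (((ℓ₀.1 : ℕ)) : ZMod M) = 1) (hodd : Odd (ℓ₀.1 : ℕ))
    (x : HM M ((1 : (ZMod M)ˣ →* 𝒪ˣ) ^ 2) 𝒪) :
    ∃ n : 𝒪, n ≠ 0 ∧ (algebraMap 𝒪 𝒪 n) •
      cev (R := ℤ) (nop (1 : (ZMod M)ˣ →* 𝒪ˣ) S) (nop_commute (1 : (ZMod M)ˣ →* 𝒪ˣ))
        (t * (MvPolynomial.X ℓ₀ - MvPolynomial.C (((ℓ₀.1 : ℕ) : ℤ) + 1))) x = 0 := by
  set τ : (ZMod M)ˣ →* PUnit.{1} := (1 : (ZMod 1)ˣ →* PUnit.{1}).comp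
    (ZMod.unitsMap (one_dvd M)) with hτ
  have htaut : ∀ u, ((taut 𝒪 τ u : (MonoidAlgebra 𝒪 PUnit.{1})ˣ) : MonoidAlgebra 𝒪 PUnit.{1}) = 1 := by
    intro u
    rw [coe_taut]; rfl
  have hf : ∀ u, ((((1 : (ZMod M)ˣ →* 𝒪ˣ) ^ 2) u : 𝒪ˣ) : 𝒪) =
      (RT.aug 𝒪 PUnit.{1} : MonoidAlgebra 𝒪 PUnit.{1} →+* 𝒪)
        ((((taut 𝒪 τ) ^ 2) u : (MonoidAlgebra 𝒪 PUnit.{1})ˣ) : MonoidAlgebra 𝒪 PUnit.{1}) := by
    intro u
    rw [MonoidHom.pow_apply, MonoidHom.pow_apply, Units.val_pow_eq_pow_val,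
      Units.val_pow_eq_pow_val, htaut, MonoidHom.one_apply, Units.val_one, one_pow, one_pow, map_one]
  have hg : ∀ u, ((((taut 𝒪 τ) ^ 2) u : (MonoidAlgebra 𝒪 PUnit.{1})ˣ) : MonoidAlgebra 𝒪 PUnit.{1}) =
      (algebraMap 𝒪 (MonoidAlgebra 𝒪 PUnit.{1})) ((((1 : (ZMod M)ˣ →* 𝒪ˣ) ^ 2) u : 𝒪ˣ) : 𝒪) := by
    intro u
    rw [MonoidHom.pow_apply, MonoidHom.pow_apply, Units.val_pow_eq_pow_val,
      Units.val_pow_eq_pow_val, htaut, MonoidHom.one_apply, Units.val_one, one_pow, one_pow, map_one]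
  set F := pushH (RT.aug 𝒪 PUnit.{1} : MonoidAlgebra 𝒪 PUnit.{1} →+* 𝒪) hf with hF
  have hFG : F (pushH (algebraMap 𝒪 (MonoidAlgebra 𝒪 PUnit.{1})) hg x) = x := by
    induction x using H1.ind with
    | h c =>
      rw [pushH_mk, hF, pushH_mk]
      congr 1
      ext g
      rw [pushZ_apply, pushZ_apply]
      exact (RT.aug 𝒪 PUnit.{1}).commutes _
  obtain ⟨n, hn, h⟩ := relation_group (one_dvd M) ι hι hS (1 : (ZMod 1)ˣ →* PUnit.{1}) t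
    (mul_one M) ht hℓ₀ hodd (pushH (algebraMap 𝒪 (MonoidAlgebra 𝒪 PUnit.{1})) hg x)
  refine ⟨n, hn, ?_⟩
  have h1 := congrArg F h
  rw [map_zero, hF, pushH_smul, cevZ_natural (nop_commute (taut 𝒪 τ))
    (nop_commute (1 : (ZMod M)ˣ →* 𝒪ˣ)), ← hF, hFG] at h1
  · rw [← h1]
    congr 1
    exact ((RT.aug 𝒪 PUnit.{1}).commutes n).symm
  · intro ℓ y
    rw [nop, nop, LinearMap.smul_apply, LinearMap.smul_apply, pushH_smul, pushH_heckeP]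
    congr 1
    rw [htaut, map_one]; rfl

variable [IsDiscreteValuationRing 𝒪]
  [IsAdicComplete (maximalIdeal 𝒪) 𝒪] [Finite (ResidueField 𝒪)] [CharZero 𝒪]

/-- **The action on `H¹(Γ₀(M), 𝒪)_𝔪`.** -/
theorem exists_act_triv {M L : ℕ} [NeZero M] [NeZero L]
    [Fact (HasIntegralStructure L 2)] (hL : M ∣ L) {S : Set ℕ}
    (hS : ∀ ℓ : ℕ, ℓ.Prime → ℓ ∣ L → ℓ ∈ S) {ε : (ZMod M)ˣ →* 𝒪ˣ} (hε : ε = 1)
    {θ₀ : PIdx S → ResidueField 𝒪} (h : Occ L S θ₀) (hne : S41hm.StrongNonEis S θ₀)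
    (hG : Good M ε S θ₀) :
    ∃ act : heckeLocal L S 𝒪 (sysHom h) →+* Module.End 𝒪 (Hm M ε 𝒪 S θ₀),
      (∀ a, act (algebraMap 𝒪 _ a) = algebraMap 𝒪 _ a) ∧
      ∀ ℓ, act (heckeLocal.π L S 𝒪 (sysHom h) (genS L S ℓ)) = hT 1 ε S θ₀ ℓ := by
  obtain rfl : ε = (1 : (ZMod M)ˣ →* 𝒪ˣ) ^ 2 := hε.trans (MonoidHom.ext fun u => by
    rw [MonoidHom.pow_apply, MonoidHom.one_apply, one_pow])
  obtain ⟨ι, hι⟩ := RT.exists_embedding 𝒪
  obtain ⟨ℓ₀, h1, h2, h3⟩ := exists_aux hne (M := M)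
  have hη : ∀ u : (ZMod M)ˣ, residue 𝒪 (((1 : (ZMod M)ˣ →* 𝒪ˣ) u : 𝒪ˣ) : 𝒪) = 1 := fun u => by
    rw [MonoidHom.one_apply, Units.val_one, map_one]
  have hth : thR (sysHom h) 𝒪 = θ₀ := by
    funext ℓ
    rw [thR, sysHom_genS]
    obtain ⟨a, ha⟩ := IsLocalRing.residue_surjective (θ₀ ℓ)
    rw [← ha, ResidueField.map_residue]; rfl
  have hfin : Module.Finite 𝒪 (Hm M ((1 : (ZMod M)ˣ →* 𝒪ˣ) ^ 2) 𝒪 S θ₀) := finite_Hm _ _ _
  have hloc := isLocalAt_hT (M := M) (S := S) (ε := (1 : (ZMod M)ˣ →* 𝒪ˣ) ^ 2) (θ := θ₀) hη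
  obtain ⟨act, ha1, ha2⟩ := exists_act_of_relations (sysHom h) (hT 1 (1 ^ 2) S θ₀)
    (hT_commute _ _ _) (by rw [hth]; exact hloc) (fun t ht => by
      refine relation_of_torsion (𝒪 := 𝒪) hη hG t (ℓ₀ := ℓ₀) h3 (fun x => ?_)
      exact relation_triv ι hι (fun ℓ hℓ hd => hS ℓ hℓ (hd.trans hL)) t
        (evS_eq_zero_of_dvd hL hS ht) h1 h2 x)
  exact ⟨act, ha1, ha2⟩

end ActTriv

end Fermat.Agent.HeckeRep
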