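import Mathlib
import Fermat.Agent.HeckeRep.Univ
import Fermat.Agent.HeckeRep.CondFlat
import Fermat.Agent.RTD.GalSide
import Fermat.Agent.SO.Final
import Fermat.Agent.SO.NewForms
import Fermat.Agent.NewRel.Act
import Fermat.Agent.NewRel.Triv

/-!
# The local conditions satisfied by the Hecke representations, strictly ordinary case

* `type_strict`: the quotients of the localised Hecke algebra of level `m p` which kill the
  operators vanishing on the `p`-new cusp forms carry a representation of type `Lord`;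
* `isFlatAt_of_levelMap`: the quotients of the localised Hecke algebra of level `L` which factor
  through the one of a level `L'` prime to `p` carry a flat representation;
* `type_strict_newKer`, `type_strict_newKer_triv`: the quotients by the annihilator of the
  `p`-new kernel.
-/

set_option autoImplicit false
set_option linter.unusedSectionVars false
set_option linter.unusedVariables false

noncomputable section

namespace Fermat.Agent.HeckeRep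

open IsLocalRing CuspForm Polynomial Fermat.Agent.GalRep
open Fermat.Agent.TwExact (PIdx)
open Fermat.Agent.NewRel (pnew)
open Oldforms (ALData)

section Ord

/-- ordinarity only depends on the isomorphism class. -/
theorem isOrdinaryAt_of_isEquiv' {A : Type} [CommRing A] [IsLocalRing A] {ρ ρ' : GaloisRepAdic A}
    (h : ρ.IsEquiv ρ') {p : ℕ} (ho : ρ.IsStrictOrdinaryAt p) : ρ'.IsOrdinaryAt p :=
  (TW.isStrictOrdinaryAt_of_isEquiv h ho).isOrdinaryAt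

/-- residual representations equivalent to a base change of an ordinary representation. -/
theorem isOrdinaryAt_ofResidual {k K : Type} [Field k] [Field K] (g : k →+* K)
    {ρbar : ResidualGaloisRep k} {ρ' : ResidualGaloisRep K}
    (h : ρ'.IsEquiv (ρbar.baseChangeAlong g)) {p : ℕ}
    (ho : (GaloisRepAdic.ofResidualGaloisRep ρbar).IsStrictOrdinaryAt p) :
    (GaloisRepAdic.ofResidualGaloisRep ρ').IsOrdinaryAt p := by
  have hg : IsLocalHom g := ⟨fun a ha => by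
    rw [isUnit_iff_ne_zero]
    rintro rfl
    rw [map_zero] at ha
    exact not_isUnit_zero ha⟩
  obtain ⟨r, hr⟩ := S53norm.exists_hasMat_res ρbar
  obtain ⟨e⟩ := h
  have h1 := ((hr.baseChangeAlong_res g).of_isEquiv_res ⟨e.symm⟩).ofResidual
  have h2 := hr.ofResidual.baseChangeAlong g hg
  exact isOrdinaryAt_of_isEquiv' (S53norm.isEquiv_of_hasMat h2 h1)
    (TW.isStrictOrdinaryAt_baseChange g hg ho)

end Ord

section StrictType

variable {𝒪 : Type} [CommRing 𝒪] [IsDomain 𝒪] [IsDiscreteValuationRing 𝒪]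
  [IsAdicComplete (maximalIdeal 𝒪) 𝒪] [Finite (ResidueField 𝒪)] [CharZero 𝒪]
  {p : ℕ} [Fact p.Prime]

/-- **Strictly ordinary type.** The base changes of the Hecke representation of level `L = m p`
which kill the operators that vanish on the `p`-new cusp forms. -/
theorem type_strict (𝓢 : RTD.Setup 𝒪 p) {S Q : Finset ℕ}
    {θ₀ : PIdx (↑S : Set ℕ) → ResidueField 𝒪} (ctx : HCtx p 𝓢.ρbar S θ₀)
    {m L : ℕ} [NeZero L] (hL : L = m * p) (hm : ¬ p ∣ m)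
    (hLS : ∀ q : ℕ, q.Prime → q ∣ L → q ∈ S) (h : Occ L (↑S : Set ℕ) θ₀)
    (hLQ : ∀ q : ℕ, q.Prime → q ∣ L → q ∈ 𝓢.Sg ∪ Q)
    (hsq : ∀ q ∈ 𝓢.Sg, q ≠ p → ¬ q ^ 2 ∣ L)
    (hord : (GaloisRepAdic.ofResidualGaloisRep 𝓢.ρbar).IsStrictOrdinaryAt p)
    {B : Type} [CommRing B] [IsLocalRing B] [IsNoetherianRing B] [Algebra 𝒪 B]
    [IsLocalHom (algebraMap 𝒪 B)]
    (f : heckeLocal L (↑S : Set ℕ) 𝒪 (sysHom h) →ₐ[𝒪] B)
    (hf : IsLocalHom (f : heckeLocal L (↑S : Set ℕ) 𝒪 (sysHom h) →+* B))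
    (D : ALData L m p)
    (hnew : ∀ a : heckeAlgebra L 2 (↑S : Set ℕ),
      (∀ g ∈ pnew D, (a : Module.End ℂ (CuspForm (CongruenceSubgroup.Gamma0 L) 2)) g = 0) →
        f (heckeLocal.π L (↑S : Set ℕ) 𝒪 (sysHom h) a) = 0) :
    𝓢.type (RTD.Lord p) Q ((heckeDatum ctx hLS h).ρ.baseChangeAlong
      (f : heckeLocal L (↑S : Set ℕ) 𝒪 (sysHom h) →+* B) hf) := by
  set T := heckeLocal L (↑S : Set ℕ) 𝒪 (sysHom h) with hT
  set H := heckeDatum ctx hLS h with hH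
  have hp : p.Prime := Fact.out
  have hunr : ∀ q : ℕ, q.Prime → ¬ q ∣ L → q ≠ p → H.ρ.IsUnramifiedAt q := fun q hq hqL hqp =>
    heckeDatum_unramified ctx hLS h hq hqL hqp
  have hres : (H.ρ.baseChangeAlong (f : T →+* B) hf).residual.IsEquiv
      (𝓢.ρbar.baseChangeAlong (ResidueField.map (algebraMap 𝒪 B))) :=
    RTD.residual_baseChangeAlong_isEquiv (heckeDatum_residual ctx hLS h) f hf
  have hdet : (H.ρ.baseChangeAlong (f : T →+* B) hf).DetIsCyclotomic p :=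
    TW.detIsCyclotomic_baseChange _ hf (heckeDatum_det ctx hLS h)
  refine ⟨⟨hdet, ?_, fun q hq hqS => ?_⟩, fun q hqS hq hqp => ?_⟩
  · show (H.ρ.baseChangeAlong (f : T →+* B) hf).IsStrictOrdinaryAt p
    have hfrob : HasFrobCharpoly ((f : T →+* B).comp H.π)
        (H.ρ.baseChangeAlong (f : T →+* B) hf) := by
      intro ℓ hℓ hℓN hℓS A hA σ hσ
      rw [RT.charpoly_baseChangeAlong_adic, H.charpoly_frob ℓ hℓ hℓN hℓS A hA σ hσ]
      simp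
    have habs := (ctx.absIrr_det hres).1
    have hnew' : ∀ t : HeckeAlgS (↑S : Set ℕ),
        (∀ g ∈ pnew D, ((evS L (↑S : Set ℕ) t : heckeAlgebra L 2 (↑S : Set ℕ)) :
          Module.End ℂ (CuspForm (CongruenceSubgroup.Gamma0 L) 2)) g = 0) →
          ((f : T →+* B).comp H.π) (evS L (↑S : Set ℕ) t) = 0 := by
      intro t ht
      rw [RingHom.comp_apply, hH, heckeDatum_π]
      exact hnew _ ht
    generalize hπ : (f : T →+* B).comp H.π = π at hfrob hnew'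
    generalize hρ : H.ρ.baseChangeAlong (f : T →+* B) hf = ρ at hres hdet hfrob habs
    have hord' : (GaloisRepAdic.ofResidualGaloisRep ρ.residual).IsOrdinaryAt p :=
      isOrdinaryAt_ofResidual _ hres hord
    clear hπ hρ hunr hnew hH
    clear H
    clear hf f
    clear hT T
    clear h
    subst hL
    have : NeZero m := ⟨fun h0 => NeZero.ne (m * p) (by rw [h0, zero_mul])⟩
    have : NeZero p := ⟨hp.ne_zero⟩
    exact SO.isStrictOrdinaryAt_new hp hm ctx.two hLS hdet.1 hfrob habs hord' fun t ht =>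
      hnew' t fun g hg => by
        have hg' := (NewRel.mem_pnew D).mp hg
        exact SO.evS_apply_eq_zero_of_new' D rfl hm t ht g hg'.1 hg'.2
  · refine TW.isUnramifiedAt_baseChange _ hf (hunr q hq (fun h1 => hqS (hLQ q hq h1)) fun h1 =>
      hqS (Finset.mem_union_left _ ?_))
    rw [h1]
    exact Finset.mem_union_left _ 𝓢.hpS
  · refine TW.isUnipotentOnInertiaAt_baseChange _ hf ?_
    by_cases hqL : q ∣ L
    · exact Fermat.Agent.S34.result hp ctx.mem ctx.mem_S hLS H q hq hqp hqL (hsq q hqS hqp)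
    · intro P hP σ hσ
      rw [hunr q hq hqL hqp P hP σ hσ, LinearMap.charpoly_one, H.ρ.finrank_eq]

end StrictType

section Flat

/-- factoring through a surjection -/
theorem exists_factor {A B C : Type} [CommRing A] [CommRing B] [CommRing C] (g : A →+* B)
    (hg : Function.Surjective g) (f : A →+* C) (h : ∀ a, g a = 0 → f a = 0) :
    ∃ f' : B →+* C, f = f'.comp g := by
  refine ⟨(RingHom.liftOfSurjective g hg) ⟨f, fun a ha => h a ha⟩, ?_⟩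
  exact (RingHom.liftOfSurjective_comp g hg ⟨f, fun a ha => h a ha⟩).symm

variable {𝒪 : Type} [CommRing 𝒪] [IsDomain 𝒪] [IsDiscreteValuationRing 𝒪]
  [IsAdicComplete (maximalIdeal 𝒪) 𝒪] [Finite (ResidueField 𝒪)] [CharZero 𝒪]
  {p : ℕ} [Fact p.Prime] {ρbar : ResidualGaloisRep (ResidueField 𝒪)} {S : Finset ℕ}
  {θ₀ : PIdx (↑S : Set ℕ) → ResidueField 𝒪} (ctx : HCtx p ρbar S θ₀)
  {L L' : ℕ} [NeZero L] [NeZero L']

/-- **Flatness.** The base changes of the Hecke representation of level `L` which factor through the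
localised Hecke algebra of a level `L'` prime to `p` are flat at `p`. -/
theorem isFlatAt_of_levelMap (hLS : ∀ q : ℕ, q.Prime → q ∣ L → q ∈ S) (h : Occ L (↑S : Set ℕ) θ₀)
    (hLS' : ∀ q : ℕ, q.Prime → q ∣ L' → q ∈ S) (h' : Occ L' (↑S : Set ℕ) θ₀) (hpL' : ¬ p ∣ L')
    (Ψ : heckeLocal L (↑S : Set ℕ) 𝒪 (sysHom h) →ₐ[𝒪] heckeLocal L' (↑S : Set ℕ) 𝒪 (sysHom h'))
    (hΨ : ∀ ℓ : PIdx (↑S : Set ℕ), Ψ (heckeLocal.π L (↑S : Set ℕ) 𝒪 (sysHom h)
      (genS L (↑S : Set ℕ) ℓ)) = heckeLocal.π L' (↑S : Set ℕ) 𝒪 (sysHom h')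
        (genS L' (↑S : Set ℕ) ℓ))
    {B : Type} [CommRing B] [IsLocalRing B] [Finite (ResidueField B)]
    (f : heckeLocal L (↑S : Set ℕ) 𝒪 (sysHom h) →+* B) (hf : IsLocalHom f)
    (hker : ∀ t, Ψ t = 0 → f t = 0) :
    ((heckeDatum ctx hLS h).ρ.baseChangeAlong f hf).IsFlatAt p := by
  have hsurj := levelMap_surjective h Ψ hΨ
  obtain ⟨f', hf'⟩ := exists_factor
    (Ψ : heckeLocal L (↑S : Set ℕ) 𝒪 (sysHom h) →+* heckeLocal L' (↑S : Set ℕ) 𝒪 (sysHom h'))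
    hsurj f hker
  have hloc : IsLocalHom (Ψ : heckeLocal L (↑S : Set ℕ) 𝒪 (sysHom h) →+*
      heckeLocal L' (↑S : Set ℕ) 𝒪 (sysHom h')) :=
    isLocalHom_algHom (residue_surjective L' (↑S : Set ℕ) 𝒪 (sysHom h')) Ψ
  have hf'l : IsLocalHom f' := by
    constructor
    intro y hy
    obtain ⟨x, rfl⟩ := hsurj y
    have h1 : f x = f' (Ψ x) := by rw [hf']; rfl
    rw [← h1] at hy
    exact (hf.map_nonunit x hy).map Ψ
  have h1 : ((heckeDatum ctx hLS h).ρ.baseChangeAlong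
      (Ψ : heckeLocal L (↑S : Set ℕ) 𝒪 (sysHom h) →+* heckeLocal L' (↑S : Set ℕ) 𝒪 (sysHom h'))
      hloc).IsEquiv (heckeDatum ctx hLS' h').ρ :=
    ctx.isEquiv_of_trace _ _ (heckeDatum_residual ctx hLS' h') _ hloc
      (levelMap_trace ctx hLS h ctx hLS' h' subset_rfl Ψ hΨ)
  obtain ⟨e⟩ := RTD.isEquiv_baseChange_comp _ hloc h1 f' hf'l f hf hf'
  exact FlatGS.isFlatAt_of_isEquiv ⟨e.symm⟩
    (FlatGS.isFlatAt_baseChangeAlong f' hf'l _ inferInstance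
      (Fermat.Agent.S32.result Fact.out ctx.two ctx.mem hpL' ctx.mem_S hLS' _))

end Flat

section NewKer

open Fermat.Agent.TwHecke Fermat.Agent.TwExact Fermat.Agent.HSide

variable {𝒪 : Type} [CommRing 𝒪] [IsDomain 𝒪] [IsDiscreteValuationRing 𝒪]
  [IsAdicComplete (maximalIdeal 𝒪) 𝒪] [Finite (ResidueField 𝒪)] [CharZero 𝒪]
  {p : ℕ} [Fact p.Prime]

/-- **Type `Lord` modulo the annihilator of the `p`-new kernel.** -/
theorem type_strict_newKer (𝓢 : RTD.Setup 𝒪 p) {S Q : Finset ℕ}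
    {θ₀ : PIdx (↑S : Set ℕ) → ResidueField 𝒪} (ctx : HCtx p 𝓢.ρbar S θ₀)
    {M M' Q₀ L : ℕ} [NeZero M'] [NeZero Q₀] [NeZero L] (hpM : ¬ p ∣ M) (hM : M * p = M')
    (hQM : Q₀ ∣ M) (hQM' : Q₀ ∣ M') (hL : M' * Q₀ = L)
    {Δ : Type} [CommGroup Δ] [Finite Δ] [IsLocalRing (MonoidAlgebra 𝒪 Δ)]
    [IsLocalHom (algebraMap 𝒪 (MonoidAlgebra 𝒪 Δ))] (τ₀ : (ZMod Q₀)ˣ →* Δ)
    (hne : S41hm.StrongNonEis (↑S : Set ℕ) θ₀)
    (hη : ∀ u, residue (MonoidAlgebra 𝒪 Δ)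
      (taut 𝒪 (τ₀.comp (ZMod.unitsMap hQM')) u : MonoidAlgebra 𝒪 Δ) = 1)
    (hG : Good M' ((taut 𝒪 (τ₀.comp (ZMod.unitsMap hQM'))) ^ 2) (↑S : Set ℕ)
      (thMap (MonoidAlgebra 𝒪 Δ) θ₀))
    (hηη : infl (Dvd.intro p hM) (taut 𝒪 (τ₀.comp (ZMod.unitsMap hQM))) =
      taut 𝒪 (τ₀.comp (ZMod.unitsMap hQM')))
    (hpS : p ∈ (↑S : Set ℕ))
    (hLS : ∀ q : ℕ, q.Prime → q ∣ L → q ∈ S) (h : Occ L (↑S : Set ℕ) θ₀)
    (hLQ : ∀ q : ℕ, q.Prime → q ∣ L → q ∈ 𝓢.Sg ∪ Q)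
    (hsq : ∀ q ∈ 𝓢.Sg, q ≠ p → ¬ q ^ 2 ∣ L)
    (hord : (GaloisRepAdic.ofResidualGaloisRep 𝓢.ρbar).IsStrictOrdinaryAt p)
    (act : heckeLocal L (↑S : Set ℕ) 𝒪 (sysHom h) →+*
      Module.End (MonoidAlgebra 𝒪 Δ) (Hm M' ((taut 𝒪 (τ₀.comp (ZMod.unitsMap hQM'))) ^ 2)
        (MonoidAlgebra 𝒪 Δ) (↑S : Set ℕ) (thMap (MonoidAlgebra 𝒪 Δ) θ₀)))
    (hact : ∀ ℓ, act (heckeLocal.π L (↑S : Set ℕ) 𝒪 (sysHom h) (genS L (↑S : Set ℕ) ℓ)) =
      hT (taut 𝒪 (τ₀.comp (ZMod.unitsMap hQM'))) ((taut 𝒪 (τ₀.comp (ZMod.unitsMap hQM'))) ^ 2)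
        (↑S : Set ℕ) (thMap (MonoidAlgebra 𝒪 Δ) θ₀) ℓ)
    {B : Type} [CommRing B] [IsLocalRing B] [IsNoetherianRing B] [Algebra 𝒪 B]
    [IsLocalHom (algebraMap 𝒪 B)]
    (f : heckeLocal L (↑S : Set ℕ) 𝒪 (sysHom h) →ₐ[𝒪] B)
    (hf : IsLocalHom (f : heckeLocal L (↑S : Set ℕ) 𝒪 (sysHom h) →+* B))
    (hfK : ∀ t, (∀ x, j1 Fact.out hpM hM hηη (thMap (MonoidAlgebra 𝒪 Δ) θ₀) hpS x = 0 →
      j2 Fact.out hpM hM hηη (thMap (MonoidAlgebra 𝒪 Δ) θ₀) hpS x = 0 → act t x = 0) → f t = 0) :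
    𝓢.type (RTD.Lord p) Q ((heckeDatum ctx hLS h).ρ.baseChangeAlong
      (f : heckeLocal L (↑S : Set ℕ) 𝒪 (sysHom h) →+* B) hf) := by
  have hp : p.Prime := Fact.out
  have hL' : L = p * (M * Q₀) := by rw [← hL, ← hM]; ring
  have hm : ¬ p ∣ M * Q₀ := fun h1 => by
    rcases hp.dvd_mul.mp h1 with h2 | h2
    · exact hpM h2
    · exact hpM (h2.trans hQM)
  obtain ⟨D⟩ := Oldforms.exists_ALData hp hL' hm
  refine type_strict 𝓢 ctx (by rw [hL', mul_comm]) hm hLS h hLQ hsq hord f hf D fun a ha => ?_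
  exact hfK _ fun x h1 h2 => NewRel.act_newKer D hpM hM hQM hQM' hL
    (fun ℓ hℓ hd => hLS ℓ hℓ (hd.trans (Dvd.intro _ hL))) τ₀ hne hη hG hηη hpS (sysHom h) act hact
    a ha x h1 h2

/-- **Type `Lord` modulo the annihilator of the `p`-new kernel, bottom level.** -/
theorem type_strict_newKer_triv (𝓢 : RTD.Setup 𝒪 p) {S Q : Finset ℕ}
    {θ₀ : PIdx (↑S : Set ℕ) → ResidueField 𝒪} (ctx : HCtx p 𝓢.ρbar S θ₀)
    {M M' : ℕ} [NeZero M'] (hpM : ¬ p ∣ M) (hM : M * p = M')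
    (hne : S41hm.StrongNonEis (↑S : Set ℕ) θ₀)
    (hηη : infl (Dvd.intro p hM) (1 : (ZMod M)ˣ →* 𝒪ˣ) = (1 : (ZMod M')ˣ →* 𝒪ˣ))
    (hG : Good M' ((1 : (ZMod M')ˣ →* 𝒪ˣ) ^ 2) (↑S : Set ℕ) θ₀)
    (hpS : p ∈ (↑S : Set ℕ))
    (hLS : ∀ q : ℕ, q.Prime → q ∣ M' → q ∈ S) (h : Occ M' (↑S : Set ℕ) θ₀)
    (hLQ : ∀ q : ℕ, q.Prime → q ∣ M' → q ∈ 𝓢.Sg ∪ Q)
    (hsq : ∀ q ∈ 𝓢.Sg, q ≠ p → ¬ q ^ 2 ∣ M')
    (hord : (GaloisRepAdic.ofResidualGaloisRep 𝓢.ρbar).IsStrictOrdinaryAt p)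
    (act : heckeLocal M' (↑S : Set ℕ) 𝒪 (sysHom h) →+*
      Module.End 𝒪 (Hm M' ((1 : (ZMod M')ˣ →* 𝒪ˣ) ^ 2) 𝒪 (↑S : Set ℕ) θ₀))
    (hact : ∀ ℓ, act (heckeLocal.π M' (↑S : Set ℕ) 𝒪 (sysHom h) (genS M' (↑S : Set ℕ) ℓ)) =
      hT (1 : (ZMod M')ˣ →* 𝒪ˣ) ((1 : (ZMod M')ˣ →* 𝒪ˣ) ^ 2) (↑S : Set ℕ) θ₀ ℓ)
    {B : Type} [CommRing B] [IsLocalRing B] [IsNoetherianRing B] [Algebra 𝒪 B]
    [IsLocalHom (algebraMap 𝒪 B)]
    (f : heckeLocal M' (↑S : Set ℕ) 𝒪 (sysHom h) →ₐ[𝒪] B)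
    (hf : IsLocalHom (f : heckeLocal M' (↑S : Set ℕ) 𝒪 (sysHom h) →+* B))
    (hfK : ∀ t, (∀ x, j1 Fact.out hpM hM hηη θ₀ hpS x = 0 →
      j2 Fact.out hpM hM hηη θ₀ hpS x = 0 → act t x = 0) → f t = 0) :
    𝓢.type (RTD.Lord p) Q ((heckeDatum ctx hLS h).ρ.baseChangeAlong
      (f : heckeLocal M' (↑S : Set ℕ) 𝒪 (sysHom h) →+* B) hf) := by
  have hp : p.Prime := Fact.out
  have hL' : M' = p * M := by rw [← hM]; ring
  obtain ⟨D⟩ := Oldforms.exists_ALData hp hL' hpM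
  refine type_strict 𝓢 ctx hM.symm hpM hLS h hLQ hsq hord f hf D fun a ha => ?_
  exact hfK _ fun x h1 h2 => NewRel.act_newKer_triv D hpM hM
    (fun ℓ hℓ hd => hLS ℓ hℓ hd) hne hηη hG hpS (sysHom h) act hact a ha x h1 h2

end NewKer

end Fermat.Agent.HeckeRep

end
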