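import Mathlib

/-!
# Group rings of finite commutative groups over `ℂ` and descent of solutions of linear systems

`exists_smul_eq_of_forall_char`: if a system of equations `c g = (e g - 1) * b` with
`c g, e g ∈ 𝒪[Δ]` can be solved in `ℂ` after applying any character of `Δ`, then it can be solved in
`𝒪[Δ]` up to a nonzero scalar of `𝒪`.
-/

set_option autoImplicit false
set_option linter.unusedSectionVars false
set_option linter.unusedVariables false

noncomputable section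

namespace Fermat.Agent.HeckeRep

section Fourier

variable {Δ : Type*} [CommGroup Δ] [Fintype Δ]

/-- a character of `Δ` as a ring homomorphism -/
def chi (ψ : Δ →* ℂˣ) : MonoidAlgebra ℂ Δ →ₐ[ℂ] ℂ :=
  MonoidAlgebra.lift ℂ ℂ Δ ((Units.coeHom ℂ).comp ψ)

@[simp] lemma chi_single (ψ : Δ →* ℂˣ) (δ : Δ) (a : ℂ) :
    chi ψ (MonoidAlgebra.single δ a) = a * (ψ δ : ℂ) := by
  rw [chi, MonoidAlgebra.lift_single, smul_eq_mul]; rfl

/-- the idempotent of a character -/
def eidem (ψ : Δ →* ℂˣ) : MonoidAlgebra ℂ Δ :=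
  ∑ δ : Δ, MonoidAlgebra.single δ ((Fintype.card Δ : ℂ)⁻¹ * ((ψ δ⁻¹ : ℂˣ) : ℂ))

lemma single_mul_eidem (ψ : Δ →* ℂˣ) (δ : Δ) :
    MonoidAlgebra.single δ (1 : ℂ) * eidem ψ = ((ψ δ : ℂˣ) : ℂ) • eidem ψ := by
  rw [eidem, Finset.mul_sum, Finset.smul_sum]
  refine Fintype.sum_equiv (Equiv.mulLeft δ) _ _ fun δ' => ?_
  rw [MonoidAlgebra.single_mul_single, MonoidAlgebra.smul_single, one_mul, Equiv.coe_mulLeft]
  congr 1
  simp only [mul_inv, map_mul, map_inv, Units.val_mul, smul_eq_mul]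
  have h : ((ψ δ : ℂˣ) : ℂ) * (((ψ δ)⁻¹ : ℂˣ) : ℂ) = 1 := Units.mul_inv _
  linear_combination (-(Fintype.card Δ : ℂ)⁻¹ * (((ψ δ')⁻¹ : ℂˣ) : ℂ)) * h

lemma mul_eidem (ψ : Δ →* ℂˣ) (x : MonoidAlgebra ℂ Δ) :
    x * eidem ψ = chi ψ x • eidem ψ := by
  induction x using MonoidAlgebra.induction_linear with
  | zero => simp
  | add x y hx hy => rw [add_mul, hx, hy, map_add, add_smul]
  | single δ a =>
    have : MonoidAlgebra.single δ a = a • MonoidAlgebra.single δ (1 : ℂ) := by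
      rw [MonoidAlgebra.smul_single, smul_eq_mul, mul_one]
    rw [this, smul_mul_assoc, single_mul_eidem, map_smul, chi_single, one_mul, smul_smul,
      smul_eq_mul]

instance : Finite (Δ →* ℂˣ) := by
  have : Nat.card (Δ →* ℂˣ) = Nat.card Δ := CommGroup.card_monoidHom_of_hasEnoughRootsOfUnity Δ ℂ
  exact Nat.finite_of_card_ne_zero (by rw [this]; exact Nat.card_pos.ne')

instance : Fintype (Δ →* ℂˣ) := Fintype.ofFinite _

lemma card_char : Fintype.card (Δ →* ℂˣ) = Fintype.card Δ := by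
  rw [← Nat.card_eq_fintype_card, ← Nat.card_eq_fintype_card]
  exact CommGroup.card_monoidHom_of_hasEnoughRootsOfUnity Δ ℂ

lemma sum_char_eq_zero {δ : Δ} (hδ : δ ≠ 1) : ∑ ψ : Δ →* ℂˣ, ((ψ δ : ℂˣ) : ℂ) = 0 := by
  obtain ⟨φ, hφ⟩ := CommGroup.exists_apply_ne_one_of_hasEnoughRootsOfUnity Δ ℂ hδ
  have h1 : ∑ ψ : Δ →* ℂˣ, ((ψ δ : ℂˣ) : ℂ) = ((φ δ : ℂˣ) : ℂ) * ∑ ψ : Δ →* ℂˣ, ((ψ δ : ℂˣ) : ℂ) := by
    rw [Finset.mul_sum]
    refine (Fintype.sum_equiv (Equiv.mulLeft φ) _ _ fun ψ => ?_).symm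
    rw [Equiv.coe_mulLeft, MonoidHom.mul_apply, Units.val_mul]
  have h2 : (((φ δ : ℂˣ) : ℂ) - 1) * ∑ ψ : Δ →* ℂˣ, ((ψ δ : ℂˣ) : ℂ) = 0 := by
    linear_combination -h1
  rcases mul_eq_zero.mp h2 with h3 | h3
  · exact absurd (Units.ext (sub_eq_zero.mp h3)) hφ
  · exact h3

/-- Fourier inversion -/
lemma sum_chi_smul_eidem (x : MonoidAlgebra ℂ Δ) :
    ∑ ψ : Δ →* ℂˣ, chi ψ x • eidem ψ = x := by
  classical
  have hcard : (Fintype.card Δ : ℂ) ≠ 0 := by exact_mod_cast Fintype.card_ne_zero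
  induction x using MonoidAlgebra.induction_linear with
  | zero => simp
  | add x y hx hy =>
    simp only [map_add, add_smul, Finset.sum_add_distrib, hx, hy]
  | single δ a =>
    have h1 : ∀ ψ : Δ →* ℂˣ, chi ψ (MonoidAlgebra.single δ a) • eidem ψ =
        ∑ δ' : Δ, MonoidAlgebra.single δ'
          (a * (Fintype.card Δ : ℂ)⁻¹ * ((ψ (δ * δ'⁻¹) : ℂˣ) : ℂ)) := by
      intro ψ
      rw [chi_single, eidem, Finset.smul_sum]
      refine Finset.sum_congr rfl fun δ' _ => ?_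
      rw [MonoidAlgebra.smul_single, smul_eq_mul, map_mul, Units.val_mul]
      congr 1
      ring
    simp only [h1]
    rw [Finset.sum_comm]
    have h2 : ∀ δ' : Δ, ∑ ψ : Δ →* ℂˣ, MonoidAlgebra.single δ'
        (a * (Fintype.card Δ : ℂ)⁻¹ * ((ψ (δ * δ'⁻¹) : ℂˣ) : ℂ)) =
          if δ' = δ then MonoidAlgebra.single δ a else (0 : MonoidAlgebra ℂ Δ) := by
      intro δ'
      have h3 : ∑ ψ : Δ →* ℂˣ, MonoidAlgebra.single δ'
        (a * (Fintype.card Δ : ℂ)⁻¹ * ((ψ (δ * δ'⁻¹) : ℂˣ) : ℂ)) =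
          MonoidAlgebra.single δ' (a * (Fintype.card Δ : ℂ)⁻¹ *
            ∑ ψ : Δ →* ℂˣ, ((ψ (δ * δ'⁻¹) : ℂˣ) : ℂ)) := by
        rw [Finset.mul_sum]
        exact (map_sum (MonoidAlgebra.singleAddHom δ') _ _).symm
      rw [h3]
      split_ifs with h
      · subst h
        congr 1
        simp only [mul_inv_cancel, map_one, Units.val_one, Finset.sum_const, Finset.card_univ,
          card_char, nsmul_eq_mul, mul_one]
        field_simp
      · rw [sum_char_eq_zero (fun h' => h (by rw [mul_inv_eq_one] at h'; exact h'.symm)), mul_zero,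
          MonoidAlgebra.single_zero]
    simp only [h2]
    rw [Finset.sum_ite_eq' Finset.univ δ]
    simp

/-- combination of the solutions for the characters -/
lemma exists_of_forall_chi {I : Type*} (c e : I → MonoidAlgebra ℂ Δ)
    (h : ∀ ψ : Δ →* ℂˣ, ∃ b : ℂ, ∀ g, chi ψ (c g) = (chi ψ (e g) - 1) * b) :
    ∃ b : MonoidAlgebra ℂ Δ, ∀ g, c g = (e g - 1) * b := by
  choose b hb using h
  refine ⟨∑ ψ : Δ →* ℂˣ, b ψ • eidem ψ, fun g => ?_⟩
  rw [Finset.mul_sum, ← sum_chi_smul_eidem (c g)]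
  refine Finset.sum_congr rfl fun ψ _ => ?_
  rw [mul_smul_comm, mul_eidem, map_sub, map_one, smul_smul, hb, mul_comm]

end Fourier

section Descent

variable {Δ : Type*} [CommGroup Δ] [Fintype Δ]

/-- a linear retraction of a field extension -/
lemma exists_retraction (K L : Type*) [Field K] [Field L] [Algebra K L] :
    ∃ r : L →ₗ[K] K, r 1 = 1 := by
  have h : LinearMap.ker (Algebra.linearMap K L) = ⊥ :=
    LinearMap.ker_eq_bot.mpr (algebraMap K L).injective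
  obtain ⟨r, hr⟩ := LinearMap.exists_leftInverse_of_injective (Algebra.linearMap K L) h
  refine ⟨r, ?_⟩
  have := LinearMap.congr_fun hr 1
  simpa using this

lemma map_mul_of_linear {K L : Type*} [Field K] [Field L] [Algebra K L] (r : L →ₗ[K] K)
    (x : MonoidAlgebra K Δ) (y : MonoidAlgebra L Δ) :
    MonoidAlgebra.map r.toAddMonoidHom (MonoidAlgebra.mapRingHom Δ (algebraMap K L) x * y) =
      x * MonoidAlgebra.map r.toAddMonoidHom y := by
  induction x using MonoidAlgebra.induction_linear with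
  | zero => simp
  | add x x' hx hx' => rw [map_add, add_mul, MonoidAlgebra.map_add, hx, hx', add_mul]
  | single δ a =>
    induction y using MonoidAlgebra.induction_linear with
    | zero => simp
    | add y y' hy hy' => rw [mul_add, MonoidAlgebra.map_add, hy, hy', MonoidAlgebra.map_add, mul_add]
    | single δ' b =>
      rw [MonoidAlgebra.mapRingHom_single, MonoidAlgebra.single_mul_single,
        MonoidAlgebra.map_single, MonoidAlgebra.map_single, MonoidAlgebra.single_mul_single]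
      congr 1
      show r (algebraMap K L a * b) = a * r b
      rw [← Algebra.smul_def, map_smul, smul_eq_mul]

variable {𝒪 : Type*} [CommRing 𝒪] [IsDomain 𝒪]

lemma exists_smul_eq_mapRingHom (K : Type*) [Field K] [Algebra 𝒪 K] [IsFractionRing 𝒪 K]
    (x : MonoidAlgebra K Δ) : ∃ (n : 𝒪) (y : MonoidAlgebra 𝒪 Δ), n ≠ 0 ∧
      algebraMap 𝒪 K n • x = MonoidAlgebra.mapRingHom Δ (algebraMap 𝒪 K) y := by
  classical
  obtain ⟨b, hb⟩ := IsLocalization.exist_integer_multiples_of_finite (nonZeroDivisors 𝒪)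
    (fun δ : Δ => x.coeff δ)
  choose y hy using hb
  refine ⟨b, ∑ δ : Δ, MonoidAlgebra.single δ (y δ), nonZeroDivisors.coe_ne_zero b, ?_⟩
  ext δ
  rw [MonoidAlgebra.coeff_mapRingHom, MonoidAlgebra.coeff_smul, Finsupp.smul_apply, smul_eq_mul,
    MonoidAlgebra.coeff_sum, Finsupp.finsetSum_apply]
  have h1 : ∑ δ' : Δ, (MonoidAlgebra.single δ' (y δ')).coeff δ = y δ := by
    rw [Finset.sum_eq_single δ]
    · simp
    · intro δ' _ h
      simp [Finsupp.single_apply, h]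
    · intro h; exact absurd (Finset.mem_univ δ) h
  rw [h1, hy, Algebra.smul_def]

/-- a character of `Δ` and an embedding of the coefficients as a ring homomorphism -/
def chiO (ι : 𝒪 →+* ℂ) (ψ : Δ →* ℂˣ) : MonoidAlgebra 𝒪 Δ →+* ℂ :=
  ((chi ψ : MonoidAlgebra ℂ Δ →ₐ[ℂ] ℂ) : MonoidAlgebra ℂ Δ →+* ℂ).comp
    (MonoidAlgebra.mapRingHom Δ ι)

@[simp] lemma chiO_single (ι : 𝒪 →+* ℂ) (ψ : Δ →* ℂˣ) (δ : Δ) (a : 𝒪) :
    chiO ι ψ (MonoidAlgebra.single δ a) = ι a * (ψ δ : ℂ) := by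
  rw [chiO, RingHom.comp_apply, MonoidAlgebra.mapRingHom_single]
  exact chi_single ψ δ _

theorem exists_smul_eq_of_forall_char (ι : 𝒪 →+* ℂ) (hι : Function.Injective ι) {I : Type*}
    (c e : I → MonoidAlgebra 𝒪 Δ)
    (h : ∀ ψ : Δ →* ℂˣ, ∃ b : ℂ, ∀ g, chiO ι ψ (c g) = (chiO ι ψ (e g) - 1) * b) :
    ∃ (n : 𝒪) (b : MonoidAlgebra 𝒪 Δ), n ≠ 0 ∧ ∀ g, n • c g = (e g - 1) * b := by
  let K := FractionRing 𝒪
  let ιK : K →+* ℂ := IsFractionRing.lift hι
  letI : Algebra K ℂ := ιK.toAlgebra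
  have hιK : ∀ a : 𝒪, algebraMap K ℂ (algebraMap 𝒪 K a) = ι a := fun a =>
    IsFractionRing.lift_algebraMap hι a
  have hcomp : (algebraMap K ℂ).comp (algebraMap 𝒪 K) = ι := RingHom.ext hιK
  set jK := MonoidAlgebra.mapRingHom Δ (algebraMap 𝒪 K) with hjK
  set jC := MonoidAlgebra.mapRingHom Δ (algebraMap K ℂ) with hjC
  have hj : ∀ x, jC (jK x) = MonoidAlgebra.mapRingHom Δ ι x := by
    intro x
    rw [← RingHom.comp_apply, hjK, hjC, ← MonoidAlgebra.mapRingHom_comp, hcomp]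
  obtain ⟨b, hb⟩ := exists_of_forall_chi (fun g => jC (jK (c g))) (fun g => jC (jK (e g))) (by
    intro ψ
    obtain ⟨b, hb⟩ := h ψ
    refine ⟨b, fun g => ?_⟩
    rw [hj, hj]
    exact hb g)
  obtain ⟨r, hr⟩ := exists_retraction K ℂ
  set ρ := MonoidAlgebra.map (M := Δ) r.toAddMonoidHom with hρ
  have hρj : ∀ x, ρ (jC x) = x := by
    intro x
    have h1 := map_mul_of_linear (Δ := Δ) r x 1
    rw [mul_one, MonoidAlgebra.one_def, MonoidAlgebra.map_single] at h1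
    have h2 : r.toAddMonoidHom (1 : ℂ) = 1 := hr
    rw [h2, ← MonoidAlgebra.one_def, mul_one] at h1
    exact h1
  have h3 : ∀ g, jK (c g) = (jK (e g) - 1) * ρ b := by
    intro g
    have h1 := congrArg ρ (hb g)
    rw [hρj] at h1
    rw [h1, ← map_one jC, ← map_sub]
    exact map_mul_of_linear r _ b
  obtain ⟨n, y, hn, hy⟩ := exists_smul_eq_mapRingHom (𝒪 := 𝒪) K (ρ b)
  refine ⟨n, y, hn, fun g => ?_⟩
  have hinj : Function.Injective jK :=
    MonoidAlgebra.map_injective _ (FaithfulSMul.algebraMap_injective 𝒪 K)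
  apply hinj
  have h4 : jK (n • c g) = algebraMap 𝒪 K n • jK (c g) := by
    ext δ
    rw [hjK, MonoidAlgebra.coeff_mapRingHom, MonoidAlgebra.coeff_smul, MonoidAlgebra.coeff_smul,
      Finsupp.smul_apply, Finsupp.smul_apply, MonoidAlgebra.coeff_mapRingHom, smul_eq_mul, map_mul,
      smul_eq_mul]
  rw [h4, h3, map_mul, map_sub, map_one, ← mul_smul_comm, hy]

end Descent

end Fermat.Agent.HeckeRep
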