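import Fermat.Agent.S30_Pseudo

/-!
# Two-dimensional odd pseudo-characters over arbitrary commutative rings

Let `t : G → R` be a pseudo-character of dimension two with determinant `d` (`IsPseudo t d`), let
`2` be invertible in `R`, and let `c : G` be an involution with `d c = -1`. We attach to it the
functions `a`, `δ` (diagonal entries in a basis diagonalising `c`) and `x` (products of the
off-diagonal entries) and, whenever some `x r s` is a unit, an explicit homomorphism
`G →* Matrix (Fin 2) (Fin 2) R` with trace `t` and determinant `d`.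
-/

set_option autoImplicit false
set_option linter.unusedSectionVars false
set_option linter.unusedVariables false

open Polynomial

namespace Fermat.Agent.HeckeRep

open Fermat.Agent.S30aux

section Abstract

/-! ### The identities in an algebra -/

variable {G R E : Type*} [Group G] [CommRing R] [Ring E] [Algebra R E]

/-- abstract data: an algebra generated by a group satisfying the polarised quadratic relation -/
structure PolarAlg (t : G → R) (E : Type*) [Ring E] [Algebra R E] where
  u : G →* E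
  polar : ∀ g h, u g * u h + u h * u g = t g • u h + t h • u g + (t (g * h) - t g * t h) • (1 : E)
  φ : E →ₗ[R] R
  φu : ∀ g, φ (u g) = t g

variable {t : G → R} (P : PolarAlg t E)

/-- the diagonal entries -/
def aa (κ : R) (t : G → R) (c : G) (g : G) : R := κ * (t g + t (c * g))

/-- the other diagonal entries -/
def dd (κ : R) (t : G → R) (c : G) (g : G) : R := κ * (t g - t (c * g))

/-- product of the off-diagonal entries -/
def xx (κ : R) (t : G → R) (c : G) (g h : G) : R := aa κ t c (g * h) - aa κ t c g * aa κ t c h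

variable {κ : R} (hκ : 2 * κ = 1) {c : G} (hc : c * c = 1) (htc : t c = 0) (ht1 : t 1 = 2)

namespace PolarAlg

include hκ hc htc ht1

/-- idempotent -/
def ee (P : PolarAlg t E) (κ : R) (c : G) : E := κ • (1 + P.u c)

/-- the other idempotent -/
def ff (P : PolarAlg t E) (κ : R) (c : G) : E := κ • (1 - P.u c)

lemma ucc (P : PolarAlg t E) : P.u c * P.u c = 1 := by rw [← map_mul, hc, map_one]

lemma ee_add_ff (P : PolarAlg t E) : P.ee κ c + P.ff κ c = 1 := by
  rw [ee, ff, ← smul_add]
  have : (1 + P.u c + (1 - P.u c) : E) = (2 : R) • (1 : E) := by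
    rw [two_smul]; abel
  rw [this, smul_smul, mul_comm κ, hκ, one_smul]

lemma φ_ee (P : PolarAlg t E) : P.φ (P.ee κ c) = 1 := by
  rw [ee, map_smul, map_add, P.φu, htc, ← map_one P.u, P.φu, ht1, add_zero, smul_eq_mul, mul_comm, hκ]

lemma φ_ff (P : PolarAlg t E) : P.φ (P.ff κ c) = 1 := by
  rw [ff, map_smul, map_sub, P.φu, htc, ← map_one P.u, P.φu, ht1, sub_zero, smul_eq_mul, mul_comm, hκ]

lemma smul_ee_inj (P : PolarAlg t E) {a b : R} (h : a • P.ee κ c = b • P.ee κ c) : a = b := by
  have := congrArg P.φ h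
  rwa [map_smul, map_smul, φ_ee hκ hc htc ht1, smul_eq_mul, smul_eq_mul, mul_one, mul_one] at this

lemma smul_ff_inj (P : PolarAlg t E) {a b : R} (h : a • P.ff κ c = b • P.ff κ c) : a = b := by
  have := congrArg P.φ h
  rwa [map_smul, map_smul, φ_ff hκ hc htc ht1, smul_eq_mul, smul_eq_mul, mul_one, mul_one] at this

lemma anticomm (P : PolarAlg t E) (g : G) :
    P.u g * P.u c = t g • P.u c + t (c * g) • (1 : E) - P.u c * P.u g := by
  have := P.polar c g
  rw [htc, zero_smul, zero_add, zero_mul, sub_zero] at this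
  rw [← this]; abel

lemma conj (P : PolarAlg t E) (g : G) :
    P.u c * P.u g * P.u c = t g • (1 : E) + t (c * g) • P.u c - P.u g := by
  rw [mul_assoc, anticomm hκ hc htc ht1, mul_sub, mul_add, mul_smul_comm, mul_smul_comm, mul_one,
    ucc hκ hc htc ht1, ← mul_assoc, ucc hκ hc htc ht1, one_mul]

lemma ee_mul_ee (P : PolarAlg t E) (g : G) :
    P.ee κ c * P.u g * P.ee κ c = aa κ t c g • P.ee κ c := by
  have h1 : (1 + P.u c) * P.u g * (1 + P.u c) = (t g + t (c * g)) • (1 + P.u c) := by
    have : (1 + P.u c) * P.u g * (1 + P.u c) =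
        P.u g + P.u c * P.u g + P.u g * P.u c + P.u c * P.u g * P.u c := by noncomm_ring
    rw [this, anticomm hκ hc htc ht1, conj hκ hc htc ht1, smul_add, add_smul, add_smul]
    abel
  rw [ee, aa, smul_mul_assoc, smul_mul_smul_comm, h1, smul_smul, smul_smul]
  congr 1; ring

lemma ff_mul_ff (P : PolarAlg t E) (g : G) :
    P.ff κ c * P.u g * P.ff κ c = dd κ t c g • P.ff κ c := by
  have h1 : (1 - P.u c) * P.u g * (1 - P.u c) = (t g - t (c * g)) • (1 - P.u c) := by
    have : (1 - P.u c) * P.u g * (1 - P.u c) =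
        P.u g - P.u c * P.u g - P.u g * P.u c + P.u c * P.u g * P.u c := by noncomm_ring
    rw [this, anticomm hκ hc htc ht1, conj hκ hc htc ht1, smul_sub, sub_smul, sub_smul]
    abel
  rw [ff, dd, smul_mul_assoc, smul_mul_smul_comm, h1, smul_smul, smul_smul]
  congr 1; ring

lemma ee_ff_ee (P : PolarAlg t E) (g h : G) :
    P.ee κ c * P.u g * P.ff κ c * P.u h * P.ee κ c = xx κ t c g h • P.ee κ c := by
  have h1 : P.ee κ c * P.u (g * h) * P.ee κ c =
      (P.ee κ c * P.u g * P.ee κ c) * P.u h * P.ee κ c +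
        P.ee κ c * P.u g * P.ff κ c * P.u h * P.ee κ c := by
    rw [map_mul]
    calc P.ee κ c * (P.u g * P.u h) * P.ee κ c
        = P.ee κ c * P.u g * (1 : E) * P.u h * P.ee κ c := by noncomm_ring
      _ = P.ee κ c * P.u g * (P.ee κ c + P.ff κ c) * P.u h * P.ee κ c := by
          rw [ee_add_ff hκ hc htc ht1]
      _ = _ := by noncomm_ring
  rw [ee_mul_ee hκ hc htc ht1, ee_mul_ee hκ hc htc ht1, smul_mul_assoc, smul_mul_assoc,
    ee_mul_ee hκ hc htc ht1, smul_smul] at h1
  rw [xx, sub_smul, h1]; abel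

lemma ff_ee_ff (P : PolarAlg t E) (g h : G) :
    P.ff κ c * P.u g * P.ee κ c * P.u h * P.ff κ c =
      (dd κ t c (g * h) - dd κ t c g * dd κ t c h) • P.ff κ c := by
  have h1 : P.ff κ c * P.u (g * h) * P.ff κ c =
      (P.ff κ c * P.u g * P.ff κ c) * P.u h * P.ff κ c +
        P.ff κ c * P.u g * P.ee κ c * P.u h * P.ff κ c := by
    rw [map_mul]
    calc P.ff κ c * (P.u g * P.u h) * P.ff κ c
        = P.ff κ c * P.u g * (1 : E) * P.u h * P.ff κ c := by noncomm_ring
      _ = P.ff κ c * P.u g * (P.ee κ c + P.ff κ c) * P.u h * P.ff κ c := by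
          rw [ee_add_ff hκ hc htc ht1]
      _ = _ := by noncomm_ring
  rw [ff_mul_ff hκ hc htc ht1, ff_mul_ff hκ hc htc ht1, smul_mul_assoc, smul_mul_assoc,
    ff_mul_ff hκ hc htc ht1, smul_smul] at h1
  rw [sub_smul, h1]; abel

/-- cyclicity -/
lemma dd_sub (P : PolarAlg t E) (htcomm : ∀ g h, t (g * h) = t (h * g)) (g h : G) :
    dd κ t c (g * h) - dd κ t c g * dd κ t c h = xx κ t c h g := by
  have h1 : t (c * (g * h)) + t (c * (h * g)) = t g * t (c * h) + t h * t (c * g) := by
    have h2 := congrArg P.φ (congrArg (fun z => P.u c * z) (P.polar g h))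
    simp only [mul_add, mul_smul_comm, mul_one] at h2
    rw [← map_mul P.u, ← map_mul P.u, ← map_mul P.u, ← map_mul P.u, ← map_mul P.u,
      ← map_mul P.u] at h2
    simp only [map_add, map_smul, P.φu, htc, smul_eq_mul, mul_zero, add_zero] at h2
    exact h2
  have h3 : κ * (t (g * h) - t (c * (g * h))) - κ * (t (h * g) + t (c * (h * g))) =
      κ * (t g - t (c * g)) * (κ * (t h - t (c * h))) -
        κ * (t h + t (c * h)) * (κ * (t g + t (c * g))) := by
    rw [htcomm h g]
    linear_combination (-κ) * h1 + κ * (t g * t (c * h) + t h * t (c * g)) * hκ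
  rw [xx, aa, aa, aa, dd, dd, dd]
  linear_combination h3

lemma xx_mul_xx (P : PolarAlg t E) (htcomm : ∀ g h, t (g * h) = t (h * g)) (g h r s : G) :
    xx κ t c g h * xx κ t c r s = xx κ t c g s * xx κ t c r h := by
  refine P.smul_ee_inj hκ hc htc ht1 ?_
  have hee : P.ee κ c * P.ee κ c = P.ee κ c := by
    have := ee_mul_ee hκ hc htc ht1 P 1
    rw [map_one, mul_one, aa, mul_one, ht1, htc, add_zero, mul_comm, hκ, one_smul] at this
    exact this
  calc (xx κ t c g h * xx κ t c r s) • P.ee κ c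
      = (xx κ t c g h • P.ee κ c) * (xx κ t c r s • P.ee κ c) := by
        rw [smul_mul_smul_comm, hee]
    _ = (P.ee κ c * P.u g * P.ff κ c * P.u h * P.ee κ c) *
          (P.ee κ c * P.u r * P.ff κ c * P.u s * P.ee κ c) := by
        rw [ee_ff_ee hκ hc htc ht1, ee_ff_ee hκ hc htc ht1]
    _ = P.ee κ c * P.u g * (P.ff κ c * P.u h * (P.ee κ c * P.ee κ c) * P.u r * P.ff κ c) *
          P.u s * P.ee κ c := by simp only [mul_assoc]
    _ = P.ee κ c * P.u g * (P.ff κ c * P.u h * P.ee κ c * P.u r * P.ff κ c) *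
          P.u s * P.ee κ c := by rw [hee]
    _ = xx κ t c r h • (P.ee κ c * P.u g * P.ff κ c * P.u s * P.ee κ c) := by
        rw [ff_ee_ff hκ hc htc ht1, dd_sub hκ hc htc ht1 P htcomm]
        simp only [mul_smul_comm, smul_mul_assoc, mul_assoc]
    _ = _ := by rw [ee_ff_ee hκ hc htc ht1, smul_smul, mul_comm]

lemma xx_mul_left (P : PolarAlg t E) (g h s : G) :
    xx κ t c (g * h) s = aa κ t c g * xx κ t c h s + xx κ t c g s * dd κ t c h := by
  refine P.smul_ee_inj hκ hc htc ht1 ?_
  calc xx κ t c (g * h) s • P.ee κ c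
      = P.ee κ c * P.u (g * h) * P.ff κ c * P.u s * P.ee κ c := by rw [ee_ff_ee hκ hc htc ht1]
    _ = P.ee κ c * P.u g * (1 : E) * P.u h * P.ff κ c * P.u s * P.ee κ c := by
        rw [map_mul]; noncomm_ring
    _ = P.ee κ c * P.u g * (P.ee κ c + P.ff κ c) * P.u h * P.ff κ c * P.u s * P.ee κ c := by
        rw [ee_add_ff hκ hc htc ht1]
    _ = (P.ee κ c * P.u g * P.ee κ c) * (P.u h * P.ff κ c * P.u s * P.ee κ c) +
          P.ee κ c * P.u g * (P.ff κ c * P.u h * P.ff κ c) * P.u s * P.ee κ c := by noncomm_ring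
    _ = aa κ t c g • (P.ee κ c * P.u h * P.ff κ c * P.u s * P.ee κ c) +
          dd κ t c h • (P.ee κ c * P.u g * P.ff κ c * P.u s * P.ee κ c) := by
        rw [ee_mul_ee hκ hc htc ht1, ff_mul_ff hκ hc htc ht1]
        simp only [mul_smul_comm, smul_mul_assoc, mul_assoc]
    _ = _ := by
        rw [ee_ff_ee hκ hc htc ht1, ee_ff_ee hκ hc htc ht1, smul_smul, smul_smul, ← add_smul,
          mul_comm (dd κ t c h)]

lemma xx_mul_right (P : PolarAlg t E) (r g h : G) :
    xx κ t c r (g * h) = xx κ t c r g * aa κ t c h + dd κ t c g * xx κ t c r h := by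
  refine P.smul_ee_inj hκ hc htc ht1 ?_
  calc xx κ t c r (g * h) • P.ee κ c
      = P.ee κ c * P.u r * P.ff κ c * P.u (g * h) * P.ee κ c := by rw [ee_ff_ee hκ hc htc ht1]
    _ = P.ee κ c * P.u r * P.ff κ c * P.u g * (1 : E) * P.u h * P.ee κ c := by
        rw [map_mul]; noncomm_ring
    _ = P.ee κ c * P.u r * P.ff κ c * P.u g * (P.ee κ c + P.ff κ c) * P.u h * P.ee κ c := by
        rw [ee_add_ff hκ hc htc ht1]
    _ = (P.ee κ c * P.u r * P.ff κ c * P.u g * P.ee κ c) * (P.u h * P.ee κ c) +
          P.ee κ c * P.u r * (P.ff κ c * P.u g * P.ff κ c) * P.u h * P.ee κ c := by noncomm_ring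
    _ = xx κ t c r g • (P.ee κ c * P.u h * P.ee κ c) +
          dd κ t c g • (P.ee κ c * P.u r * P.ff κ c * P.u h * P.ee κ c) := by
        rw [ee_ff_ee hκ hc htc ht1, ff_mul_ff hκ hc htc ht1]
        simp only [mul_smul_comm, smul_mul_assoc, mul_assoc]
    _ = _ := by
        rw [ee_mul_ee hκ hc htc ht1, ee_ff_ee hκ hc htc ht1, smul_smul, smul_smul, ← add_smul]

end PolarAlg

end Abstract

section Pseudo

variable {G R : Type*} [Group G] [CommRing R] {t : G → R} {d : G →* Rˣ}

/-- the polar algebra attached to a pseudo-character: endomorphisms of the span of translates -/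
def polarAlg (H : IsPseudo t d) : PolarAlg t (Module.End R (IsPseudo.span R t)) where
  u :=
    { toFun := fun g => (rt G R g).restrict (fun _ hf => IsPseudo.rt_mem_span hf g)
      map_one' := by
        ext f y
        simp
      map_mul' := fun g h => by
        ext f y
        simp [mul_assoc] }
  polar g h := by
    apply LinearMap.ext
    rintro ⟨f, hf⟩
    apply Subtype.ext
    have h1 := H.polar hf g h
    rw [map_mul, map_mul] at h1
    simpa using h1
  φ :=
    { toFun := fun X => ((X ⟨t, IsPseudo.mem_span t⟩ : IsPseudo.span R t) : G → R) 1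
      map_add' := fun X Y => rfl
      map_smul' := fun a X => rfl }
  φu g := by
    show ((rt G R g) t) 1 = t g
    rw [rt_apply, one_mul]

variable (H : IsPseudo t d) {κ : R} (hκ : 2 * κ = 1) {c : G} (hc : c * c = 1)
  (hdc : ((d c : Rˣ) : R) = -1)

include H hκ hc hdc

lemma t_c : t c = 0 := by
  have h1 := H.inv c
  have h2 : c⁻¹ = c := inv_eq_of_mul_eq_one_left hc
  rw [hdc, h2] at h1
  have h3 : (2 : R) * t c = 0 := by linear_combination -h1
  calc t c = (2 * κ) * t c := by rw [hκ, one_mul]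
    _ = κ * (2 * t c) := by ring
    _ = 0 := by rw [h3, mul_zero]

lemma t_mul_self (g : G) : t g * t g = t (g * g) + 2 * ((d g : Rˣ) : R) := by
  have := H.mul g g
  rw [mul_inv_cancel, H.one] at this
  rw [this]; ring

/-- the explicit representation -/
def matRep {r s : G} (X : Rˣ) (hX : xx κ t c r s = X) : G →* Matrix (Fin 2) (Fin 2) R where
  toFun g := !![aa κ t c g, xx κ t c g s * ((X⁻¹ : Rˣ) : R); xx κ t c r g, dd κ t c g]
  map_one' := by
    have htc := t_c H hκ hc hdc
    have e1 : aa κ t c 1 = 1 := by rw [aa, mul_one, H.one, htc, add_zero, mul_comm, hκ]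
    have e2 : dd κ t c 1 = 1 := by rw [dd, mul_one, H.one, htc, sub_zero, mul_comm, hκ]
    have e3 : xx κ t c 1 s = 0 := by rw [xx, one_mul, e1, one_mul, sub_self]
    have e4 : xx κ t c r 1 = 0 := by rw [xx, mul_one, e1, mul_one, sub_self]
    rw [e1, e2, e3, e4, zero_mul]
    exact Matrix.one_fin_two.symm
  map_mul' g h := by
    have htc := t_c H hκ hc hdc
    have P := polarAlg H
    have hXX : xx κ t c r s * ((X⁻¹ : Rˣ) : R) = 1 := by rw [hX, Units.mul_inv]
    have e1 : aa κ t c (g * h) =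
        aa κ t c g * aa κ t c h + xx κ t c g s * ((X⁻¹ : Rˣ) : R) * xx κ t c r h := by
      have h1 := P.xx_mul_xx hκ hc htc H.one H.comm g h r s
      have h2 : xx κ t c g h = aa κ t c (g * h) - aa κ t c g * aa κ t c h := rfl
      linear_combination (-1 : R) * h2 - xx κ t c g h * hXX + ((X⁻¹ : Rˣ) : R) * h1
    have e2 : xx κ t c (g * h) s * ((X⁻¹ : Rˣ) : R) =
        aa κ t c g * (xx κ t c h s * ((X⁻¹ : Rˣ) : R)) +
          xx κ t c g s * ((X⁻¹ : Rˣ) : R) * dd κ t c h := by
      rw [P.xx_mul_left hκ hc htc H.one]; ring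
    have e3 := P.xx_mul_right hκ hc htc H.one r g h
    have e4 : dd κ t c (g * h) =
        xx κ t c r g * (xx κ t c h s * ((X⁻¹ : Rˣ) : R)) + dd κ t c g * dd κ t c h := by
      have h1 := P.xx_mul_xx hκ hc htc H.one H.comm h g r s
      have h2 := P.dd_sub hκ hc htc H.one H.comm g h
      linear_combination h2 - xx κ t c h g * hXX + ((X⁻¹ : Rˣ) : R) * h1
    rw [Matrix.mul_fin_two, e1, e2, e3, e4]

lemma matRep_apply {r s : G} (X : Rˣ) (hX : xx κ t c r s = X) (g : G) :
    matRep H hκ hc hdc X hX g =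
      !![aa κ t c g, xx κ t c g s * ((X⁻¹ : Rˣ) : R); xx κ t c r g, dd κ t c g] := rfl

lemma trace_matRep {r s : G} (X : Rˣ) (hX : xx κ t c r s = X) (g : G) :
    (matRep H hκ hc hdc X hX g).trace = t g := by
  rw [matRep_apply, Matrix.trace_fin_two_of, aa, dd]
  linear_combination t g * hκ

lemma det_matRep {r s : G} (X : Rˣ) (hX : xx κ t c r s = X) (g : G) :
    (matRep H hκ hc hdc X hX g).det = ((d g : Rˣ) : R) := by
  have htc := t_c H hκ hc hdc
  have P := polarAlg H
  have hXX : xx κ t c r s * ((X⁻¹ : Rˣ) : R) = 1 := by rw [hX, Units.mul_inv]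
  rw [matRep_apply, Matrix.det_fin_two_of]
  have h1 := P.xx_mul_xx hκ hc htc H.one H.comm g g r s
  have h2 : xx κ t c g g = aa κ t c (g * g) - aa κ t c g * aa κ t c g := rfl
  have h3 := t_mul_self H hκ hc hdc g
  have h4 : t (c * g) * t g = t (c * (g * g)) := by
    have := H.mul (c * g) g
    rw [mul_inv_cancel_right, htc, mul_zero, add_zero, mul_assoc] at this
    exact this
  have h5 : aa κ t c g * t g = aa κ t c (g * g) + ((d g : Rˣ) : R) := by
    rw [aa, aa]
    linear_combination κ * h3 + κ * h4 + ((d g : Rˣ) : R) * hκ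
  have h6 : aa κ t c g + dd κ t c g = t g := by
    rw [aa, dd]; linear_combination t g * hκ
  linear_combination ((X⁻¹ : Rˣ) : R) * h1 - xx κ t c g g * hXX - h2 + h5 + aa κ t c g * h6

/-- if the translates by `σ` are congruent modulo `I`, then the matrix of `σ` is congruent to `1` -/
lemma matRep_sub_one_mem {r s : G} (X : Rˣ) (hX : xx κ t c r s = X) (I : Ideal R) (σ : G)
    (hσ : ∀ y, t (y * σ) - t y ∈ I) (i j : Fin 2) :
    matRep H hκ hc hdc X hX σ i j - (1 : Matrix (Fin 2) (Fin 2) R) i j ∈ I := by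
  have htc := t_c H hκ hc hdc
  have e1 : aa κ t c 1 = 1 := by rw [aa, mul_one, H.one, htc, add_zero, mul_comm, hκ]
  have e2 : dd κ t c 1 = 1 := by rw [dd, mul_one, H.one, htc, sub_zero, mul_comm, hκ]
  have ha : ∀ y, aa κ t c (y * σ) - aa κ t c y ∈ I := by
    intro y
    have : aa κ t c (y * σ) - aa κ t c y =
        κ * ((t (y * σ) - t y) + (t (c * y * σ) - t (c * y))) := by
      rw [aa, aa, mul_assoc c y σ]; ring
    rw [this]
    exact I.mul_mem_left _ (I.add_mem (hσ _) (hσ _))
  have hd : ∀ y, dd κ t c (y * σ) - dd κ t c y ∈ I := by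
    intro y
    have : dd κ t c (y * σ) - dd κ t c y =
        κ * ((t (y * σ) - t y) - (t (c * y * σ) - t (c * y))) := by
      rw [dd, dd, mul_assoc c y σ]; ring
    rw [this]
    exact I.mul_mem_left _ (I.sub_mem (hσ _) (hσ _))
  have ha1 : aa κ t c σ - 1 ∈ I := by
    have := ha 1
    rwa [one_mul, e1] at this
  have hd1 : dd κ t c σ - 1 ∈ I := by
    have := hd 1
    rwa [one_mul, e2] at this
  have hxr : xx κ t c r σ ∈ I := by
    have : xx κ t c r σ = (aa κ t c (r * σ) - aa κ t c r) - aa κ t c r * (aa κ t c σ - 1) := by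
      rw [xx]; ring
    rw [this]
    exact I.sub_mem (ha r) (I.mul_mem_left _ ha1)
  have haleft : ∀ y, aa κ t c (σ * y) - aa κ t c y ∈ I := by
    intro y
    have : aa κ t c (σ * y) - aa κ t c y =
        κ * ((t (y * σ) - t y) + (t (y * c * σ) - t (y * c))) := by
      rw [aa, aa, H.comm σ y, ← mul_assoc c σ y, H.comm (c * σ) y, ← mul_assoc y c σ, H.comm c y]
      ring
    rw [this]
    exact I.mul_mem_left _ (I.add_mem (hσ _) (hσ _))
  have hxl : xx κ t c σ s ∈ I := by
    have : xx κ t c σ s = (aa κ t c (σ * s) - aa κ t c s) - (aa κ t c σ - 1) * aa κ t c s := by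
      rw [xx]; ring
    rw [this]
    exact I.sub_mem (haleft s) (I.mul_mem_right _ ha1)
  rw [matRep_apply, Matrix.one_fin_two]
  fin_cases i <;> fin_cases j
  · simpa using ha1
  · have h := I.mul_mem_right ((X⁻¹ : Rˣ) : R) hxl
    simpa using h
  · simpa using hxr
  · simpa using hd1

end Pseudo

end Fermat.Agent.HeckeRep
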