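import Fermat.Agent.HeckeRep.Act
import Fermat.Agent.Cofaith.ES
import Fermat.Agent.S37

/-!
# The trace of Frobenius at a good prime `v ∈ S`

`act_trace_frobenius`: if a complete local ring `B` carrying a Galois representation `ρ` acts on
`H = H¹(Γ₀(M), 𝒪[Δ](τ²))_𝔪` such that `tr ρ(Frob_ℓ)` acts as the normalised Hecke operator at `ℓ`
for all `ℓ ∉ S`, then `tr ρ(Frob_v)` acts as the normalised Hecke operator at `v` for every prime
`v ∤ M p`, even if `v ∈ S`.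
-/

set_option autoImplicit false
set_option linter.unusedSectionVars false
set_option linter.unusedVariables false

noncomputable section

open CongruenceSubgroup
open scoped MatrixGroups

namespace Fermat.Agent.HeckeRep

open IsLocalRing Fermat.Agent.TwHecke Fermat.Agent.TwExact Fermat.Agent.GalRep CuspForm ModularCurve

/-! ### The congruence -/

section Congr

variable {N p : ℕ} [NeZero N] {S₀ : Finset ℕ}
  {J : Type*} [AddCommGroup J] [Module HeckeAlg J] [DistribMulAction GQ J]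
  [SMulCommClass GQ HeckeAlg J]

/-- `T_v` is congruent modulo `p^n` to a trace polynomial at a prime `ℓ ∉ S'` a power of whose
Frobenius is close to a given Frobenius at `v`. -/
theorem exists_congr_pow (hJ : ESInput N p (↑S₀ : Set ℕ) J) (hp : p.Prime) (hpS : p ∈ S₀)
    (hNS : ∀ q : ℕ, q.Prime → q ∣ N → q ∈ S₀) (S' : Finset ℕ) {v : ℕ} (hv : v.Prime)
    (hvS : v ∉ S₀) {B : ValuationSubring (AlgebraicClosure ℚ)} (hB : B.LiesOverPrime v) {φ : GQ}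
    (hφ : B.IsFrobeniusAt φ v) (L₁ : IntermediateField ℚ (AlgebraicClosure ℚ))
    [FiniteDimensional ℚ L₁] (n : ℕ) :
    ∃ (ℓ : ℕ) (hℓ : ℓ.Prime) (hℓS : ℓ ∉ S₀) (_ : ℓ ∉ S')
      (A : ValuationSubring (AlgebraicClosure ℚ)) (_ : A.LiesOverPrime ℓ) (ψ : GQ)
      (_ : A.IsFrobeniusAt ψ ℓ) (k : ℕ), (∀ x ∈ L₁, (ψ ^ k) x = φ x) ∧
      evS N (↑S₀ : Set ℕ) (MvPolynomial.X ⟨⟨v, hv⟩, hvS⟩ - tracePoly S₀ ℓ hℓ hℓS k) ∈
        Ideal.span {((p : heckeAlgebra N 2 (↑S₀ : Set ℕ))) ^ n} := by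
  classical
  have hnd : ∀ {ℓ : ℕ}, ℓ.Prime → ℓ ∉ S₀ → ¬ ℓ ∣ N * p := by
    intro ℓ hℓ hℓS hdvd
    rcases (Nat.Prime.dvd_mul hℓ).mp hdvd with h | h
    · exact hℓS (hNS ℓ hℓ h)
    · exact hℓS (((Nat.prime_dvd_prime_iff_eq hℓ hp).mp h) ▸ hpS)
  have hne : ∀ {ℓ : ℕ}, ℓ ∉ S₀ → ℓ ≠ p := fun h h' => h (h' ▸ hpS)
  obtain ⟨m, hm⟩ := hJ.faithful n
  have hpm0 : p ^ m ≠ 0 := pow_ne_zero _ hp.ne_zero
  have : NeZero (p ^ m) := ⟨hpm0⟩
  obtain ⟨ζ, hζ⟩ := HasEnoughRootsOfUnity.exists_primitiveRoot (AlgebraicClosure ℚ) (p ^ m)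
  obtain ⟨L₂, hL₂fin, hL₂⟩ := hJ.finiteLevel m
  set L₃ : IntermediateField ℚ (AlgebraicClosure ℚ) := IntermediateField.adjoin ℚ {ζ} with hL₃
  have hL₃fin : FiniteDimensional ℚ L₃ :=
    IntermediateField.adjoin.finiteDimensional ((Algebra.IsAlgebraic.isAlgebraic ζ).isIntegral)
  have hζL : ζ ∈ L₁ ⊔ (L₂ ⊔ L₃) :=
    (le_sup_right : L₂ ⊔ L₃ ≤ L₁ ⊔ (L₂ ⊔ L₃)) ((le_sup_right : L₃ ≤ L₂ ⊔ L₃)
      (IntermediateField.mem_adjoin_simple_self ℚ ζ))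
  obtain ⟨ℓ', hℓ', hℓ'S', A, hA, ψ, hψ, k, hk⟩ :=
    frobeniusDensity (L₁ ⊔ (L₂ ⊔ L₃)) inferInstance φ (S₀ ∪ S')
  have hℓ'S : ℓ' ∉ S₀ := fun h => hℓ'S' (Finset.mem_union_left _ h)
  have hℓ'S'' : ℓ' ∉ S' := fun h => hℓ'S' (Finset.mem_union_right _ h)
  refine ⟨ℓ', hℓ', hℓ'S, hℓ'S'', A, hA, ψ, hψ, k, fun x hx => hk x
    ((le_sup_left : L₁ ≤ L₁ ⊔ (L₂ ⊔ L₃)) hx), ?_⟩
  set E := Module.End HeckeAlg (torsSub J p m) with hE
  have hg : actTors J p m (ψ ^ k) = actTors J p m φ :=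
    actTors_eq_of_agree hL₂ fun z hz => hk z ((le_sup_right : L₂ ⊔ L₃ ≤ L₁ ⊔ (L₂ ⊔ L₃))
      ((le_sup_left : L₂ ≤ L₂ ⊔ L₃) hz))
  have e₁ := actTors_quadratic (N := N) (J := J) hJ.frobenius m hℓ' (hnd hℓ' hℓ'S) hA hψ k
  have e₂ := actTors_quadratic (N := N) (J := J) hJ.frobenius m hv (hnd hv hvS) hB hφ 1
  rw [hg] at e₁
  rw [pow_one, tk_one, pow_one] at e₂
  have hz : ζ ^ (ℓ' ^ k) = ζ ^ v := by
    rw [← frobenius_pow_zeta p hp m hζ hℓ' (hne hℓ'S) hA hψ, hk ζ hζL]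
    exact frobenius_rootOfUnity hB (((Nat.coprime_primes hv hp).mpr (hne hvS)).pow_right m)
      hpm0 hφ hζ.pow_eq_one
  have hz' := algebraMap_eq_of_congr (J := J) (p := p) m (natCast_eq_of_pow_eq p hp m hζ hz)
  rw [Nat.cast_pow] at hz'
  rw [hz'] at e₁
  have hxy : actTors J p m φ * actTors J p m φ⁻¹ = 1 := by
    rw [← map_mul, mul_inv_cancel, map_one]
  have f₁ := scalar_of_quadratic (P := HeckeAlg) (E := E) _ _ _ _ e₁ hxy
  have f₂ := scalar_of_quadratic (P := HeckeAlg) (E := E) _ _ _ _ e₂ hxy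
  rw [f₁] at f₂
  have hX : inclS (↑S₀ : Set ℕ) (MvPolynomial.X ⟨⟨v, hv⟩, hvS⟩) = heckeGen ⟨v, hv⟩ :=
    MvPolynomial.rename_X _ _
  have key := hm (MvPolynomial.X ⟨⟨v, hv⟩, hvS⟩ - tracePoly S₀ ℓ' hℓ' hℓ'S k) (fun z hz => by
    rw [map_sub, inclS_tracePoly, sub_smul, sub_eq_zero]
    rw [hX]
    have h1 := congrArg (fun f : Module.End HeckeAlg (torsSub J p m) =>
      ((f (⟨z, hz⟩ : torsSub J p m) : torsSub J p m) : J)) f₂
    exact h1.symm)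
  exact key

end Congr

/-! ### Continuity -/

section Cont

/-- a local ring acting on a finite module acts through a nilpotent quotient. -/
theorem exists_pow_act_eq_zero {B : Type*} [CommRing B] [IsLocalRing B] {E : Type*} [Ring E]
    [Finite E] (f : B →+* E) : ∃ n : ℕ, ∀ b ∈ maximalIdeal B ^ n, f b = 0 := by
  have h1 : Finite (B ⧸ RingHom.ker f) :=
    Finite.of_injective _ (RingHom.kerLift_injective f)
  have h2 : IsArtinianRing (B ⧸ RingHom.ker f) := inferInstance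
  obtain ⟨n, hn⟩ := IsArtinianRing.isNilpotent_jacobson_bot (R := B ⧸ RingHom.ker f)
  refine ⟨n, fun b hb => ?_⟩
  have h3 : (maximalIdeal B).map (Ideal.Quotient.mk (RingHom.ker f)) ≤
      Ideal.jacobson (⊥ : Ideal (B ⧸ RingHom.ker f)) := by
    rw [Ideal.map_le_iff_le_comap]
    intro x hx
    rw [Ideal.mem_comap, Ideal.mem_jacobson_bot]
    intro y
    obtain ⟨y, rfl⟩ := Ideal.Quotient.mk_surjective y
    rw [← map_mul, ← map_one (Ideal.Quotient.mk (RingHom.ker f)), ← map_add]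
    refine IsUnit.map _ ?_
    by_contra hu
    have h4 : x * y ∈ maximalIdeal B := Ideal.mul_mem_right _ _ hx
    have h5 : x * y + 1 ∈ maximalIdeal B := (mem_maximalIdeal _).mpr hu
    have h6 := Ideal.sub_mem _ h5 h4
    rw [add_sub_cancel_left] at h6
    exact (Ideal.ne_top_iff_one _).mp (maximalIdeal.isMaximal B).ne_top h6
  have h4 : Ideal.Quotient.mk (RingHom.ker f) b ∈ (0 : Ideal (B ⧸ RingHom.ker f)) := by
    rw [← hn]
    refine Ideal.pow_right_mono h3 n ?_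
    rw [← Ideal.map_pow]
    exact Ideal.mem_map_of_mem _ hb
  rw [Ideal.zero_eq_bot, Ideal.mem_bot, Ideal.Quotient.eq_zero_iff_mem] at h4
  exact h4

/-- continuity of the action of a local ring on a module with finite quotient. -/
theorem exists_pow_act_mem {B : Type*} [CommRing B] [IsLocalRing B] {R H : Type*} [CommRing R]
    [AddCommGroup H] [Module R H] (act : B →+* Module.End R H) (I : Ideal R)
    (hfin : Finite (H ⧸ (I • ⊤ : Submodule R H))) :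
    ∃ n : ℕ, ∀ b ∈ maximalIdeal B ^ n, ∀ x, act b x ∈ (I • ⊤ : Submodule R H) := by
  classical
  set W : Submodule R H := I • ⊤ with hW
  have hstab : ∀ g : Module.End R H, W ≤ W.comap g := by
    intro g
    rw [hW, Submodule.smul_le]
    intro r hr x _
    rw [Submodule.mem_comap, map_smul]
    exact Submodule.smul_mem_smul hr trivial
  -- the induced action on the quotient
  let f : B →+* Module.End R (H ⧸ W) :=
    { toFun := fun b => W.mapQ W (act b) (hstab _)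
      map_one' := by
        ext x; simp
      map_mul' := fun a b => by
        ext x; simp
      map_zero' := by
        ext x; simp
      map_add' := fun a b => by
        ext x; simp }
  have hE : Finite (Module.End R (H ⧸ W)) := by
    refine Finite.of_injective (fun g : Module.End R (H ⧸ W) => (g : H ⧸ W → H ⧸ W)) ?_
    intro a b hab
    exact LinearMap.ext fun x => congrFun hab x
  obtain ⟨n, hn⟩ := exists_pow_act_eq_zero f
  refine ⟨n, fun b hb x => ?_⟩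
  have h1 := LinearMap.congr_fun (hn b hb) (W.mkQ x)
  have h2 : f b (W.mkQ x) = W.mkQ (act b x) := rfl
  rw [h2, LinearMap.zero_apply] at h1
  exact (Submodule.Quotient.mk_eq_zero W).mp h1

end Cont

/-! ### Relations on the `𝔪`-part at more primes -/

section Rel

variable {M : ℕ} [NeZero M] {R : Type} [CommRing R] [IsLocalRing R]
  [IsNoetherianRing R] [IsAdicComplete (maximalIdeal R) R]
variable {𝒪 : Type} [CommRing 𝒪] [IsDomain 𝒪] [Algebra 𝒪 R] [Module.IsTorsionFree 𝒪 R]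

lemma nop_cev_comm (η : (ZMod M)ˣ →* Rˣ) {S' : Set ℕ} (t : MvPolynomial (PIdx S') ℤ)
    (ℓ : Nat.Primes) (z : HM M (η ^ 2) R) :
    heckeP M (η ^ 2) R ℓ (cev (R := ℤ) (nop η S') (nop_commute η) t z) =
      cev (R := ℤ) (nop η S') (nop_commute η) t (heckeP M (η ^ 2) R ℓ z) := by
  refine cevZ_natural (nop_commute η) (nop_commute η)
    (heckeP M (η ^ 2) R ℓ).toAddMonoidHom (fun i w => ?_) t z
  show heckeP M (η ^ 2) R ℓ (nop η S' i w) = nop η S' i (heckeP M (η ^ 2) R ℓ w)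
  rw [nop, LinearMap.smul_apply, LinearMap.smul_apply, map_smul]
  congr 1
  exact LinearMap.congr_fun (heckeP_commute M (η ^ 2) R ℓ i.1).eq w

/-- polynomials in the Hecke operators at more primes preserve the `𝔪`-part. -/
lemma nop_cev_mem (η : (ZMod M)ˣ →* Rˣ) {S S' : Set ℕ} {θ : PIdx S → ResidueField R}
    (t : MvPolynomial (PIdx S') ℤ) {x : HM M (η ^ 2) R} (hx : x ∈ Hm M (η ^ 2) R S θ) :
    cev (R := ℤ) (nop η S') (nop_commute η) t x ∈ Hm M (η ^ 2) R S θ :=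
  mpart_stable (hop_commute M (η ^ 2) R S) (cev (R := ℤ) (nop η S') (nop_commute η) t)
    (fun i y => (nop_cev_comm η t i.1 y).symm) hx

omit [NeZero M] [IsLocalRing R] [IsNoetherianRing R] [IsAdicComplete (maximalIdeal R) R] in
lemma eq_zero_of_regular {F : Type*} [AddCommGroup F] [Module R F] [Module.Free R F] {a : R}
    (ha : ∀ r : R, a * r = 0 → r = 0) {w : F} (hw : a • w = 0) : w = 0 := by
  apply (Module.Free.chooseBasis R F).ext_elem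
  intro i
  rw [map_zero, Finsupp.zero_apply]
  apply ha
  have h4 := congrArg (fun z => (Module.Free.chooseBasis R F).repr z i) hw
  simp only [map_smul, Finsupp.smul_apply, smul_eq_mul, map_zero, Finsupp.zero_apply] at h4
  exact h4

set_option maxHeartbeats 1000000 in
/-- torsion elements killed by an Eisenstein factor. -/
theorem eq_zero_of_eis {S : Set ℕ} {η : (ZMod M)ˣ →* Rˣ}
    {θ : PIdx S → ResidueField R} (hη : ∀ u, residue R (η u : R) = 1)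
    (hG : Good M (η ^ 2) S θ) {ℓ₀ : PIdx S}
    (hθ : θ ℓ₀ ≠ (((ℓ₀.1 : ℕ) : ℕ) : ResidueField R) + 1) (y : Hm M (η ^ 2) R S θ) {n : 𝒪}
    (hn : n ≠ 0) (h : (algebraMap 𝒪 R n) •
      (nop η S ℓ₀ (y : HM M (η ^ 2) R) - (((ℓ₀.1 : ℕ) : ℤ) + 1) • (y : HM M (η ^ 2) R)) = 0) :
    y = 0 := by
  have hloc := isLocalAt_hT (M := M) (S := S) (ε := η ^ 2) (θ := θ) hη
    (MvPolynomial.map (Int.castRingHom R)
      (MvPolynomial.X ℓ₀ - MvPolynomial.C (((ℓ₀.1 : ℕ) : ℤ) + 1))) (by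
      rw [map_sub, MvPolynomial.map_X, MvPolynomial.map_C, map_sub, evk_X, evk_C]
      intro h0
      apply hθ
      rw [sub_eq_zero] at h0
      rw [h0]
      simp)
  have h1 : (algebraMap 𝒪 R n) • (hT η (η ^ 2) S θ ℓ₀ y - (((ℓ₀.1 : ℕ) : ℤ) + 1) • y) = 0 :=
    Subtype.ext h
  have hfree := hG.free
  have hreg : ∀ r : R, (algebraMap 𝒪 R n) * r = 0 → r = 0 := by
    intro r hr
    rw [← Algebra.smul_def, smul_eq_zero] at hr
    exact hr.resolve_left hn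
  have h2 : hT η (η ^ 2) S θ ℓ₀ y - (((ℓ₀.1 : ℕ) : ℤ) + 1) • y = 0 := eq_zero_of_regular hreg h1
  have h3 : cev (R := ℤ) (hT η (η ^ 2) S θ) (hT_commute η (η ^ 2) θ)
      (MvPolynomial.X ℓ₀ - MvPolynomial.C (((ℓ₀.1 : ℕ) : ℤ) + 1)) y = 0 := by
    rw [map_sub, cev_X, cev_C, LinearMap.sub_apply, algebraMap_int_eq, eq_intCast,
      Module.End.intCast_apply]
    exact h2
  rw [cevZ_eq] at h3
  exact hloc.1 (h3.trans (map_zero _).symm)

/-- relations between Hecke operators at more primes hold on the `𝔪`-part. -/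
theorem relation_of_torsion_incl {S' S : Set ℕ} (hS : S' ⊆ S) {η : (ZMod M)ˣ →* Rˣ}
    {θ : PIdx S → ResidueField R} (hη : ∀ u, residue R (η u : R) = 1)
    (hG : Good M (η ^ 2) S θ) (t : MvPolynomial (PIdx S') ℤ)
    {ℓ₀ : PIdx S} (hθ : θ ℓ₀ ≠ (((ℓ₀.1 : ℕ) : ℕ) : ResidueField R) + 1)
    (h : ∀ x : HM M (η ^ 2) R, ∃ n : 𝒪, n ≠ 0 ∧ (algebraMap 𝒪 R n) •
      cev (R := ℤ) (nop η S') (nop_commute η)
        (t * (MvPolynomial.X (inclIdx hS ℓ₀) - MvPolynomial.C (((ℓ₀.1 : ℕ) : ℤ) + 1))) x = 0)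
    {x : HM M (η ^ 2) R} (hx : x ∈ Hm M (η ^ 2) R S θ) :
    cev (R := ℤ) (nop η S') (nop_commute η) t x = 0 := by
  obtain ⟨n, hn, hx0⟩ := h x
  rw [mul_comm, map_mul, Module.End.mul_apply, map_sub, cev_X, cev_C, LinearMap.sub_apply,
    algebraMap_int_eq, eq_intCast, Module.End.intCast_apply] at hx0
  exact congrArg Subtype.val (eq_zero_of_eis hη hG hθ ⟨_, nop_cev_mem η t hx⟩ hn hx0)

end Rel

/-! ### The main argument -/

section Main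

variable {M : ℕ} [NeZero M] {R : Type} [CommRing R] [IsLocalRing R]
  [IsNoetherianRing R] [IsAdicComplete (maximalIdeal R) R] [Finite (ResidueField R)]
variable {B : Type} [CommRing B] [IsLocalRing B]

/-- the determinant of a Frobenius element. -/
lemma det_frobenius [IsAdicComplete (maximalIdeal B) B] {p : ℕ} (hp : p.Prime)
    (ρ : GaloisRepAdic B) (hdet : ρ.DetIsCyclotomic p) {ℓ : ℕ} (hℓ : ℓ.Prime) (hℓp : ℓ ≠ p)
    {A : ValuationSubring (AlgebraicClosure ℚ)} (hA : A.LiesOverPrime ℓ) {ψ : GQ}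
    (hψ : A.IsFrobeniusAt ψ ℓ) : LinearMap.det (ρ.ρ ψ) = (ℓ : B) := by
  refine eq_of_forall_sub_mem fun n => ?_
  have h1 := hdet.2 n ψ ℓ (fun μ hμ => frobenius_rootOfUnity hA
    (((Nat.coprime_primes hℓ hp).mpr hℓp).pow_right n) (pow_ne_zero _ hp.ne_zero) hψ hμ)
  obtain ⟨c, hc⟩ := Ideal.mem_span_singleton'.mp h1
  rw [← hc, Nat.cast_pow]
  exact Ideal.mul_mem_left _ _ (Ideal.pow_mem_pow hdet.1 n)

lemma trace_frobenius_pow' [IsAdicComplete (maximalIdeal B) B] {p : ℕ} (hp : p.Prime)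
    (ρ : GaloisRepAdic B) (hdet : ρ.DetIsCyclotomic p) {ℓ : ℕ} (hℓ : ℓ.Prime) (hℓp : ℓ ≠ p)
    {A : ValuationSubring (AlgebraicClosure ℚ)} (hA : A.LiesOverPrime ℓ) {ψ : GQ}
    (hψ : A.IsFrobeniusAt ψ ℓ) (k : ℕ) :
    LinearMap.trace B ρ.V (ρ.ρ (ψ ^ k)) = tk (LinearMap.trace B ρ.V (ρ.ρ ψ)) (ℓ : B) k := by
  rw [map_pow]
  refine trace_pow_of_charpoly ρ.finrank_eq (ρ.ρ ψ) _ _ ?_ k
  rw [S30aux.charpoly_eq_trace_det ρ.finrank_eq, det_frobenius hp ρ hdet hℓ hℓp hA hψ]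

set_option maxHeartbeats 4000000 in
/-- the abstract form of the theorem. -/
theorem act_trace_frobenius_of_relations {N : ℕ} [NeZero N] {p : ℕ} [Fact p.Prime]
    (hpR : (p : R) ∈ maximalIdeal R) {S : Finset ℕ} (hpS : p ∈ S) {v : ℕ} (hv : v.Prime)
    (hvp : v ≠ p) (hNS : ∀ q : ℕ, q.Prime → q ∣ N → q ∈ S.erase v) (η : (ZMod M)ˣ →* Rˣ)
    (θ : PIdx (↑S : Set ℕ) → ResidueField R)
    (hrel : ∀ t : MvPolynomial (PIdx (↑(S.erase v) : Set ℕ)) ℤ,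
      evS N (↑(S.erase v) : Set ℕ) t = 0 → ∀ x ∈ Hm M (η ^ 2) R (↑S : Set ℕ) θ,
        cev (R := ℤ) (nop η (↑(S.erase v) : Set ℕ)) (nop_commute η) t x = 0)
    [IsAdicComplete (maximalIdeal B) B] (ρ : GaloisRepAdic B) (hdet : ρ.DetIsCyclotomic p)
    (act : B →+* Module.End R (Hm M (η ^ 2) R (↑S : Set ℕ) θ))
    (hact : ∀ (ℓ : PIdx (↑S : Set ℕ)) (A : ValuationSubring (AlgebraicClosure ℚ)),
      A.LiesOverPrime (ℓ.1 : ℕ) → ∀ σ : GQ, A.IsFrobeniusAt σ (ℓ.1 : ℕ) →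
        act (LinearMap.trace B ρ.V (ρ.ρ σ)) = hT η (η ^ 2) (↑S : Set ℕ) θ ℓ)
    {A : ValuationSubring (AlgebraicClosure ℚ)} (hA : A.LiesOverPrime v) {Φ : GQ}
    (hΦ : A.IsFrobeniusAt Φ v) (x : Hm M (η ^ 2) R (↑S : Set ℕ) θ) :
    ((act (LinearMap.trace B ρ.V (ρ.ρ Φ)) x : Hm M (η ^ 2) R (↑S : Set ℕ) θ) :
      HM M (η ^ 2) R) = ((η (unitOf M (v : ℤ)) : Rˣ) : R) • heckeP M (η ^ 2) R ⟨v, hv⟩
        (x : HM M (η ^ 2) R) := by
  have hp : p.Prime := Fact.out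
  have hHfin : Module.Finite R (Hm M (η ^ 2) R (↑S : Set ℕ) θ) := finite_Hm _ _ _
  have hMfin : Module.Finite R (HM M (η ^ 2) R) := by
    have := fg_Gamma0 M
    exact finite_H1 _ _
  have hpS' : p ∈ S.erase v := Finset.mem_erase.mpr ⟨hvp.symm, hpS⟩
  have hvS' : v ∉ S.erase v := Finset.notMem_erase v S
  let _ := ModularCurve.heckeModuleBar N
  have := Fermat.Agent.Cofaith.smulCommClass_JZero N
  have hspec := Fermat.Agent.S37.result N p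
    (Fermat.Agent.HeckeComm.heckeOperatorsCommuteBar N) inferInstance
  have hJ := Fermat.Agent.Cofaith.esInput_JZero N hp (↑(S.erase v) : Set ℕ)
    (fun q hq hqN => Finset.mem_coe.mpr (hNS q hq hqN)) hspec
  -- separatedness
  rw [← sub_eq_zero]
  refine IsHausdorff.haus' (I := maximalIdeal R) _ fun n => ?_
  rw [SModEq.zero]
  -- finiteness of the quotients
  have hres : Finite (R ⧸ maximalIdeal R) := inferInstanceAs (Finite (ResidueField R))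
  have hres2 : Finite (R ⧸ maximalIdeal R ^ n) :=
    Ideal.finite_quotient_pow (IsNoetherian.noetherian _) n
  have hres3 : Finite (Hm M (η ^ 2) R (↑S : Set ℕ) θ ⧸
      ((maximalIdeal R ^ n) • ⊤ : Submodule R (Hm M (η ^ 2) R (↑S : Set ℕ) θ))) := by
    have h0 : Finite (Hm M (η ^ 2) R (↑S : Set ℕ) θ ⧸
      (⊤ : Submodule R (Hm M (η ^ 2) R (↑S : Set ℕ) θ))) := inferInstance
    exact Submodule.finite_quotient_smul _ hHfin.fg_top
  obtain ⟨m, hm⟩ := exists_pow_act_mem act (maximalIdeal R ^ n) hres3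
  obtain ⟨L₁, hL₁fin, hL₁⟩ := ρ.isAdicContinuous m
  obtain ⟨ℓ, hℓ, hℓS', hℓS, A', hA', ψ, hψ, k, hk, hcong⟩ :=
    exists_congr_pow hJ hp hpS' hNS S hv hvS' hA hΦ L₁ n
  have hℓp : ℓ ≠ p := fun h => hℓS (h ▸ hpS)
  obtain ⟨c, hc⟩ := Ideal.mem_span_singleton'.mp hcong
  obtain ⟨t', rfl⟩ := S35aux.evS_surjective N (↑(S.erase v) : Set ℕ) c
  -- the relation
  have hr := hrel (MvPolynomial.X ⟨⟨v, hv⟩, hvS'⟩ - tracePoly (S.erase v) ℓ hℓ hℓS' k -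
    t' * MvPolynomial.C ((p : ℤ) ^ n)) (by
      rw [map_sub, ← hc, map_mul, sub_eq_zero]
      congr 1
      rw [← MvPolynomial.algebraMap_eq, AlgHom.commutes, algebraMap_int_eq, eq_intCast]
      push_cast; rfl) (x : HM M (η ^ 2) R) x.2
  rw [map_sub, map_sub, cev_X, map_mul, cev_C, LinearMap.sub_apply, LinearMap.sub_apply,
    Module.End.mul_apply, algebraMap_int_eq, eq_intCast, Module.End.intCast_apply] at hr
  -- the action of `tr ρ(ψ^k)`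
  have hψact : ∀ (j : ℕ) (y : Hm M (η ^ 2) R (↑S : Set ℕ) θ),
      ((act (tk (LinearMap.trace B ρ.V (ρ.ρ ψ)) (ℓ : B) j) y :
        Hm M (η ^ 2) R (↑S : Set ℕ) θ) : HM M (η ^ 2) R) =
      cev (R := ℤ) (nop η (↑(S.erase v) : Set ℕ)) (nop_commute η)
        (tracePoly (S.erase v) ℓ hℓ hℓS' j) (y : HM M (η ^ 2) R) := by
    have hgen : ∀ y : Hm M (η ^ 2) R (↑S : Set ℕ) θ,
        ((act (LinearMap.trace B ρ.V (ρ.ρ ψ)) y : Hm M (η ^ 2) R (↑S : Set ℕ) θ) :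
          HM M (η ^ 2) R) = nop η (↑(S.erase v) : Set ℕ) ⟨⟨ℓ, hℓ⟩, hℓS'⟩ (y : HM M (η ^ 2) R) := by
      intro y
      rw [hact ⟨⟨ℓ, hℓ⟩, hℓS⟩ A' hA' ψ hψ, coe_hT]; rfl
    intro j
    induction j using Nat.strong_induction_on with
    | _ j ih =>
      match j with
      | 0 =>
        intro y
        rw [tk_zero, map_ofNat, tracePoly, tk_zero, map_ofNat]
        rfl
      | 1 =>
        intro y
        rw [tk_one, hgen, tracePoly, tk_one, cev_X]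
      | (j + 2) =>
        intro y
        have e1 : tracePoly (S.erase v) ℓ hℓ hℓS' (j + 2) =
            MvPolynomial.X ⟨⟨ℓ, hℓ⟩, hℓS'⟩ * tracePoly (S.erase v) ℓ hℓ hℓS' (j + 1) -
              (ℓ : HeckeAlgS (↑(S.erase v) : Set ℕ)) * tracePoly (S.erase v) ℓ hℓ hℓS' j :=
          tk_add_two _ _ _
        rw [e1, tk_add_two, map_sub, map_mul, map_mul, map_sub, map_mul, map_mul, map_natCast,
          map_natCast, cev_X, LinearMap.sub_apply, LinearMap.sub_apply, Module.End.mul_apply,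
          Module.End.mul_apply, Module.End.mul_apply, Module.End.mul_apply,
          Module.End.natCast_apply, Module.End.natCast_apply, Submodule.coe_sub, hgen,
          ih (j + 1) (by omega), ← ih j (by omega) y]
        rfl
  -- conclusion
  have h1 := trace_sub_mem ρ hL₁ hk
  rw [trace_frobenius_pow' hp ρ hdet hℓ hℓp hA' hψ] at h1
  have h2 := hm _ h1 x
  rw [map_sub, LinearMap.sub_apply] at h2
  have h3 : ∀ y : Hm M (η ^ 2) R (↑S : Set ℕ) θ, y ∈ ((maximalIdeal R ^ n) • ⊤ :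
      Submodule R (Hm M (η ^ 2) R (↑S : Set ℕ) θ)) → (y : HM M (η ^ 2) R) ∈
        ((maximalIdeal R ^ n) • ⊤ : Submodule R (HM M (η ^ 2) R)) := by
    intro y hy
    have h4 : (Hm M (η ^ 2) R (↑S : Set ℕ) θ).subtype y ∈ Submodule.map
      (Hm M (η ^ 2) R (↑S : Set ℕ) θ).subtype ((maximalIdeal R ^ n) • ⊤) :=
        Submodule.mem_map_of_mem hy
    rw [Submodule.map_smul''] at h4
    exact Submodule.smul_mono le_rfl le_top h4
  have h4 := h3 _ h2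
  rw [Submodule.coe_sub, hψact] at h4
  have h5 : ((p : ℤ) ^ n • cev (R := ℤ) (nop η (↑(S.erase v) : Set ℕ)) (nop_commute η) t'
      (x : HM M (η ^ 2) R)) ∈ ((maximalIdeal R ^ n) • ⊤ : Submodule R (HM M (η ^ 2) R)) := by
    have h6 : (p : ℤ) ^ n • cev (R := ℤ) (nop η (↑(S.erase v) : Set ℕ)) (nop_commute η) t'
      (x : HM M (η ^ 2) R) = ((p : R) ^ n) • cev (R := ℤ) (nop η (↑(S.erase v) : Set ℕ))
        (nop_commute η) t' (x : HM M (η ^ 2) R) := by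
      rw [← Int.cast_smul_eq_zsmul R]; push_cast; rfl
    rw [h6]
    exact Submodule.smul_mem_smul (Ideal.pow_mem_pow hpR n) trivial
  have h7 : nop η (↑(S.erase v) : Set ℕ) ⟨⟨v, hv⟩, hvS'⟩ (x : HM M (η ^ 2) R) =
      ((η (unitOf M (v : ℤ)) : Rˣ) : R) • heckeP M (η ^ 2) R ⟨v, hv⟩ (x : HM M (η ^ 2) R) := rfl
  rw [← h7]
  rw [map_zsmul, sub_eq_zero] at hr
  rw [← hr] at h5
  have h8 := Submodule.neg_mem _ (Submodule.add_mem _ h5 h4)
  rw [sub_add_sub_cancel, neg_sub] at h8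
  exact h8

end Main

/-! ### The two cases -/

section Cases

variable {𝒪 : Type} [CommRing 𝒪] [IsDomain 𝒪] [IsDiscreteValuationRing 𝒪]
  [IsAdicComplete (maximalIdeal 𝒪) 𝒪] [Finite (ResidueField 𝒪)] [CharZero 𝒪]
variable {B : Type} [CommRing B] [IsLocalRing B] [IsAdicComplete (maximalIdeal B) B]

/-- **The trace of Frobenius at a good prime `v`**, trivial coefficients. -/
theorem act_trace_frobenius_triv {p : ℕ} [Fact p.Prime] (hp𝒪 : (p : 𝒪) ∈ maximalIdeal 𝒪)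
    {M : ℕ} [NeZero M] {S : Finset ℕ} (hpS : p ∈ S) (hMS : ∀ ℓ : ℕ, ℓ.Prime → ℓ ∣ M → ℓ ∈ S)
    {ε : (ZMod M)ˣ →* 𝒪ˣ} (hε : ε = 1)
    {θ₀ : PIdx (↑S : Set ℕ) → ResidueField 𝒪} (hne : S41hm.StrongNonEis (↑S : Set ℕ) θ₀)
    (hG : Good M ε (↑S : Set ℕ) θ₀)
    (ρ : GaloisRepAdic B) (hdet : ρ.DetIsCyclotomic p)
    (act : B →+* Module.End 𝒪 (Hm M ε 𝒪 (↑S : Set ℕ) θ₀))
    (hact : ∀ (ℓ : PIdx (↑S : Set ℕ)) (A : ValuationSubring (AlgebraicClosure ℚ)),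
      A.LiesOverPrime (ℓ.1 : ℕ) → ∀ σ : GQ, A.IsFrobeniusAt σ (ℓ.1 : ℕ) →
        act (LinearMap.trace B ρ.V (ρ.ρ σ)) = hT 1 ε (↑S : Set ℕ) θ₀ ℓ)
    {v : ℕ} (hv : v.Prime) (hvp : v ≠ p) (hvM : ¬ v ∣ M)
    {A : ValuationSubring (AlgebraicClosure ℚ)} (hA : A.LiesOverPrime v) {Φ : GQ}
    (hΦ : A.IsFrobeniusAt Φ v) (x : Hm M ε 𝒪 (↑S : Set ℕ) θ₀) :
    ((act (LinearMap.trace B ρ.V (ρ.ρ Φ)) x : Hm M ε 𝒪 (↑S : Set ℕ) θ₀) : HM M ε 𝒪) =
      heckeP M ε 𝒪 ⟨v, hv⟩ (x : HM M ε 𝒪) := by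
  obtain rfl : ε = (1 : (ZMod M)ˣ →* 𝒪ˣ) ^ 2 := hε.trans (MonoidHom.ext fun u => by
    rw [MonoidHom.pow_apply, MonoidHom.one_apply, one_pow])
  obtain ⟨ι, hι⟩ := RT.exists_embedding 𝒪
  obtain ⟨ℓ₀, h1, h2, h3⟩ := exists_aux hne (M := M)
  have hη : ∀ u : (ZMod M)ˣ, residue 𝒪 (((1 : (ZMod M)ˣ →* 𝒪ˣ) u : 𝒪ˣ) : 𝒪) = 1 := fun u => by
    rw [MonoidHom.one_apply, Units.val_one, map_one]
  have hincl : (↑(S.erase v) : Set ℕ) ⊆ (↑S : Set ℕ) :=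
    Finset.coe_subset.mpr (Finset.erase_subset v S)
  have hNS : ∀ q : ℕ, q.Prime → q ∣ M → q ∈ S.erase v := fun q hq hqM =>
    Finset.mem_erase.mpr ⟨fun h => hvM (h ▸ hqM), hMS q hq hqM⟩
  have key := act_trace_frobenius_of_relations (N := M) hp𝒪 hpS hv hvp hNS
    (1 : (ZMod M)ˣ →* 𝒪ˣ) θ₀ (fun t ht x hx => by
      refine relation_of_torsion_incl (𝒪 := 𝒪) hincl hη hG t h3 (fun x => ?_) hx
      exact relation_triv ι hι (fun ℓ hℓ hd => Finset.mem_coe.mpr (hNS ℓ hℓ hd)) t ht h1 h2 x)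
    ρ hdet act hact hA hΦ x
  rw [key, MonoidHom.one_apply, Units.val_one, one_smul]

variable {Δ : Type} [CommGroup Δ] [Finite Δ] [IsLocalRing (MonoidAlgebra 𝒪 Δ)]
  [IsLocalHom (algebraMap 𝒪 (MonoidAlgebra 𝒪 Δ))]

/-- **The trace of Frobenius at a good prime `v`**, coefficients `𝒪[Δ](τ²)`. -/
theorem act_trace_frobenius {p : ℕ} [Fact p.Prime] (hp𝒪 : (p : 𝒪) ∈ maximalIdeal 𝒪)
    {M Q₀ : ℕ} [NeZero M] [NeZero Q₀] (hQM : Q₀ ∣ M) {S : Finset ℕ} (hpS : p ∈ S)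
    (hMS : ∀ ℓ : ℕ, ℓ.Prime → ℓ ∣ M → ℓ ∈ S) (τ₀ : (ZMod Q₀)ˣ →* Δ)
    {θ₀ : PIdx (↑S : Set ℕ) → ResidueField 𝒪} (hne : S41hm.StrongNonEis (↑S : Set ℕ) θ₀)
    (hη : ∀ u, residue (MonoidAlgebra 𝒪 Δ)
      (taut 𝒪 (τ₀.comp (ZMod.unitsMap hQM)) u : MonoidAlgebra 𝒪 Δ) = 1)
    (hG : Good M ((taut 𝒪 (τ₀.comp (ZMod.unitsMap hQM))) ^ 2) (↑S : Set ℕ)
      (thMap (MonoidAlgebra 𝒪 Δ) θ₀))
    (ρ : GaloisRepAdic B) (hdet : ρ.DetIsCyclotomic p)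
    (act : B →+* Module.End (MonoidAlgebra 𝒪 Δ)
      (Hm M ((taut 𝒪 (τ₀.comp (ZMod.unitsMap hQM))) ^ 2) (MonoidAlgebra 𝒪 Δ) (↑S : Set ℕ)
        (thMap (MonoidAlgebra 𝒪 Δ) θ₀)))
    (hact : ∀ (ℓ : PIdx (↑S : Set ℕ)) (A : ValuationSubring (AlgebraicClosure ℚ)),
      A.LiesOverPrime (ℓ.1 : ℕ) → ∀ σ : GQ, A.IsFrobeniusAt σ (ℓ.1 : ℕ) →
        act (LinearMap.trace B ρ.V (ρ.ρ σ)) =
          hT (taut 𝒪 (τ₀.comp (ZMod.unitsMap hQM))) ((taut 𝒪 (τ₀.comp (ZMod.unitsMap hQM))) ^ 2)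
            (↑S : Set ℕ) (thMap (MonoidAlgebra 𝒪 Δ) θ₀) ℓ)
    {v : ℕ} (hv : v.Prime) (hvp : v ≠ p) (hvM : ¬ v ∣ M)
    {A : ValuationSubring (AlgebraicClosure ℚ)} (hA : A.LiesOverPrime v) {Φ : GQ}
    (hΦ : A.IsFrobeniusAt Φ v)
    (x : Hm M ((taut 𝒪 (τ₀.comp (ZMod.unitsMap hQM))) ^ 2) (MonoidAlgebra 𝒪 Δ) (↑S : Set ℕ)
        (thMap (MonoidAlgebra 𝒪 Δ) θ₀)) :
    ((act (LinearMap.trace B ρ.V (ρ.ρ Φ)) x :
        Hm M ((taut 𝒪 (τ₀.comp (ZMod.unitsMap hQM))) ^ 2) (MonoidAlgebra 𝒪 Δ) (↑S : Set ℕ)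
          (thMap (MonoidAlgebra 𝒪 Δ) θ₀)) :
      HM M ((taut 𝒪 (τ₀.comp (ZMod.unitsMap hQM))) ^ 2) (MonoidAlgebra 𝒪 Δ)) =
      ((taut 𝒪 (τ₀.comp (ZMod.unitsMap hQM)) (unitOf M (v : ℤ)) : (MonoidAlgebra 𝒪 Δ)ˣ) :
        MonoidAlgebra 𝒪 Δ) •
      heckeP M ((taut 𝒪 (τ₀.comp (ZMod.unitsMap hQM))) ^ 2) (MonoidAlgebra 𝒪 Δ) ⟨v, hv⟩
        (x : HM M ((taut 𝒪 (τ₀.comp (ZMod.unitsMap hQM))) ^ 2) (MonoidAlgebra 𝒪 Δ)) := by
  have := Fintype.ofFinite Δ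
  have hnoeth := isNoetherianRing_groupRing (𝒪 := 𝒪) (Δ := Δ)
  have hcomp := isAdicComplete_groupRing (𝒪 := 𝒪) (Δ := Δ)
  have hresfin : Finite (ResidueField (MonoidAlgebra 𝒪 Δ)) :=
    IsLocalRing.ResidueField.finite_of_finite (R := 𝒪) inferInstance
  have hpR : (p : MonoidAlgebra 𝒪 Δ) ∈ maximalIdeal (MonoidAlgebra 𝒪 Δ) := by
    rw [← map_natCast (algebraMap 𝒪 (MonoidAlgebra 𝒪 Δ))]
    exact map_nonunit (algebraMap 𝒪 (MonoidAlgebra 𝒪 Δ)) _ hp𝒪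
  obtain ⟨ι, hι⟩ := RT.exists_embedding 𝒪
  obtain ⟨ℓ₀, h1, h2, h3⟩ := exists_aux hne (M := M)
  have hincl : (↑(S.erase v) : Set ℕ) ⊆ (↑S : Set ℕ) :=
    Finset.coe_subset.mpr (Finset.erase_subset v S)
  have hMS' : ∀ q : ℕ, q.Prime → q ∣ M → q ∈ S.erase v := fun q hq hqM =>
    Finset.mem_erase.mpr ⟨fun h => hvM (h ▸ hqM), hMS q hq hqM⟩
  have hNS : ∀ q : ℕ, q.Prime → q ∣ M * Q₀ → q ∈ S.erase v := fun q hq hqM =>
    hMS' q hq (((Nat.Prime.dvd_mul hq).mp hqM).elim id fun h => h.trans hQM)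
  have hNZ : NeZero (M * Q₀) := ⟨mul_ne_zero (NeZero.ne M) (NeZero.ne Q₀)⟩
  have h4 : thMap (MonoidAlgebra 𝒪 Δ) θ₀ ℓ₀ ≠
      (((ℓ₀.1 : ℕ) : ℕ) : ResidueField (MonoidAlgebra 𝒪 Δ)) + 1 := by
    intro h4
    apply h3
    have h5 : ResidueField.map (algebraMap 𝒪 (MonoidAlgebra 𝒪 Δ)) (θ₀ ℓ₀) =
        ResidueField.map (algebraMap 𝒪 (MonoidAlgebra 𝒪 Δ))
          ((((ℓ₀.1 : ℕ) : ℕ) : ResidueField 𝒪) + 1) := by
      rw [map_add, map_one, map_natCast]; exact h4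
    exact (ResidueField.map (algebraMap 𝒪 (MonoidAlgebra 𝒪 Δ))).injective h5
  exact act_trace_frobenius_of_relations (N := M * Q₀) hpR hpS hv hvp hNS
    (taut 𝒪 (τ₀.comp (ZMod.unitsMap hQM))) (thMap (MonoidAlgebra 𝒪 Δ) θ₀) (fun t ht x hx => by
      refine relation_of_torsion_incl (𝒪 := 𝒪) hincl hη hG t h4 (fun x => ?_) hx
      exact relation_group hQM ι hι (fun ℓ hℓ hd => Finset.mem_coe.mpr (hMS' ℓ hℓ hd)) τ₀ t rfl
        ht h1 h2 x)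
    ρ hdet act hact hA hΦ x

end Cases

end Fermat.Agent.HeckeRep

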