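import Fermat.Agent.S30_Limit
import Fermat.Agent.HeckeRep.GMA

/-!
# Pseudo-characters over complete local rings from the Eichler--Shimura input

`exists_pseudo_of_ESInput`: for a ring homomorphism from the Hecke algebra to a complete local ring
of residue characteristic `p`, the Frobenius traces interpolate to a pseudo-character.
-/

set_option autoImplicit false
set_option linter.style.haveILetI false
set_option linter.unusedVariables false
set_option linter.unusedSectionVars false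

noncomputable section

open CuspForm ModularCurve Polynomial Fermat.Agent.GalRep

namespace Fermat.Agent.HeckeRep

open Fermat.Agent.S30aux

section Main

variable {N p : ℕ} [NeZero N] [Fact p.Prime] {S : Finset ℕ}
  {J : Type*} [AddCommGroup J] [Module HeckeAlg J] [DistribMulAction GalRep.GQ J]
  [SMulCommClass GalRep.GQ HeckeAlg J]

variable {O : Type} [CommRing O] [IsLocalRing O]
  [IsAdicComplete (IsLocalRing.maximalIdeal O) O]

variable (p S J) in
/-- `τ` is the limit of `χ (r)`, `r` acting as `g + χ(g) g⁻¹` -/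
def IsLim (χ : heckeAlgebra N 2 (↑S : Set ℕ) →+* O) (M : ℕ → ℕ) (g : GalRep.GQ) (τ : O) : Prop :=
  ∀ n, ∀ r, Acts p S J (M n) g r → τ - χ (evS N (↑S : Set ℕ) r) ∈ IsLocalRing.maximalIdeal O ^ n

/-- a uniform choice of levels -/
lemma exists_levels (hJ : ESInput N p (↑S : Set ℕ) J)
    (hpO : (p : O) ∈ IsLocalRing.maximalIdeal O) (χ : heckeAlgebra N 2 (↑S : Set ℕ) →+* O) :
    ∃ M : ℕ → ℕ, Monotone M ∧ (∀ n, n ≤ M n) ∧ ∀ n, ∀ t : HeckeAlgS (↑S : Set ℕ),
      (∀ x : J, p ^ (M n) • x = 0 → inclS (↑S : Set ℕ) t • x = 0) →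
        χ (evS N (↑S : Set ℕ) t) ∈ IsLocalRing.maximalIdeal O ^ n := by
  choose M₀ hM₀ using hJ.faithful
  refine ⟨fun n => ∑ i ∈ Finset.range (n + 1), (M₀ i + 1), ?_, ?_, ?_⟩
  · refine monotone_nat_of_le_succ fun n => ?_
    rw [Finset.sum_range_succ _ (n + 1)]
    exact Nat.le_add_right _ _
  · intro n
    induction n with
    | zero => exact Nat.zero_le _
    | succ n ih =>
      simp only at ih ⊢
      rw [Finset.sum_range_succ _ (n + 1)]
      omega
  · intro n t ht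
    have h1 : M₀ n ≤ ∑ i ∈ Finset.range (n + 1), (M₀ i + 1) := by
      rw [Finset.sum_range_succ]
      omega
    have h2 := hM₀ n t (fun x hx => ht x (by
      show p ^ (∑ i ∈ Finset.range (n + 1), (M₀ i + 1)) • x = 0
      rw [← Nat.sub_add_cancel h1, pow_add, mul_smul, hx, smul_zero]))
    obtain ⟨c, hc⟩ := Ideal.mem_span_singleton'.mp h2
    rw [← hc, map_mul, map_pow, map_natCast]
    exact Ideal.mul_mem_left _ _ (Ideal.pow_mem_pow hpO n)

lemma mem_smul_top_iff {I : Ideal O} {x : O} : x ∈ (I • ⊤ : Submodule O O) ↔ x ∈ I := by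
  rw [smul_eq_mul, Ideal.mul_top]

lemma exists_isLim (hJ : ESInput N p (↑S : Set ℕ) J) (hpS : p ∈ S)
    (hNS : ∀ q : ℕ, q.Prime → q ∣ N → q ∈ S)
    (χ : heckeAlgebra N 2 (↑S : Set ℕ) →+* O) (M : ℕ → ℕ) (hmono : Monotone M)
    (hM : ∀ n, ∀ t : HeckeAlgS (↑S : Set ℕ),
      (∀ x : J, p ^ (M n) • x = 0 → inclS (↑S : Set ℕ) t • x = 0) →
        χ (evS N (↑S : Set ℕ) t) ∈ IsLocalRing.maximalIdeal O ^ n) (g : GalRep.GQ) :
    ∃ τ, IsLim p S J χ M g τ := by
  have hdiff : ∀ n r r', Acts p S J (M n) g r → Acts p S J (M n) g r' →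
      χ (evS N (↑S : Set ℕ) r) - χ (evS N (↑S : Set ℕ) r') ∈ IsLocalRing.maximalIdeal O ^ n := by
    intro n r r' hr hr'
    rw [← map_sub, ← map_sub]
    refine hM n _ fun x hx => ?_
    rw [map_sub, sub_smul, hr x hx, hr' x hx, sub_self]
  choose r hr using fun n => exists_acts hJ hpS hNS (M n) g
  obtain ⟨τ, hτ⟩ := IsPrecomplete.prec' (I := IsLocalRing.maximalIdeal O) (M := O)
    (fun n => χ (evS N (↑S : Set ℕ) (r n))) (by
      intro m n hmn
      rw [SModEq.sub_mem, mem_smul_top_iff]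
      exact hdiff m _ _ (hr m) ((hr n).mono (hmono hmn)))
  refine ⟨τ, fun n r' hr' => ?_⟩
  have h1 := hτ n
  rw [SModEq.sub_mem, mem_smul_top_iff] at h1
  have h2 := hdiff n _ _ (hr n) hr'
  have : τ - χ (evS N (↑S : Set ℕ) r') =
    (χ (evS N (↑S : Set ℕ) (r n)) - χ (evS N (↑S : Set ℕ) r')) -
      (χ (evS N (↑S : Set ℕ) (r n)) - τ) := by ring
  rw [this]
  exact Ideal.sub_mem _ h2 h1

omit [NeZero N] [Fact p.Prime] in
lemma eq_of_forall_sub_mem {a b : O} (h : ∀ n, a - b ∈ IsLocalRing.maximalIdeal O ^ n) : a = b := by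
  refine sub_eq_zero.mp (IsHausdorff.haus' (I := IsLocalRing.maximalIdeal O) _ fun n => ?_)
  rw [SModEq.zero, mem_smul_top_iff]
  exact h n

/-- **The pseudo-character over a complete local ring.** -/
theorem exists_pseudo_of_ESInput (hJ : ESInput N p (↑S : Set ℕ) J) (hpS : p ∈ S)
    (hNS : ∀ q : ℕ, q.Prime → q ∣ N → q ∈ S)
    (hpO : (p : O) ∈ IsLocalRing.maximalIdeal O)
    (χ : heckeAlgebra N 2 (↑S : Set ℕ) →+* O) :
    ∃ t : GalRep.GQ → O, IsPseudo t (cycO hpO) ∧ AdicCont t ∧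
      (AdicCont fun g => ((cycO hpO g : Oˣ) : O)) ∧
      (∀ (ℓ : ℕ) (hℓ : ℓ.Prime) (hℓN : ¬ ℓ ∣ N) (hℓS : ℓ ∉ (↑S : Set ℕ)),
        ∀ A : ValuationSubring (AlgebraicClosure ℚ), A.LiesOverPrime ℓ →
          ∀ σ : AlgebraicClosure ℚ ≃ₐ[ℚ] AlgebraicClosure ℚ, A.IsFrobeniusAt σ ℓ →
            t σ = χ (CuspForm.heckeAlgebra.T hℓ hℓN hℓS)) ∧
      (∀ q : ℕ, q.Prime → ¬ q ∣ N → q ≠ p → ∀ A : ValuationSubring (AlgebraicClosure ℚ),
        A.LiesOverPrime q → ∀ σ ∈ A.inertiaSubgroupIn ℚ, ∀ y, t (y * σ) = t y) := by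
  have hp : p.Prime := Fact.out
  obtain ⟨M, hmono, hMn, hM⟩ := exists_levels hJ hpO χ
  choose t ht using fun g => exists_isLim hJ hpS hNS χ M hmono hM g
  -- lifting to higher levels
  set d : GalRep.GQ →* Oˣ := cycO hpO with hd
  have hcn : ∀ n g, ((d g : Oˣ) : O) - (cn p (M n) g : O) ∈ IsLocalRing.maximalIdeal O ^ n :=
    fun n g => Ideal.pow_le_pow_right (hMn n) (cycO_sub_mem hpO (M n) g)
  have H : IsPseudo t d := by
    constructor
    · refine eq_of_forall_sub_mem fun n => ?_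
      have := ht 1 n 2 (Acts.one (M n))
      rwa [map_ofNat, map_ofNat] at this
    · intro g h
      refine eq_of_forall_sub_mem fun n => ?_
      obtain ⟨r₁, h₁⟩ := exists_acts hJ hpS hNS (M n) g
      obtain ⟨r₂, h₂⟩ := exists_acts hJ hpS hNS (M n) h
      obtain ⟨r₃, h₃⟩ := exists_acts hJ hpS hNS (M n) (g * h)
      obtain ⟨r₄, h₄⟩ := exists_acts hJ hpS hNS (M n) (g * h⁻¹)
      have e0 := hM n _ (fun x hx => Acts.mul h₁ h₂ h₃ h₄ x hx)
      rw [map_sub, map_sub, map_mul, map_mul, map_natCast, map_sub, map_sub, map_mul, map_mul,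
        map_natCast] at e0
      have e1 := ht g n r₁ h₁
      have e2 := ht h n r₂ h₂
      have e3 := ht (g * h) n r₃ h₃
      have e4 := ht (g * h⁻¹) n r₄ h₄
      have e5 := hcn n h
      set a₁ := χ (evS N (↑S : Set ℕ) r₁)
      set a₂ := χ (evS N (↑S : Set ℕ) r₂)
      set a₃ := χ (evS N (↑S : Set ℕ) r₃)
      set a₄ := χ (evS N (↑S : Set ℕ) r₄)
      have : t g * t h - (t (g * h) + ((d h : Oˣ) : O) * t (g * h⁻¹)) =
          (a₁ * a₂ - a₃ - (cn p (M n) h : O) * a₄) + (t g - a₁) * t h + a₁ * (t h - a₂)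
          - (t (g * h) - a₃) - (((d h : Oˣ) : O) - (cn p (M n) h : O)) * t (g * h⁻¹)
          - (cn p (M n) h : O) * (t (g * h⁻¹) - a₄) := by ring
      rw [this]
      refine Ideal.sub_mem _ (Ideal.sub_mem _ (Ideal.sub_mem _ (Ideal.add_mem _ (Ideal.add_mem _ e0
        (Ideal.mul_mem_right _ _ e1)) (Ideal.mul_mem_left _ _ e2)) e3)
        (Ideal.mul_mem_right _ _ e5)) (Ideal.mul_mem_left _ _ e4)
  -- translation by elements acting trivially
  have htrans : ∀ n (σ : GalRep.GQ) (ζ : AlgebraicClosure ℚ), IsPrimitiveRoot ζ (p ^ (M n)) →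
      (∀ x : J, p ^ (M n) • x = 0 → σ • x = x) → σ ζ = ζ → ∀ y,
        t (y * σ) - t y ∈ IsLocalRing.maximalIdeal O ^ n := by
    intro n σ ζ hζ hσ hσζ y
    obtain ⟨r, hr⟩ := exists_acts hJ hpS hNS (M n) y
    obtain ⟨L, hL, hL2⟩ := hJ.finiteLevel (M n)
    have e1 := ht y n r hr
    have e2 := ht (y * σ) n r (acts_mul_of_fix hL2 hζ hσ hσζ hr)
    have : t (y * σ) - t y = (t (y * σ) - χ (evS N (↑S : Set ℕ) r)) -
      (t y - χ (evS N (↑S : Set ℕ) r)) := by ring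
    rw [this]
    exact Ideal.sub_mem _ e2 e1
  have hct : AdicCont t := by
    intro n
    obtain ⟨L, hL, hL2⟩ := hJ.finiteLevel (M n)
    obtain ⟨ζ, hζ⟩ := exists_primitive p (M n)
    set L₃ : IntermediateField ℚ (AlgebraicClosure ℚ) := IntermediateField.adjoin ℚ {ζ} with hL₃
    haveI hL₃fin : FiniteDimensional ℚ L₃ :=
      IntermediateField.adjoin.finiteDimensional ((Algebra.IsAlgebraic.isAlgebraic ζ).isIntegral)
    refine ⟨L ⊔ L₃, inferInstance, fun σ hσ y => ?_⟩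
    refine htrans n σ ζ hζ (hL2 σ fun x hx => hσ x ((le_sup_left : L ≤ L ⊔ L₃) hx)) ?_ y
    exact hσ ζ ((le_sup_right : L₃ ≤ L ⊔ L₃) (IntermediateField.mem_adjoin_simple_self ℚ ζ))
  have hcd : AdicCont fun g => ((d g : Oˣ) : O) := by
    intro n
    obtain ⟨ζ, hζ⟩ := exists_primitive p n
    haveI hL₃fin : FiniteDimensional ℚ (IntermediateField.adjoin ℚ {ζ}) :=
      IntermediateField.adjoin.finiteDimensional ((Algebra.IsAlgebraic.isAlgebraic ζ).isIntegral)
    refine ⟨IntermediateField.adjoin ℚ {ζ}, inferInstance, fun σ hσ y => ?_⟩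
    have h1 := cycO_sub_one_mem hpO n hζ σ (hσ ζ (IntermediateField.mem_adjoin_simple_self ℚ ζ))
    have : ((d (y * σ) : Oˣ) : O) - ((d y : Oˣ) : O) =
        ((d y : Oˣ) : O) * (((d σ : Oˣ) : O) - 1) := by
      rw [map_mul, Units.val_mul]; ring
    simp only
    rw [this]
    exact Ideal.mul_mem_left _ _ h1
  refine ⟨t, H, hct, hcd, ?_, ?_⟩
  · intro ℓ hℓ hℓN hℓS A hA φ hφ
    have hℓS' : ℓ ∉ S := hℓS
    have hne : ℓ ≠ p := fun h => hℓS' (h ▸ hpS)
    have hnd : ¬ ℓ ∣ N * p := by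
      intro hdvd
      rcases (Nat.Prime.dvd_mul hℓ).mp hdvd with h | h
      · exact hℓN h
      · exact hne ((Nat.prime_dvd_prime_iff_eq hℓ hp).mp h)
    refine eq_of_forall_sub_mem fun n => ?_
    have hact : Acts p S J (M n) φ (MvPolynomial.X ⟨⟨ℓ, hℓ⟩, hℓS⟩) := by
      intro x hx
      have hx' : p ^ (M n) • (φ⁻¹ • x) = 0 := by rw [smul_comm, hx, smul_zero]
      have h1 := hJ.frobenius ℓ hℓ hnd A hA φ hφ (φ⁻¹ • x) ⟨M n, hx'⟩
      rw [smul_inv_smul] at h1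
      have h2 : inclS (↑S : Set ℕ) (MvPolynomial.X ⟨⟨ℓ, hℓ⟩, hℓS⟩) = heckeGen ⟨ℓ, hℓ⟩ :=
        MvPolynomial.rename_X _ _
      have h3 : cn p (M n) φ • (φ⁻¹ • x) = ℓ • (φ⁻¹ • x) := by
        refine nsmul_eq_of_cast hx' ?_
        rw [cast_cn, cyc_frobenius hℓ hne hA hφ, map_natCast]
      rw [h2, h3, eq_comm, ← sub_eq_zero, ← h1]
      abel
    have h5 := ht φ n _ hact
    rwa [evS_X_of_not_dvd N (↑S : Set ℕ) ⟨⟨ℓ, hℓ⟩, hℓS⟩ hℓN] at h5
  · intro q hq hqN hqp A hA σ hσ y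
    have hnd : ¬ q ∣ N * p := by
      intro hdvd
      rcases (Nat.Prime.dvd_mul hq).mp hdvd with h | h
      · exact hqN h
      · exact hqp ((Nat.prime_dvd_prime_iff_eq hq hp).mp h)
    refine eq_of_forall_sub_mem fun n => ?_
    obtain ⟨ζ, hζ⟩ := exists_primitive p (M n)
    refine htrans n σ ζ hζ (fun x hx => hJ.unramified q hq hnd A hA σ hσ x ⟨M n, hx⟩) ?_ y
    exact inertia_fix_rootOfUnity hA (pow_prime_coprime hq hqp (M n)) (pow_ne_zero _ hp.ne_zero) hσ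
      hζ.pow_eq_one

end Main

end Fermat.Agent.HeckeRep

end
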