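import Fermat.Agent.TwExact.MPart

/-!
# The local algebra generated by commuting operators on an `𝔪`-local module

`R` is a local ring, `H` a finite `R`-module, `T i` commuting endomorphisms, `θ i` elements of the
residue field such that every polynomial `t` with `t(θ) ≠ 0` acts bijectively on `H`. Then the
`R`-algebra `E` generated by the `T i` is local with residue field that of `R`.
-/

set_option autoImplicit false
set_option linter.unusedSectionVars false
set_option linter.unusedVariables false

noncomputable section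

namespace Fermat.Agent.HeckeRep

open IsLocalRing Fermat.Agent.TwExact

section Inverse

variable {R : Type*} [CommRing R] {H : Type*} [AddCommGroup H] [Module R H] [Module.Finite R H]

/-- the inverse of an automorphism of a finite module is a polynomial in it -/
theorem inverse_mem (A : Subalgebra R (Module.End R H)) {a v : Module.End R H} (ha : a ∈ A)
    (hva : v * a = 1) : v ∈ A := by
  obtain ⟨P, hP, hPv⟩ : IsIntegral R v := Module.End.isIntegral.isIntegral v
  have hcomm : ∀ k, v ^ k * a ^ k = 1 := by
    intro k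
    induction k with
    | zero => simp
    | succ k ih => rw [pow_succ, pow_succ', mul_assoc, ← mul_assoc v, hva, one_mul, ih]
  have h1 : Polynomial.aeval v P = 0 := hPv
  rw [Polynomial.aeval_eq_sum_range, Finset.sum_range_succ, hP.coeff_natDegree, one_smul] at h1
  rcases Nat.eq_zero_or_pos P.natDegree with h0 | h0
  · rw [h0, Finset.sum_range_zero, zero_add, pow_zero] at h1
    have : v = 0 := by rw [← mul_one v, h1, mul_zero]
    rw [this]; exact A.zero_mem
  · obtain ⟨m, hm⟩ : ∃ m, P.natDegree = m + 1 := ⟨P.natDegree - 1, by omega⟩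
    rw [hm] at h1
    have h2 : v = -∑ i ∈ Finset.range (m + 1), P.coeff i • a ^ (m - i) := by
      have h3 := congrArg (fun z => z * a ^ m) h1
      simp only [add_mul, zero_mul, Finset.sum_mul, smul_mul_assoc] at h3
      rw [pow_succ', mul_assoc, hcomm, mul_one] at h3
      rw [eq_neg_iff_add_eq_zero, add_comm, ← h3]
      congr 1
      refine Finset.sum_congr rfl fun i hi => ?_
      have hi' : i ≤ m := Nat.lt_succ_iff.mp (Finset.mem_range.mp hi)
      congr 1
      conv_rhs => rw [show m = i + (m - i) by omega, pow_add, ← mul_assoc, hcomm, one_mul]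
    rw [h2]
    exact A.neg_mem (A.sum_mem fun i _ => A.smul_mem (A.pow_mem ha _) _)

end Inverse

section LocalAlg

variable {R : Type} [CommRing R] [IsLocalRing R] {ι : Type} (θ : ι → ResidueField R)
  {H : Type} [AddCommGroup H] [Module R H] [Module.Finite R H]
  (T : ι → Module.End R H) (hT : ∀ i j, Commute (T i) (T j))

/-- the algebra generated by the operators -/
abbrev EAlg : Subalgebra R (Module.End R H) := Algebra.adjoin R (Set.range T)

include hT in
theorem isMulCommutative_EAlg : IsMulCommutative (EAlg T) := isMulComm_adjoin T hT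

/-- the algebra generated by the operators, as a commutative ring -/
def Tring (T : ι → Module.End R H) (hT : ∀ i j, Commute (T i) (T j)) : Type := EAlg T

instance Tring.instCommRing : CommRing (Tring T hT) :=
  { (inferInstance : Ring (EAlg T)) with
    mul_comm := fun a b => (isMulCommutative_EAlg T hT).is_comm.comm a b }

instance Tring.instAlgebra : Algebra R (Tring T hT) := inferInstanceAs (Algebra R (EAlg T))

/-- the operators of the algebra -/
def Tring.val : Tring T hT →ₐ[R] Module.End R H := (EAlg T).val

lemma Tring.val_injective : Function.Injective (Tring.val T hT) := Subtype.val_injective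

/-- the generators -/
def Tring.gen (i : ι) : Tring T hT := ⟨T i, Algebra.subset_adjoin (Set.mem_range_self i)⟩

@[simp] lemma Tring.val_gen (i : ι) : Tring.val T hT (Tring.gen T hT i) = T i := rfl

/-- polynomials -/
def Tring.ev : MvPolynomial ι R →ₐ[R] Tring T hT := MvPolynomial.aeval (Tring.gen T hT)

@[simp] lemma Tring.ev_X (i : ι) : Tring.ev T hT (MvPolynomial.X i) = Tring.gen T hT i := by
  rw [Tring.ev, MvPolynomial.aeval_X]

lemma Tring.val_ev (t : MvPolynomial ι R) : Tring.val T hT (Tring.ev T hT t) = cev T hT t := by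
  induction t using MvPolynomial.induction_on with
  | C a =>
    rw [cev_C, ← MvPolynomial.algebraMap_eq, AlgHom.commutes, AlgHom.commutes]
  | add p q hp hq => rw [map_add, map_add, map_add, hp, hq]
  | mul_X p i hp => rw [map_mul, map_mul, map_mul, hp, Tring.ev_X, Tring.val_gen, cev_X]

lemma Tring.ev_surjective : Function.Surjective (Tring.ev T hT) := by
  rintro ⟨x, hx⟩
  have h1 : ∀ x ∈ EAlg T, ∃ t : MvPolynomial ι R, cev T hT t = x := by
    intro x hx
    induction hx using Algebra.adjoin_induction with
    | mem x hx =>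
      obtain ⟨i, rfl⟩ := hx
      exact ⟨MvPolynomial.X i, cev_X T hT i⟩
    | algebraMap r => exact ⟨MvPolynomial.C r, cev_C T hT r⟩
    | add x y _ _ hx hy =>
      obtain ⟨s, rfl⟩ := hx
      obtain ⟨t, rfl⟩ := hy
      exact ⟨s + t, map_add _ _ _⟩
    | mul x y _ _ hx hy =>
      obtain ⟨s, rfl⟩ := hx
      obtain ⟨t, rfl⟩ := hy
      exact ⟨s * t, map_mul _ _ _⟩
  obtain ⟨t, ht⟩ := h1 x hx
  refine ⟨t, Tring.val_injective T hT ?_⟩
  rw [Tring.val_ev, ht]; rfl

instance Tring.instModuleFinite [IsNoetherianRing R] : Module.Finite R (Tring T hT) := by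
  have h1 : Module.Finite R (H →ₗ[R] H) := by
    obtain ⟨n, f, hf⟩ := Module.Finite.exists_fin' R H
    have hn : IsNoetherian R H := isNoetherian_of_isNoetherianRing_of_finite R H
    have h1 : Module.Finite R ((Fin n → R) →ₗ[R] H) := inferInstance
    have h2 : IsNoetherian R ((Fin n → R) →ₗ[R] H) :=
      isNoetherian_of_isNoetherianRing_of_finite R _
    refine Module.Finite.of_injective (LinearMap.lcomp R H f) ?_
    intro a b hab
    refine LinearMap.ext fun x => ?_
    obtain ⟨y, rfl⟩ := hf x
    exact congrArg (fun g : (Fin n → R) →ₗ[R] H => g y) hab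
  have h2 : IsNoetherian R (H →ₗ[R] H) := isNoetherian_of_isNoetherianRing_of_finite R _
  exact Module.Finite.of_injective (Tring.val T hT).toLinearMap (Tring.val_injective T hT)

/-- `H` is local at `θ`: polynomials outside the maximal ideal act bijectively -/
def IsLocalAt : Prop := ∀ t : MvPolynomial ι R, evk θ t ≠ 0 → Function.Bijective (cev T hT t)

variable {θ T hT}

lemma IsLocalAt.isUnit_ev (h : IsLocalAt θ T hT) {t : MvPolynomial ι R} (ht : evk θ t ≠ 0) :
    IsUnit (Tring.ev T hT t) := by
  obtain ⟨u, hu⟩ := (Module.End.isUnit_iff _).mpr (h t ht)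
  have h1 : ((u⁻¹ : (Module.End R H)ˣ) : Module.End R H) * cev T hT t = 1 := by
    rw [← hu, Units.inv_mul]
  have h2 : cev T hT t ∈ EAlg T := by
    rw [← Tring.val_ev]; exact (Tring.ev T hT t).2
  have h3 := inverse_mem (EAlg T) h2 h1
  let v : Tring T hT := ⟨_, h3⟩
  refine IsUnit.of_mul_eq_one v (Tring.val_injective T hT ?_)
  rw [mul_comm, map_mul, map_one, Tring.val_ev]
  exact h1

lemma IsLocalAt.evk_eq_zero_of_not_isUnit (h : IsLocalAt θ T hT) {t : MvPolynomial ι R}
    (ht : ¬ IsUnit (Tring.ev T hT t)) : evk θ t = 0 := by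
  by_contra h1
  exact ht (h.isUnit_ev h1)

variable [Nontrivial H]

instance Tring.instNontrivial : Nontrivial (Tring T hT) := by
  refine ⟨0, 1, fun h => ?_⟩
  have h1 := congrArg (Tring.val T hT) h
  rw [map_zero, map_one] at h1
  exact zero_ne_one h1

lemma IsLocalAt.isUnit_ev_iff (h : IsLocalAt θ T hT) {t : MvPolynomial ι R} :
    IsUnit (Tring.ev T hT t) ↔ evk θ t ≠ 0 := by
  refine ⟨fun hu h0 => ?_, h.isUnit_ev⟩
  obtain ⟨v, hv⟩ := hu.exists_right_inv
  obtain ⟨v, rfl⟩ := Tring.ev_surjective T hT v
  have h1 : IsUnit (Tring.ev T hT (t * v - 1)) := h.isUnit_ev (by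
    rw [map_sub, map_mul, h0, zero_mul, map_one, zero_sub]
    exact neg_ne_zero.mpr one_ne_zero)
  rw [map_sub, map_mul, hv, map_one, sub_self] at h1
  exact not_isUnit_zero h1

/-- the algebra generated by the operators is local. -/
theorem IsLocalAt.isLocalRing (h : IsLocalAt θ T hT) : IsLocalRing (Tring T hT) := by
  refine IsLocalRing.of_nonunits_add ?_
  intro a b ha hb
  obtain ⟨s, rfl⟩ := Tring.ev_surjective T hT a
  obtain ⟨t, rfl⟩ := Tring.ev_surjective T hT b
  have h1 := h.evk_eq_zero_of_not_isUnit ha
  have h2 := h.evk_eq_zero_of_not_isUnit hb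
  intro hu
  rw [← map_add] at hu
  exact (h.isUnit_ev_iff.mp hu) (by rw [map_add, h1, h2, add_zero])

theorem IsLocalAt.isLocalHom (h : IsLocalAt θ T hT) : IsLocalHom (algebraMap R (Tring T hT)) := by
  constructor
  intro a ha
  have h1 : Tring.ev T hT (MvPolynomial.C a) = algebraMap R (Tring T hT) a := by
    rw [← MvPolynomial.algebraMap_eq, AlgHom.commutes]
  rw [← h1, h.isUnit_ev_iff, evk_C] at ha
  by_contra hu
  exact ha ((residue_eq_zero_iff _).mpr ((mem_maximalIdeal _).mpr hu))

/-- the residue map of the algebra generated by the operators. -/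
theorem IsLocalAt.residue_ev (h : IsLocalAt θ T hT) [IsLocalRing (Tring T hT)]
    [IsLocalHom (algebraMap R (Tring T hT))] (t : MvPolynomial ι R) :
    residue (Tring T hT) (Tring.ev T hT t) =
      ResidueField.map (algebraMap R (Tring T hT)) (evk θ t) := by
  obtain ⟨a, ha⟩ := residue_surjective (evk θ t)
  have h1 : ¬ IsUnit (Tring.ev T hT (t - MvPolynomial.C a)) := by
    rw [h.isUnit_ev_iff, not_not, map_sub, evk_C, ha, sub_self]
  rw [← ha, ResidueField.map_residue]
  have h2 : Tring.ev T hT (MvPolynomial.C a) = algebraMap R (Tring T hT) a := by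
    rw [← MvPolynomial.algebraMap_eq, AlgHom.commutes]
  rw [← h2, ← sub_eq_zero, ← map_sub, ← map_sub]
  exact (residue_eq_zero_iff _).mpr ((mem_maximalIdeal _).mpr h1)

theorem IsLocalAt.residue_gen (h : IsLocalAt θ T hT) [IsLocalRing (Tring T hT)]
    [IsLocalHom (algebraMap R (Tring T hT))] (i : ι) :
    residue (Tring T hT) (Tring.gen T hT i) =
      ResidueField.map (algebraMap R (Tring T hT)) (θ i) := by
  rw [← Tring.ev_X, h.residue_ev, evk_X]

end LocalAlg

end Fermat.Agent.HeckeRep
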