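import Fermat.Agent.HeckeRep.LocalAlg
import Fermat.Agent.HeckeRep.Datum
import Fermat.Agent.HeckeRep.Transport
import Fermat.Agent.TwExact.Exact
import Fermat.Agent.S35_Separate

/-!
# The localised Hecke algebra acts on the `𝔪`-part

Let `H` be a module over the local `𝒪`-algebra `R` with commuting operators `T i`, `mpart` its
`𝔪`-part, `u i ≡ 1` elements of `R`. If all relations between the Hecke operators of
`heckeAlgebra M' 2 S` are satisfied by the `u i • T i` on the `𝔪`-part, then there is an
`𝒪`-algebra homomorphism from `heckeLocal M' S 𝒪 θ` to the local algebra generated by them.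
-/

set_option autoImplicit false
set_option linter.unusedSectionVars false
set_option linter.unusedVariables false

noncomputable section

namespace Fermat.Agent.HeckeRep

open IsLocalRing Fermat.Agent.TwExact

section Subst

variable {R : Type} [CommRing R] {ι : Type} (u : ι → R)

/-- substitution `X i ↦ u i * X i` -/
def subst : MvPolynomial ι R →ₐ[R] MvPolynomial ι R :=
  MvPolynomial.aeval fun i => MvPolynomial.C (u i) * MvPolynomial.X i

@[simp] lemma subst_X (i : ι) : subst u (MvPolynomial.X i) = MvPolynomial.C (u i) * MvPolynomial.X i := by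
  rw [subst, MvPolynomial.aeval_X]

lemma evk_subst [IsLocalRing R] (θ : ι → ResidueField R) (hu : ∀ i, residue R (u i) = 1)
    (t : MvPolynomial ι R) : evk θ (subst u t) = evk θ t := by
  induction t using MvPolynomial.induction_on with
  | C a => rw [← MvPolynomial.algebraMap_eq, AlgHom.commutes]
  | add p q hp hq => rw [map_add, map_add, map_add, hp, hq]
  | mul_X p i hp =>
    rw [map_mul, map_mul, map_mul, hp, subst_X, map_mul, evk_C, hu, one_mul]

variable {H : Type} [AddCommGroup H] [Module R H] (T : ι → Module.End R H)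
  (hT : ∀ i j, Commute (T i) (T j))

include hT in
lemma smul_commute (i j : ι) : Commute (u i • T i) (u j • T j) :=
  ((hT i j).smul_left _).smul_right _

lemma cev_smul (t : MvPolynomial ι R) :
    cev (fun i => u i • T i) (smul_commute u T hT) t = cev T hT (subst u t) := by
  induction t using MvPolynomial.induction_on with
  | C a => rw [← MvPolynomial.algebraMap_eq, AlgHom.commutes, AlgHom.commutes, AlgHom.commutes]
  | add p q hp hq => rw [map_add, map_add, map_add, hp, hq]
  | mul_X p i hp =>
    rw [map_mul, map_mul, map_mul, hp, cev_X, subst_X, map_mul, cev_C, cev_X, Algebra.smul_def]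

end Subst

section MT

variable {R : Type} [CommRing R] [IsLocalRing R] {ι : Type} (θ : ι → ResidueField R) (u : ι → R)
  {H : Type} [AddCommGroup H] [Module R H] {T : ι → Module.End R H}
  (hT : ∀ i j, Commute (T i) (T j))

/-- the normalised operators on the `𝔪`-part -/
def mT (i : ι) : Module.End R (mpart θ T hT) :=
  (u i • T i).restrict fun _ hx => (mpart θ T hT).smul_mem _ (T_mem_mpart hT i hx)

@[simp] lemma coe_mT (i : ι) (x : mpart θ T hT) :
    ((mT θ u hT i x : mpart θ T hT) : H) = u i • T i (x : H) := rfl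

lemma mT_commute (i j : ι) : Commute (mT θ u hT i) (mT θ u hT j) := by
  refine LinearMap.ext fun x => Subtype.ext ?_
  have h := congrArg (fun f : Module.End R H => f (x : H)) (smul_commute u T hT i j).eq
  exact h

lemma coe_cev_mT (t : MvPolynomial ι R) (x : mpart θ T hT) :
    ((cev (mT θ u hT) (mT_commute θ u hT) t x : mpart θ T hT) : H) =
      cev T hT (subst u t) (x : H) := by
  rw [← cev_smul]
  exact cev_natural (mT_commute θ u hT) (smul_commute u T hT) (mpart θ T hT).subtype
    (fun i x => rfl) t x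

lemma coe_cevZ_mT (t : MvPolynomial ι ℤ) (x : mpart θ T hT) :
    ((cev (R := ℤ) (mT θ u hT) (mT_commute θ u hT) t x : mpart θ T hT) : H) =
      cev (R := ℤ) (fun i => u i • T i) (smul_commute u T hT) t (x : H) :=
  cevZ_natural (mT_commute θ u hT) (smul_commute u T hT) (mpart θ T hT).subtype.toAddMonoidHom
    (fun i x => rfl) t x

variable {θ u}

theorem isLocalAt_mT (hu : ∀ i, residue R (u i) = 1) {e : MvPolynomial ι R}
    (he : IsIdem θ T hT e) : IsLocalAt θ (mT θ u hT) (mT_commute θ u hT) := by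
  intro t ht
  have ht' : evk θ (subst u t) ≠ 0 := by rwa [evk_subst u θ hu]
  constructor
  · rw [← LinearMap.ker_eq_bot, LinearMap.ker_eq_bot']
    intro x hx
    apply Subtype.ext
    refine he.eq_zero x.2 ht' ?_
    rw [← coe_cev_mT, hx]; rfl
  · intro y
    obtain ⟨z, hz, hzy⟩ := he.exists_preimage y.2 ht'
    refine ⟨⟨z, hz⟩, Subtype.ext ?_⟩
    rw [coe_cev_mT]; exact hzy

end MT

section Hom

open CuspForm Fermat.Agent.GalRep

variable {L : ℕ} [NeZero L] {S : Set ℕ}

/-- ring homomorphisms out of the Hecke algebra are given by relations. -/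
theorem exists_hom_of_relations {E : Type*} [CommRing E] (e : PIdx S → E)
    (hrel : ∀ t, evS L S t = 0 → MvPolynomial.aeval (R := ℤ) e t = 0) :
    ∃ χ : heckeAlgebra L 2 S →+* E, ∀ t, χ (evS L S t) = MvPolynomial.aeval (R := ℤ) e t := by
  refine ⟨RingHom.liftOfSurjective (evS L S : MvPolynomial (PIdx S) ℤ →+* heckeAlgebra L 2 S)
    (S35aux.evS_surjective L S) ⟨(MvPolynomial.aeval (R := ℤ) e : MvPolynomial (PIdx S) ℤ →ₐ[ℤ] E),
      fun t ht => hrel t ht⟩, fun t => ?_⟩
  exact RingHom.liftOfRightInverse_comp_apply _ _ _ _ t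

variable {𝒪 : Type} [CommRing 𝒪] [IsDomain 𝒪] [IsDiscreteValuationRing 𝒪]
  [IsAdicComplete (maximalIdeal 𝒪) 𝒪] [Fact (HasIntegralStructure L 2)]
variable (θ : heckeAlgebra L 2 S →+* ResidueField 𝒪)

lemma evS_X' (ℓ : PIdx S) : evS L S (MvPolynomial.X ℓ) = genS L S ℓ := by
  rw [evS, MvPolynomial.aeval_X]

theorem exists_algHom_of_relations {E : Type} [CommRing E] [IsLocalRing E] [Algebra 𝒪 E]
    [IsLocalHom (algebraMap 𝒪 E)] (e : PIdx S → E)
    (hrel : ∀ t, evS L S t = 0 → MvPolynomial.aeval (R := ℤ) e t = 0)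
    (hres : ∀ ℓ, residue E (e ℓ) = ResidueField.map (algebraMap 𝒪 E) (θ (genS L S ℓ))) :
    ∃ Ψ : heckeLocal L S 𝒪 θ →ₐ[𝒪] E, ∀ t,
      Ψ (heckeLocal.π L S 𝒪 θ (evS L S t)) = MvPolynomial.aeval (R := ℤ) e t := by
  obtain ⟨χ, hχ⟩ := exists_hom_of_relations e hrel
  have h1 : ∀ t, residue E (χ t) = ResidueField.map (algebraMap 𝒪 E) (θ t) := by
    intro t
    obtain ⟨t, rfl⟩ := S35aux.evS_surjective L S t
    induction t using MvPolynomial.induction_on with
    | C a =>
      rw [← MvPolynomial.algebraMap_eq, AlgHom.commutes, algebraMap_int_eq, eq_intCast, map_intCast,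
        map_intCast, map_intCast, map_intCast]
    | add p q hp hq => rw [map_add, map_add, map_add, map_add, map_add, hp, hq]
    | mul_X p i hp =>
      rw [map_mul, map_mul, map_mul, map_mul, map_mul, hp, hχ, MvPolynomial.aeval_X, hres, evS_X']
  obtain ⟨Ψ, hΨ⟩ := exists_point L S 𝒪 θ χ h1
  exact ⟨Ψ, fun t => by rw [hΨ, hχ]⟩

/-- the residual eigensystem over `R` -/
def thR (R : Type) [CommRing R] [IsLocalRing R] [Algebra 𝒪 R] [IsLocalHom (algebraMap 𝒪 R)]
    (ℓ : PIdx S) : ResidueField R :=
  ResidueField.map (algebraMap 𝒪 R) (θ (genS L S ℓ))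

/-- the localised Hecke algebra is generated by the Hecke operators. -/
theorem heckeLocal_induction {P : heckeLocal L S 𝒪 θ → Prop}
    (halg : ∀ a, P (algebraMap 𝒪 _ a)) (hgen : ∀ ℓ : PIdx S, P (heckeLocal.π L S 𝒪 θ (genS L S ℓ)))
    (hadd : ∀ a b, P a → P b → P (a + b)) (hmul : ∀ a b, P a → P b → P (a * b))
    (x : heckeLocal L S 𝒪 θ) : P x := by
  have h0 : ∀ t : heckeAlgebra L 2 S, P (heckeLocal.π L S 𝒪 θ t) := by
    intro t
    obtain ⟨t, rfl⟩ := S35aux.evS_surjective L S t
    induction t using MvPolynomial.induction_on with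
    | C a =>
      rw [← MvPolynomial.algebraMap_eq, AlgHom.commutes, algebraMap_int_eq, eq_intCast, map_intCast]
      rw [← map_intCast (algebraMap 𝒪 (heckeLocal L S 𝒪 θ))]
      exact halg _
    | add p q hp hq => rw [map_add, map_add]; exact hadd _ _ hp hq
    | mul_X p i hp => rw [map_mul, map_mul, evS_X']; exact hmul _ _ hp (hgen i)
  have h1 : x ∈ Algebra.adjoin 𝒪 (Set.range (heckeLocal.π L S 𝒪 θ)) := by
    rw [adjoin_range_π]; trivial
  induction h1 using Algebra.adjoin_induction with
  | mem x hx => obtain ⟨t, rfl⟩ := hx; exact h0 t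
  | algebraMap r => exact halg r
  | add x y _ _ hx hy => exact hadd _ _ hx hy
  | mul x y _ _ hx hy => exact hmul _ _ hx hy

end Hom

section Act

open CuspForm Fermat.Agent.GalRep

variable {L : ℕ} [NeZero L] {S : Set ℕ}
variable {𝒪 : Type} [CommRing 𝒪] [IsDomain 𝒪] [IsDiscreteValuationRing 𝒪]
  [IsAdicComplete (maximalIdeal 𝒪) 𝒪] [Fact (HasIntegralStructure L 2)]
variable (θ : heckeAlgebra L 2 S →+* ResidueField 𝒪)
variable {R : Type} [CommRing R] [IsLocalRing R] [Algebra 𝒪 R] [IsLocalHom (algebraMap 𝒪 R)]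
  [IsNoetherianRing R] {H : Type} [AddCommGroup H] [Module R H] [Module.Finite R H]
  (T : PIdx S → Module.End R H) (hT : ∀ i j, Commute (T i) (T j))

/-- **The action of the localised Hecke algebra**, abstract version. -/
theorem exists_act_of_relations (hloc : IsLocalAt (thR θ R) T hT)
    (hrel : ∀ t, evS L S t = 0 → cev (R := ℤ) T hT t = 0) :
    ∃ act : heckeLocal L S 𝒪 θ →+* Module.End R H,
      (∀ a, act (algebraMap 𝒪 _ a) = algebraMap R _ (algebraMap 𝒪 R a)) ∧
      ∀ ℓ, act (heckeLocal.π L S 𝒪 θ (genS L S ℓ)) = T ℓ := by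
  rcases subsingleton_or_nontrivial H with hH | hH
  · have h0 : Subsingleton (Module.End R H) := inferInstance
    refine ⟨{ toFun := fun _ => 0, map_one' := Subsingleton.elim _ _,
              map_mul' := fun _ _ => Subsingleton.elim _ _, map_zero' := rfl,
              map_add' := fun _ _ => Subsingleton.elim _ _}, fun _ => Subsingleton.elim _ _,
              fun ℓ => Subsingleton.elim _ _⟩
  have hl := hloc.isLocalRing
  have hh := hloc.isLocalHom
  let i1 : Algebra 𝒪 (Tring T hT) := ((algebraMap R (Tring T hT)).comp (algebraMap 𝒪 R)).toAlgebra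
  have hcomp : (algebraMap 𝒪 (Tring T hT)) = (algebraMap R (Tring T hT)).comp (algebraMap 𝒪 R) := rfl
  have hh2 : IsLocalHom (algebraMap 𝒪 (Tring T hT)) := by
    rw [hcomp]; exact RingHom.isLocalHom_comp _ _
  have hval : ∀ t : MvPolynomial (PIdx S) ℤ,
      Tring.val T hT (MvPolynomial.aeval (R := ℤ) (Tring.gen T hT) t) = cev (R := ℤ) T hT t := by
    intro t
    induction t using MvPolynomial.induction_on with
    | C a =>
      rw [← MvPolynomial.algebraMap_eq, AlgHom.commutes, AlgHom.commutes, algebraMap_int_eq,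
        algebraMap_int_eq, eq_intCast, eq_intCast, map_intCast]
    | add p q hp hq => rw [map_add, map_add, map_add, hp, hq]
    | mul_X p i hp => rw [map_mul, map_mul, map_mul, hp, MvPolynomial.aeval_X, cev_X]; rfl
  obtain ⟨Ψ, hΨ⟩ := exists_algHom_of_relations θ (Tring.gen T hT) (fun t ht =>
    Tring.val_injective T hT (by rw [hval, hrel t ht, map_zero])) (fun ℓ => by
      rw [hloc.residue_gen, thR]
      obtain ⟨a, ha⟩ := IsLocalRing.residue_surjective (θ (genS L S ℓ))
      rw [← ha, ResidueField.map_residue, ResidueField.map_residue, ResidueField.map_residue]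
      rfl)
  refine ⟨(Tring.val T hT : Tring T hT →+* Module.End R H).comp (Ψ : _ →+* Tring T hT),
    fun a => ?_, fun ℓ => ?_⟩
  · show Tring.val T hT (Ψ _) = _
    rw [AlgHom.commutes, hcomp, RingHom.comp_apply, AlgHom.commutes]
  · show Tring.val T hT (Ψ _) = T ℓ
    rw [← evS_X', hΨ, MvPolynomial.aeval_X]; rfl

end Act

end Fermat.Agent.HeckeRep
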