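import Fermat.Agent.HeckeRep.MPartAlg
import Fermat.Agent.TwES.Rel
import Fermat.Agent.TwExact.Free
import Fermat.Agent.TwHecke.Par
import Fermat.Agent.S41.HmInj
import Fermat.Agent.RT.GroupRing
import Fermat.Agent.RT.Embed

/-!
# Relations between Hecke operators hold on the `𝔪`-part of the twisted cohomology

`relation_Hm`: `M` a level, `Q₀ ∣ M`, `τ : (ℤ/M)ˣ → Δ` a character with values in a finite group,
factoring through `(ℤ/Q₀)ˣ`, `H = H¹(Γ₀(M), 𝒪[Δ](τ²))_𝔪`. Every relation between the Hecke operators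
on `S₂(Γ₀(M Q₀))` is satisfied by the operators `τ(ℓ) T_ℓ` on `H`.
-/

set_option autoImplicit false
set_option linter.unusedSectionVars false
set_option linter.unusedVariables false

noncomputable section

open CongruenceSubgroup
open scoped MatrixGroups

namespace Fermat.Agent.HeckeRep

open IsLocalRing Fermat.Agent.TwHecke Fermat.Agent.TwExact Fermat.Agent.GalRep
open Fermat.Agent.TwES (relation_par val_genS cev_heckeOp_eq_zero)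
open FermatAgent.HeckeEigen (heckeOp heckeOp_comm heckeOp_of_dvd heckeOp_of_not_dvd)

section Level

/-- relations at a higher level hold at a lower level. -/
theorem evS_eq_zero_of_dvd {M M' : ℕ} [NeZero M] [NeZero M'] (hM : M' ∣ M) {S : Set ℕ}
    (hS : ∀ ℓ : ℕ, ℓ.Prime → ℓ ∣ M → ℓ ∈ S) {t : MvPolynomial (PIdx S) ℤ} (ht : evS M S t = 0) :
    evS M' S t = 0 := by
  have h1 : ∀ (K : ℕ) [NeZero K], ((evS K S t : CuspForm.heckeAlgebra K 2 S) :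
      Module.End ℂ (CuspForm (Gamma0 K) 2)) =
        cev (R := ℤ) (fun i : {ℓ : Nat.Primes // (ℓ : ℕ) ∉ S} => heckeOp K 2 i.1)
      (fun i j => heckeOp_comm i.1 j.1) t := by
    intro K _
    have h2 : (CuspForm.heckeAlgebra K 2 S).val.comp (evS K S) =
        cev (R := ℤ) (fun i : {ℓ : Nat.Primes // (ℓ : ℕ) ∉ S} => heckeOp K 2 i.1)
        (fun i j => heckeOp_comm i.1 j.1) := by
      apply MvPolynomial.algHom_ext
      intro i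
      rw [cev_X, AlgHom.comp_apply, evS, MvPolynomial.aeval_X]
      exact val_genS K S i
    rw [← h2]; rfl
  apply Subtype.ext
  rw [h1 M']
  refine LinearMap.ext fun v => ?_
  apply S35aux.resLevel_injective hM
  rw [show (((0 : CuspForm.heckeAlgebra M' 2 S) : Module.End ℂ (CuspForm (Gamma0 M') 2)) v) = 0
    from rfl, map_zero]
  have h3 := cevZ_natural (T := fun i : {ℓ : Nat.Primes // (ℓ : ℕ) ∉ S} => heckeOp M' 2 i.1)
    (fun i j => heckeOp_comm i.1 j.1)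
    (T' := fun i : {ℓ : Nat.Primes // (ℓ : ℕ) ∉ S} => heckeOp M 2 i.1)
    (fun i j => heckeOp_comm i.1 j.1) (S35aux.resLevel hM).toAddMonoidHom (fun i x => by
      exact (S35aux.heckeOp_resLevel hM i.1 (fun h => i.2 (hS _ i.1.2 h)) x).symm) t v
  have h4 : ((evS M S t : CuspForm.heckeAlgebra M 2 S) :
      Module.End ℂ (CuspForm (Gamma0 M) 2)) = 0 := by rw [ht]; rfl
  rw [h1 M] at h4
  rw [h4] at h3
  exact h3

end Level

section Cx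

theorem relation_nop' {M Q₀ : ℕ} [NeZero M] [NeZero Q₀] (hQM : Q₀ ∣ M) {S : Set ℕ}
    (hS : ∀ ℓ : ℕ, ℓ.Prime → ℓ ∣ M → ℓ ∈ S) (ψ₀ : (ZMod Q₀)ˣ →* ℂˣ)
    (t : MvPolynomial {ℓ : Nat.Primes // (ℓ : ℕ) ∉ S} ℤ) {L : ℕ} [NeZero L] (hL : M * Q₀ = L)
    (ht : evS L S t = 0)
    (x : HM M ((ψ₀.comp (ZMod.unitsMap hQM)) ^ 2) ℂ)
    (hx : x ∈ HM.par M ((ψ₀.comp (ZMod.unitsMap hQM)) ^ 2) ℂ) :
    cev (R := ℤ) (nop (ψ₀.comp (ZMod.unitsMap hQM)) S)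
      (nop_commute (ψ₀.comp (ZMod.unitsMap hQM))) t x = 0 := by
  rw [cevZ_eq]
  have hL' : Q₀ * M = L := by rw [mul_comm]; exact hL
  refine relation_par hQM ψ₀ hL' (by ext u; rfl) Subtype.val _ ?_ _ ?_
    (TwES.bd_eq_zero_of_mem_par hx)
  · intro i
    rw [nop]
    congr 1
    have hi : ¬ ((i.1 : ℕ) ∣ M) := fun h => i.2 (hS _ i.1.2 h)
    have hc : Nat.Coprime (i.1 : ℕ) M := (Nat.Prime.coprime_iff_not_dvd i.1.2).mpr hi
    have hu1 : IsUnit (((i.1 : ℕ) : ℤ) : ZMod M) := by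
      rw [Int.cast_natCast]
      exact (ZMod.isUnit_iff_coprime _ _).mpr hc
    have hu2 : (((ZMod.unitsMap hQM)
        (unitOf M ((i.1 : ℕ) : ℤ)) : (ZMod Q₀)ˣ) : ZMod Q₀) = ((i.1 : ℕ) : ZMod Q₀) := by
      rw [ZMod.unitsMap_def, Units.coe_map, MonoidHom.coe_coe, val_unitOf hu1, Int.cast_natCast,
        map_natCast]
    rw [MonoidHom.comp_apply, TwES.dch, ← hu2, MulChar.ofUnitHom_coe]
  · have h1 := cevZ_eq (R := ℂ) (fun i j => heckeOp_comm i.1 j.1) t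
      (T := fun i : {ℓ : Nat.Primes // (ℓ : ℕ) ∉ S} => heckeOp L 2 i.1)
    rw [cev_heckeOp_eq_zero ht] at h1
    exact h1.symm

lemma unitOf_eq_one {M : ℕ} [NeZero M] {ℓ : ℕ} (h : (ℓ : ZMod M) = 1) : unitOf M (ℓ : ℤ) = 1 := by
  apply Units.ext
  have h1 : ((ℓ : ℤ) : ZMod M) = 1 := by rw [Int.cast_natCast, h]
  have h2 : IsUnit ((ℓ : ℤ) : ZMod M) := by rw [h1]; exact isUnit_one
  rw [val_unitOf h2, h1, Units.val_one]

/-- on all of `H¹`, after multiplication by an Eisenstein factor. -/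
theorem relation_complex {M Q₀ : ℕ} [NeZero M] [NeZero Q₀] (hQM : Q₀ ∣ M) {S : Set ℕ}
    (hS : ∀ ℓ : ℕ, ℓ.Prime → ℓ ∣ M → ℓ ∈ S) (ψ₀ : (ZMod Q₀)ˣ →* ℂˣ)
    (t : MvPolynomial {ℓ : Nat.Primes // (ℓ : ℕ) ∉ S} ℤ) {L : ℕ} [NeZero L] (hL : M * Q₀ = L)
    (ht : evS L S t = 0) {ℓ₀ : PIdx S} (hℓ₀ : (((ℓ₀.1 : ℕ)) : ZMod M) = 1) (hodd : Odd (ℓ₀.1 : ℕ))
    (x : HM M ((ψ₀.comp (ZMod.unitsMap hQM)) ^ 2) ℂ) :
    cev (R := ℤ) (nop (ψ₀.comp (ZMod.unitsMap hQM)) S)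
      (nop_commute (ψ₀.comp (ZMod.unitsMap hQM)))
        (t * (MvPolynomial.X ℓ₀ - MvPolynomial.C (((ℓ₀.1 : ℕ) : ℤ) + 1))) x = 0 := by
  have hp : Fact (ℓ₀.1 : ℕ).Prime := ⟨ℓ₀.1.2⟩
  rw [map_mul, Module.End.mul_apply]
  refine relation_nop' hQM hS ψ₀ t hL ht _ ?_
  rw [map_sub, cev_X, cev_C, LinearMap.sub_apply, algebraMap_int_eq, eq_intCast,
    Module.End.intCast_apply, nop, unitOf_eq_one hℓ₀, map_one, Units.val_one, one_smul]
  have h1 := heckeH_sub_mem_par (ε := ((ψ₀.comp (ZMod.unitsMap hQM)) ^ 2 : (ZMod M)ˣ →* ℂˣ))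
    (A := ℂ) hℓ₀ hodd (isUnit_iff_ne_zero.mpr (by exact_mod_cast ℓ₀.1.2.ne_zero)) x
  have h2 : (((ℓ₀.1 : ℕ) : ℂ) + 1) • x = ((((ℓ₀.1 : ℕ) : ℤ) + 1 : ℤ)) • x := by
    rw [← Int.cast_smul_eq_zsmul ℂ]; push_cast; rfl
  rw [h2] at h1
  exact h1

end Cx

section Group

variable {M Q₀ : ℕ} [NeZero M] [NeZero Q₀] (hQM : Q₀ ∣ M) {S : Set ℕ}
  {𝒪 : Type} [CommRing 𝒪] [IsDomain 𝒪] {Δ : Type} [CommGroup Δ] [Fintype Δ]

/-- on `H¹(Γ₀(M), 𝒪[Δ])`, up to torsion. -/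
theorem relation_group (ι : 𝒪 →+* ℂ) (hι : Function.Injective ι)
    (hS : ∀ ℓ : ℕ, ℓ.Prime → ℓ ∣ M → ℓ ∈ S) (τ₀ : (ZMod Q₀)ˣ →* Δ)
    (t : MvPolynomial {ℓ : Nat.Primes // (ℓ : ℕ) ∉ S} ℤ) {L : ℕ} [NeZero L] (hL : M * Q₀ = L)
    (ht : evS L S t = 0) {ℓ₀ : PIdx S} (hℓ₀ : (((ℓ₀.1 : ℕ)) : ZMod M) = 1) (hodd : Odd (ℓ₀.1 : ℕ))
    (x : HM M ((taut 𝒪 (τ₀.comp (ZMod.unitsMap hQM))) ^ 2) (MonoidAlgebra 𝒪 Δ)) :
    ∃ n : 𝒪, n ≠ 0 ∧ (algebraMap 𝒪 (MonoidAlgebra 𝒪 Δ) n) •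
      cev (R := ℤ) (nop (taut 𝒪 (τ₀.comp (ZMod.unitsMap hQM))) S)
        (nop_commute (taut 𝒪 (τ₀.comp (ZMod.unitsMap hQM))))
        (t * (MvPolynomial.X ℓ₀ - MvPolynomial.C (((ℓ₀.1 : ℕ) : ℤ) + 1))) x = 0 := by
  refine exists_smul_cev_eq_zero ι hι (τ₀.comp (ZMod.unitsMap hQM)) _ (fun χ y => ?_) x
  exact relation_complex hQM hS (χ.comp τ₀) t hL ht hℓ₀ hodd y

end Group

section Hm

variable {M : ℕ} [NeZero M] {S : Set ℕ} {R : Type} [CommRing R] [IsLocalRing R]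
  [IsNoetherianRing R] [IsAdicComplete (maximalIdeal R) R]

/-- the normalised operators on the `𝔪`-part of `H¹(Γ₀(M), R(η²))` -/
def hT (η : (ZMod M)ˣ →* Rˣ) (ε : (ZMod M)ˣ →* Rˣ) (S : Set ℕ) (θ : PIdx S → ResidueField R)
    (ℓ : PIdx S) : Module.End R (Hm M ε R S θ) :=
  mT θ (fun ℓ : PIdx S => ((η (unitOf M ℓ.1) : Rˣ) : R)) (hop_commute M ε R S) ℓ

lemma coe_hT (η ε : (ZMod M)ˣ →* Rˣ) (θ : PIdx S → ResidueField R) (ℓ : PIdx S)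
    (x : Hm M ε R S θ) : ((hT η ε S θ ℓ x : Hm M ε R S θ) : HM M ε R) =
      ((η (unitOf M ℓ.1) : Rˣ) : R) • heckeP M ε R ℓ.1 (x : HM M ε R) := rfl

lemma hT_commute (η ε : (ZMod M)ˣ →* Rˣ) (θ : PIdx S → ResidueField R) (i j : PIdx S) :
    Commute (hT η ε S θ i) (hT η ε S θ j) := mT_commute _ _ _ i j

theorem isLocalAt_hT {η ε : (ZMod M)ˣ →* Rˣ} {θ : PIdx S → ResidueField R}
    (hη : ∀ u, residue R (η u : R) = 1) : IsLocalAt θ (hT η ε S θ) (hT_commute η ε θ) := by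
  obtain ⟨e, he⟩ := exists_isIdem_Hm R ε θ
  exact isLocalAt_mT (hop_commute M ε R S) (fun i => hη _) he

variable {𝒪 : Type} [CommRing 𝒪] [IsDomain 𝒪] [Algebra 𝒪 R] [Module.IsTorsionFree 𝒪 R]

/-- from relations up to torsion on `H¹` to relations on the `𝔪`-part. -/
theorem relation_of_torsion {η : (ZMod M)ˣ →* Rˣ} {θ : PIdx S → ResidueField R}
    (hη : ∀ u, residue R (η u : R) = 1)
    (hG : Good M (η ^ 2) S θ) (t : MvPolynomial (PIdx S) ℤ)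
    {ℓ₀ : PIdx S} (hθ : θ ℓ₀ ≠ (((ℓ₀.1 : ℕ) : ℕ) : ResidueField R) + 1)
    (h : ∀ x : HM M (η ^ 2) R, ∃ n : 𝒪, n ≠ 0 ∧ (algebraMap 𝒪 R n) •
      cev (R := ℤ) (nop η S) (nop_commute η)
        (t * (MvPolynomial.X ℓ₀ - MvPolynomial.C (((ℓ₀.1 : ℕ) : ℤ) + 1))) x = 0) :
    cev (R := ℤ) (hT η (η ^ 2) S θ) (hT_commute η (η ^ 2) θ) t = 0 := by
  refine LinearMap.ext fun x => ?_
  set s : MvPolynomial (PIdx S) ℤ := MvPolynomial.X ℓ₀ - MvPolynomial.C (((ℓ₀.1 : ℕ) : ℤ) + 1)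
    with hs
  obtain ⟨n, hn, hx⟩ := h (x : HM M (η ^ 2) R)
  have h1 : (algebraMap 𝒪 R n) • cev (R := ℤ) (hT η (η ^ 2) S θ) (hT_commute η (η ^ 2) θ)
      (t * s) x = 0 := by
    apply Subtype.ext
    have h2 : ((cev (R := ℤ) (hT η (η ^ 2) S θ) (hT_commute η (η ^ 2) θ) (t * s) x :
        Hm M (η ^ 2) R S θ) : HM M (η ^ 2) R) =
        cev (R := ℤ) (nop η S) (nop_commute η) (t * s) (x : HM M (η ^ 2) R) :=
      coe_cevZ_mT θ _ _ _ _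
    show (algebraMap 𝒪 R n) • ((cev (R := ℤ) (hT η (η ^ 2) S θ) (hT_commute η (η ^ 2) θ)
      (t * s) x : Hm M (η ^ 2) R S θ) : HM M (η ^ 2) R) = 0
    rw [h2, hx]
  have hfree := hG.free
  have h3 : cev (R := ℤ) (hT η (η ^ 2) S θ) (hT_commute η (η ^ 2) θ) (t * s) x = 0 := by
    have hreg : ∀ r : R, (algebraMap 𝒪 R n) * r = 0 → r = 0 := by
      intro r hr
      rw [← Algebra.smul_def, smul_eq_zero] at hr
      exact hr.resolve_left hn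
    set b := Module.Free.chooseBasis R (Hm M (η ^ 2) R S θ)
    apply b.ext_elem
    intro i
    rw [map_zero, Finsupp.zero_apply]
    apply hreg
    have h4 := congrArg (fun z => b.repr z i) h1
    rw [map_smul, Finsupp.smul_apply, smul_eq_mul, map_zero, Finsupp.zero_apply] at h4
    exact h4
  rw [mul_comm, map_mul, Module.End.mul_apply, cevZ_eq] at h3
  have hloc := isLocalAt_hT (M := M) (S := S) (ε := η ^ 2) (θ := θ) hη
    (MvPolynomial.map (Int.castRingHom R) s) (by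
      rw [hs, map_sub, MvPolynomial.map_X, MvPolynomial.map_C, map_sub, evk_X, evk_C]
      intro h0
      apply hθ
      rw [sub_eq_zero] at h0
      rw [h0]
      simp)
  exact hloc.1 (h3.trans (map_zero _).symm)

end Hm

end Fermat.Agent.HeckeRep
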