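import Fermat.Agent.HeckeRep.GMA

/-!
# Galois representations over local rings from pseudo-characters

`exists_rep_of_pseudo`: over a local ring in which `2` is a unit, an odd two-dimensional
pseudo-character with residually absolutely irreducible (some `x r s` is a unit) comes from a
representation.
-/

set_option autoImplicit false
set_option linter.unusedSectionVars false
set_option linter.unusedVariables false

open Polynomial
open scoped TensorProduct

namespace Fermat.Agent.HeckeRep

open Fermat.Agent.S30aux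

section Irr

variable {K V : Type*} [Field K] [AddCommGroup V] [Module K V]

lemma eq_bot_or_top_of_basis (h2 : (2 : K) ≠ 0) (b : Module.Basis (Fin 2) K V) (W : Submodule K V)
    (fc fr fs : V →ₗ[K] V) (hc0 : fc (b 0) = b 0) (hc1 : fc (b 1) = - b 1)
    {α β γ δ : K} (hβ : β ≠ 0) (hγ : γ ≠ 0)
    (hs : fs (b 0) = α • b 0 + β • b 1) (hr : fr (b 1) = γ • b 0 + δ • b 1)
    (hWc : ∀ x ∈ W, fc x ∈ W) (hWr : ∀ x ∈ W, fr x ∈ W) (hWs : ∀ x ∈ W, fs x ∈ W) :
    W = ⊥ ∨ W = ⊤ := by
  have htop : b 0 ∈ W → b 1 ∈ W → W = ⊤ := by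
    intro h0 h1
    rw [eq_top_iff, ← b.span_eq, Submodule.span_le]
    rintro _ ⟨i, rfl⟩
    fin_cases i
    · exact h0
    · exact h1
  have h01 : b 0 ∈ W → W = ⊤ := by
    intro h0
    refine htop h0 ?_
    have h3 := hWs _ h0
    rw [hs] at h3
    have h4 : β • b 1 ∈ W := by
      have := W.sub_mem h3 (W.smul_mem α h0)
      rwa [add_sub_cancel_left] at this
    exact (W.smul_mem_iff hβ).mp h4
  have h10 : b 1 ∈ W → W = ⊤ := by
    intro h1
    refine htop ?_ h1
    have h3 := hWr _ h1
    rw [hr] at h3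
    have h4 : γ • b 0 ∈ W := by
      have := W.sub_mem h3 (W.smul_mem δ h1)
      rwa [add_sub_cancel_right] at this
    exact (W.smul_mem_iff hγ).mp h4
  by_cases hW : W = ⊥
  · exact Or.inl hW
  · right
    obtain ⟨w, hw, hw0⟩ := W.ne_bot_iff.mp hW
    have hrep : w = b.repr w 0 • b 0 + b.repr w 1 • b 1 := by
      conv_lhs => rw [← b.sum_repr w, Fin.sum_univ_two]
    set x := b.repr w 0
    set y := b.repr w 1
    have hfc : fc w = x • b 0 - y • b 1 := by
      rw [hrep, map_add, map_smul, map_smul, hc0, hc1, smul_neg, sub_eq_add_neg]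
    have e1 : (2 * x) • b 0 ∈ W := by
      have := W.add_mem hw (hWc w hw)
      rw [hfc] at this
      have h5 : w + (x • b 0 - y • b 1) = (2 * x) • b 0 := by
        rw [hrep, two_mul, add_smul]; abel
      rwa [h5] at this
    have e2 : (2 * y) • b 1 ∈ W := by
      have := W.sub_mem hw (hWc w hw)
      rw [hfc] at this
      have h5 : w - (x • b 0 - y • b 1) = (2 * y) • b 1 := by
        rw [hrep, two_mul, add_smul]; abel
      rwa [h5] at this
    by_cases hx : x = 0
    · by_cases hy : y = 0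
      · exact absurd (by rw [hrep, hx, hy, zero_smul, zero_smul, add_zero]) hw0
      · exact h10 ((W.smul_mem_iff (mul_ne_zero h2 hy)).mp e2)
    · exact h01 ((W.smul_mem_iff (mul_ne_zero h2 hx)).mp e1)

end Irr

section Rep

/-- the absolute Galois group -/
local notation "GQ'" => (AlgebraicClosure ℚ ≃ₐ[ℚ] AlgebraicClosure ℚ)

variable {T : Type} [CommRing T] [IsLocalRing T]

lemma xx_c_left {G R : Type*} [Group G] [CommRing R] {t : G → R} {κ : R} (hκ : 2 * κ = 1) {c : G}
    (hc : c * c = 1) (htc : t c = 0) (ht1 : t 1 = 2) (s : G) : xx κ t c c s = 0 := by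
  rw [xx, aa, aa, aa, hc, htc, ht1, ← mul_assoc c c s, hc, one_mul]
  linear_combination (-κ * (t s + t (c * s))) * hκ

theorem exists_rep_of_pseudo (h2 : IsUnit (2 : T))
    (t : GQ' → T) (d : GQ' →* Tˣ) (H : IsPseudo t d) (hct : AdicCont t)
    (c : GQ') (hc : c * c = 1) (hdc : ((d c : Tˣ) : T) = -1)
    {κ : T} (hκ : 2 * κ = 1) (r s : GQ') (hrs : IsUnit (xx κ t c r s)) :
    ∃ ρ : GaloisRepAdic T, (∀ g, (ρ.ρ g).charpoly = X ^ 2 - C (t g) * X + C ((d g : Tˣ) : T)) ∧
      (∀ σ, (∀ y, t (y * σ) = t y) → ρ.ρ σ = 1) ∧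
      ρ.det = d ∧ (∀ g, ρ.trace g = t g) ∧
      ρ.residual.IsAbsolutelyIrreducible := by
  obtain ⟨X₀, hX₀⟩ := hrs
  have hX : xx κ t c r s = X₀ := hX₀.symm
  set M := matRep H hκ hc hdc X₀ hX with hM
  have htc := t_c H hκ hc hdc
  let ρ : GaloisRepAdic T :=
    { V := Fin 2 → T
      finrank_eq := by simp
      ρ := (Matrix.toLinAlgEquiv' (R := T) (n := Fin 2)).toAlgHom.toMonoidHom.comp M
      isAdicContinuous := by
        intro n
        obtain ⟨L, hL, h1⟩ := hct n
        refine ⟨L, hL, fun σ hσ v => ?_⟩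
        have h3 := matRep_sub_one_mem H hκ hc hdc X₀ hX _ σ (h1 σ hσ)
        have h4 : (Matrix.toLinAlgEquiv' (R := T) (n := Fin 2)) (M σ) v - v =
            ∑ i, ∑ j, (M σ i j - (1 : Matrix (Fin 2) (Fin 2) T) i j) •
              (v j • (Pi.single i 1 : Fin 2 → T)) := by
          rw [Matrix.toLinAlgEquiv'_apply]
          ext k
          fin_cases k <;>
            simp [Fin.sum_univ_two, Pi.single_apply] <;> ring
        show (Matrix.toLinAlgEquiv' (R := T) (n := Fin 2)) (M σ) v - v ∈ _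
        rw [h4]
        exact Submodule.sum_mem _ fun i _ => Submodule.sum_mem _ fun j _ =>
          Submodule.smul_mem_smul (h3 i j) Submodule.mem_top }
  have hρ : ∀ g, ρ.ρ g = Matrix.toLin' (M g) := fun g => rfl
  refine ⟨ρ, ?_, ?_, ?_, ?_, ?_⟩
  · intro g
    rw [hρ]
    rw [Matrix.charpoly_toLin', Matrix.charpoly_fin_two, trace_matRep, det_matRep]
  · intro σ hσ
    have h3 := matRep_sub_one_mem H hκ hc hdc X₀ hX ⊥ σ (fun y => by rw [hσ, sub_self]; exact Ideal.zero_mem _)
    have h4 : M σ = 1 := by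
      ext i j
      exact sub_eq_zero.mp ((Submodule.mem_bot T).mp (h3 i j))
    rw [hρ, h4, Matrix.toLin'_one]; rfl
  · ext g
    show LinearMap.det (ρ.ρ g) = _
    rw [hρ, LinearMap.det_toLin', det_matRep]
  · intro g
    show LinearMap.trace T _ (ρ.ρ g) = _
    rw [hρ, Matrix.trace_toLin'_eq, trace_matRep]
  · intro W hW
    set k := IsLocalRing.ResidueField T
    set K := AlgebraicClosure k
    let b0 : Module.Basis (Fin 2) T (Fin 2 → T) := Pi.basisFun T (Fin 2)
    let b1 : Module.Basis (Fin 2) k (k ⊗[T] (Fin 2 → T)) := Algebra.TensorProduct.basis k b0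
    let b2 : Module.Basis (Fin 2) K (K ⊗[k] (k ⊗[T] (Fin 2 → T))) := Algebra.TensorProduct.basis K b1
    have hb2 : ∀ i, b2 i = (1 : K) ⊗ₜ[k] ((1 : k) ⊗ₜ[T] (b0 i)) := by
      intro i
      rw [Algebra.TensorProduct.basis_apply, Algebra.TensorProduct.basis_apply]
    have hsm : ∀ (a : T) (v : Fin 2 → T), (1 : K) ⊗ₜ[k] ((1 : k) ⊗ₜ[T] (a • v)) =
        (algebraMap k K (algebraMap T k a)) • ((1 : K) ⊗ₜ[k] ((1 : k) ⊗ₜ[T] v)) := by
      intro a v
      rw [← TensorProduct.smul_tmul, Algebra.smul_def, mul_one, ← mul_one (algebraMap T k a),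
        ← smul_eq_mul, ← TensorProduct.smul_tmul', ← TensorProduct.smul_tmul, Algebra.smul_def,
        mul_one, ← mul_one (algebraMap k K _), ← smul_eq_mul, ← TensorProduct.smul_tmul',
        smul_eq_mul, mul_one]
    have hact : ∀ (g : GQ') (i : Fin 2),
        ((ρ.ρ g).baseChange k).baseChange K (b2 i) =
          (algebraMap k K (algebraMap T k (M g 0 i))) • b2 0 +
            (algebraMap k K (algebraMap T k (M g 1 i))) • b2 1 := by
      intro g i
      rw [hb2, LinearMap.baseChange_tmul, LinearMap.baseChange_tmul]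
      have h3 : (ρ.ρ g) (b0 i) = M g 0 i • b0 0 + M g 1 i • b0 1 := by
        rw [hρ]
        show Matrix.toLin' (M g) (Pi.basisFun T (Fin 2) i) = _
        rw [Matrix.toLin'_apply]
        ext j
        fin_cases j <;> fin_cases i <;>
          simp [Matrix.mulVec, dotProduct, b0, Pi.basisFun_apply, Pi.single_apply]
      rw [h3, TensorProduct.tmul_add, TensorProduct.tmul_add, hsm, hsm, ← hb2, ← hb2]
    have hchar : (2 : K) ≠ 0 := by
      have h5 : IsUnit (algebraMap k K (algebraMap T k 2)) := (h2.map _).map _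
      rw [map_ofNat, map_ofNat] at h5
      exact h5.ne_zero
    have hMc : M c = !![1, 0; 0, -1] := by
      rw [hM, matRep_apply, xx_c_left hκ hc htc H.one, zero_mul]
      have e1 : aa κ t c c = 1 := by rw [aa, hc, htc, H.one, zero_add, mul_comm, hκ]
      have e2 : dd κ t c c = -1 := by rw [dd, hc, htc, H.one]; linear_combination -hκ
      have e3 : xx κ t c r c = 0 := by
        rw [xx, e1, aa, aa, H.comm r c, H.comm c (r * c), mul_assoc r c c, hc, mul_one]; ring
      rw [e1, e2, e3]
    have hMs : M s 1 0 = X₀ := by rw [hM, matRep_apply]; exact hX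
    have hMr : M r 0 1 = 1 := by
      rw [hM, matRep_apply]
      show xx κ t c r s * ((X₀⁻¹ : Tˣ) : T) = 1
      rw [hX, Units.mul_inv]
    refine eq_bot_or_top_of_basis hchar b2 W (((ρ.ρ c).baseChange k).baseChange K)
      (((ρ.ρ r).baseChange k).baseChange K) (((ρ.ρ s).baseChange k).baseChange K) ?_ ?_ ?_ ?_
      (hact s 0) (hact r 1) (fun x hx => hW c x hx) (fun x hx => hW r x hx) (fun x hx => hW s x hx)
    · rw [hact, hMc]; simp
    · rw [hact, hMc]; simp; exact neg_one_smul K (b2 1)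
    · rw [hMs]
      exact ((X₀.isUnit.map _).map (algebraMap k K)).ne_zero
    · rw [hMr]; simp

end Rep

end Fermat.Agent.HeckeRep
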